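/-
K6 at p = 3 (helper4): the tameness predicate for exponents `d = 3 ^ k`.

`RT/K6/PlanP.lean` asks `Nat.Coprime d (6 * L)`; at `p = 3` the exponent is a power of `3`, and the
cover `X_H(L; M) → X₀(L)` is still unramified when the level `L` is EVEN (`Γ₀(L)` has no elliptic
point of order `3`: `RT/K7F/RH0DvdH.lean`, `k7fdvd_three_dvd`).

* `Tame3 d L := Nat.Coprime d (2 * L) ∧ 2 ∣ L`;
* `IsTameAt_t3 L M r H := ∃ d, Tame3 d L ∧ ∀ c, c ^ d ∈ ±H`.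
-/
import Fermat.Agent.RT.K6.PlanP

set_option autoImplicit false

noncomputable section

namespace Fermat.Agent.RT.K6

open ModularCurve AlgebraicCurve HahnSeries Fermat.Agent.ES Fermat.Agent.ES1
  Fermat.Agent.ES1.G2

/-- tameness at `p = 3`: the exponent `d` is prime to `2 L`, and the level `L` is even -/
def Tame3 (d L : ℕ) : Prop := Nat.Coprime d (2 * L) ∧ 2 ∣ L

theorem rtk6t_cop {d L : ℕ} (h : Tame3 d L) : Nat.Coprime d (2 * L) := h.1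

theorem rtk6t_even {d L : ℕ} (h : Tame3 d L) : 2 ∣ L := h.2

theorem rtk6t_copL {d L : ℕ} (h : Tame3 d L) : Nat.Coprime d L :=
  Nat.Coprime.coprime_mul_left_right h.1

theorem rtk6t_cop2 {d L : ℕ} (h : Tame3 d L) : Nat.Coprime d 2 :=
  Nat.Coprime.coprime_mul_right_right h.1

theorem rtk6t_odd {d L : ℕ} (h : Tame3 d L) : Odd d :=
  Nat.coprime_two_right.1 (rtk6t_cop2 h)

theorem rtk6t_ne_zero {d L : ℕ} (h : Tame3 d L) : d ≠ 0 := by
  rintro rfl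
  have h1 := rtk6t_odd h
  simp at h1

theorem rtk6t_of_dvd {d' d L : ℕ} (hdvd : d' ∣ d) (h : Tame3 d L) : Tame3 d' L :=
  ⟨Nat.Coprime.coprime_dvd_left hdvd h.1, h.2⟩

theorem rtk6t_not_dvd {q d L : ℕ} (hq : q.Prime) (hqL : q ∣ L) (h : Tame3 d L) : ¬ q ∣ d := by
  intro hqd
  have h1 : q ∣ Nat.gcd d L := Nat.dvd_gcd hqd hqL
  rw [(rtk6t_copL h).gcd_eq_one] at h1
  exact hq.one_lt.ne' (Nat.dvd_one.mp h1)

theorem rtk6t_mul_two {d L : ℕ} (h : Tame3 d L) : Tame3 d (L * 2) := by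
  refine ⟨?_, Dvd.dvd.mul_right h.2 2⟩
  have h2 := rtk6t_cop2 h
  have hL := rtk6t_copL h
  exact Nat.Coprime.mul_right h2 (Nat.Coprime.mul_right hL h2)

/-- the WHOLE group of diamonds `(ℤ/M)ˣ / ±H` has exponent prime to `2 L`, and `L` is even
(the `p = 3` twin of `IsTameAt`). -/
def IsTameAt_t3 (L M _r : ℕ) (H : Subgroup (ZMod M)ˣ) : Prop :=
  ∃ d : ℕ, Tame3 d L ∧ ∀ c : (ZMod M)ˣ, c ^ d ∈ pmH H

theorem rtk6t_isTameAt_mono {L M r : ℕ} {H H' : Subgroup (ZMod M)ˣ} (hle : pmH H ≤ pmH H')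
    (h : IsTameAt_t3 L M r H) : IsTameAt_t3 L M r H' := by
  obtain ⟨d, hd, hc⟩ := h
  exact ⟨d, hd, fun c => hle (hc c)⟩

theorem rtk6t_isTameAt_mul_two {L M r : ℕ} {H : Subgroup (ZMod M)ˣ}
    (h : IsTameAt_t3 L M r H) : IsTameAt_t3 (L * 2) M r H := by
  obtain ⟨d, hd, hc⟩ := h
  exact ⟨d, rtk6t_mul_two hd, hc⟩

end Fermat.Agent.RT.K6
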