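/-
K6 at p = 3 (helper4): fork of the declarations of `Fermat.Agent.RT.K6.DUnr` that depend on `IsTameAt`,
with `Tame3 d L := Nat.Coprime d (2 * L) ∧ 2 ∣ L` in place of `Nat.Coprime d (6 * L)` (suffix `_t3`).
Generated from the landed file; the proofs are the originals.
-/
import Fermat.Agent.RT.K6.DUnr
import Fermat.Agent.RT.K6T.Base
import Fermat.Agent.INJ.HMMem
import Fermat.Agent.INJ.Hauptmodul

set_option autoImplicit false
set_option linter.style.haveILetI false
set_option linter.unusedSectionVars false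
set_option synthInstance.maxHeartbeats 400000
set_option maxHeartbeats 1000000
noncomputable section
namespace Fermat.Agent.RT.K6
open HahnSeries ModularCurve AlgebraicCurve Polynomial IntermediateField
open Fermat.Agent.ES Fermat.Agent.ES1 Fermat.Agent.S24 Fermat.Agent.INJ
section Abs
variable {K F F' : Type*} [Field K] [Field F] [Field F'] [Algebra K F] [Algebra K F']
end Abs
section Bar
variable (L M : ℕ) (H : Subgroup (ZMod M)ˣ) [NeZero L]

/-- over `j = 0`, `2 ∣ L`: the function `h + 256` of `F₀(L)` (`h` the Hauptmodul of `X₀(2)`,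
`j h² = (h + 256)³`) has order `1` at every place of `F_H(L)` over `j = 0` -/
theorem rtk6t_ord_hm (hML : M ∣ L) (h2 : 2 ∣ L) (w : Place Kb (fieldBar L M H))
    (hw : 0 < w.ord (jFH L M H)) :
    w.ord (rtk6unrIncl L M H
      ((⟨hm2 Kb, hm2_mem L h2⟩ : FF L) + algebraMap Kb (FF L) 256)) = 1 := by
  have hR := stmtRamJH L M H hML
  set h0 : FF L := ⟨hm2 Kb, hm2_mem L h2⟩ with hh0
  set c0 : FF L := algebraMap Kb (FF L) 256 with hc0
  have hrel0 : jF L * h0 ^ 2 = (h0 + c0) ^ 3 := by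
    apply Subtype.ext
    show jBar * hm2 Kb ^ 2 = (hm2 Kb + algebraMap Kb (LaurentSeries Kb) 256) ^ 3
    rw [hmMem_jBar_eq, hm2_j, map_ofNat]
  set h : fieldBar L M H := rtk6unrIncl L M H h0 with hh
  set c : fieldBar L M H := algebraMap Kb (fieldBar L M H) 256 with hc
  have hrel : jFH L M H * h ^ 2 = (h + c) ^ 3 := by
    have := congrArg (rtk6unrIncl L M H) hrel0
    rw [map_mul, map_pow, map_pow, map_add, rtk6unrIncl_jF, AlgHom.commutes] at this
    exact this
  have hmap : rtk6unrIncl L M H (h0 + c0) = h + c := by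
    rw [map_add, AlgHom.commutes]
  rw [hmap]
  have hc0' : c ≠ 0 := by
    rw [hc]
    simp
  have hcord : w.ord c = 0 := PlaceAux.ord_algebraMap w 256
  have hj0 : jFH L M H ≠ 0 := by
    intro h0'
    rw [h0'] at hw
    simp at hw
  have hh0' : h ≠ 0 := by
    intro h0'
    rw [h0'] at hrel
    simp only [ne_eq, OfNat.ofNat_ne_zero, not_false_eq_true, zero_pow, mul_zero, zero_add] at hrel
    exact hc0' (pow_eq_zero_iff (by norm_num) |>.mp hrel.symm)
  have hhc0 : h + c ≠ 0 := by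
    intro h0'
    rw [h0'] at hrel
    simp only [ne_eq, OfNat.ofNat_ne_zero, not_false_eq_true, zero_pow] at hrel
    rcases mul_eq_zero.mp hrel with h1 | h1
    · exact hj0 h1
    · exact hh0' (pow_eq_zero_iff (by norm_num) |>.mp h1)
  have hord : w.ord (jFH L M H) + 2 * w.ord h = 3 * w.ord (h + c) := by
    have := congrArg w.ord hrel
    rw [w.ord_mul hj0 (pow_ne_zero 2 hh0'), ← zpow_natCast, ← zpow_natCast, w.ord_zpow,
      w.ord_zpow] at this
    push_cast at this
    exact this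
  have hh_ord : w.ord h = 0 := by
    rcases lt_trichotomy (w.ord h) 0 with hlt | heq | hgt
    · have e := PlaceAux.ord_add_eq_of_lt w hh0' hc0' (by rw [hcord]; exact hlt)
      rw [e] at hord
      omega
    · exact heq
    · have e := PlaceAux.ord_add_eq_of_lt w hc0' hh0' (by rw [hcord]; exact hgt)
      rw [add_comm c h, hcord] at e
      rw [e] at hord
      omega
  rw [hh_ord, mul_zero, add_zero] at hord
  have hdvd : w.ord (jFH L M H) ∣ 3 := hR.zero w hw
  rw [hord] at hdvd hw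
  have hpos : 0 < w.ord (h + c) := by omega
  have h1 : w.ord (h + c) ∣ 1 := by
    obtain ⟨k, hk⟩ := hdvd
    refine ⟨k, ?_⟩
    have : (3 : ℤ) * 1 = 3 * (w.ord (h + c) * k) := by rw [mul_one, ← mul_assoc, ← hk]
    exact mul_left_cancel₀ (by norm_num) this
  exact Int.eq_one_of_dvd_one hpos.le h1

/-- the ramification witness at every place of `fieldBar L M H` (`p = 3`: `L` even) -/
theorem rtk6unr_hram_t3 (hML : M ∣ L) (d : ℕ) (hd : Tame3 d (L))
    (w : Place Kb (fieldBar L M H)) :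
    ∃ s : FF L, 0 < w.ord (rtk6unrIncl L M H s) ∧
      IsCoprime (w.ord (rtk6unrIncl L M H s)) (d : ℤ) := by
  have hR := stmtRamJH L M H hML
  have h2L : 2 ∣ L := rtk6t_even hd
  have hdL : Nat.Coprime d L := rtk6t_copL hd
  have hd2 : IsCoprime (2 : ℤ) (d : ℤ) := by
    have : Nat.Coprime 2 d := (rtk6t_cop2 hd).symm
    exact_mod_cast Nat.isCoprime_iff_coprime.2 this
  have hdL' : IsCoprime (L : ℤ) (d : ℤ) := Nat.isCoprime_iff_coprime.2 hdL.symm
  rcases ramJH_cases L M H hR w with ⟨c, hc⟩ | hinf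
  · by_cases h0 : c = 0
    · subst h0
      rw [map_zero, sub_zero] at hc
      refine ⟨(⟨hm2 Kb, hm2_mem L h2L⟩ : FF L) + algebraMap Kb (FF L) 256, ?_, ?_⟩
      · rw [rtk6t_ord_hm L M H hML h2L w hc]
        exact one_pos
      · rw [rtk6t_ord_hm L M H hML h2L w hc]
        exact isCoprime_one_left
    refine ⟨jF L - algebraMap Kb (FF L) c, ?_, ?_⟩
    · rw [map_sub, rtk6unrIncl_jF, AlgHom.commutes]
      exact hc
    · rw [map_sub, rtk6unrIncl_jF, AlgHom.commutes]
      by_cases h1 : c = 1728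
      · subst h1
        exact IsCoprime.of_isCoprime_of_dvd_left hd2 (hR.e1728 w hc)
      · rw [hR.gen c h0 h1 w hc]
        exact isCoprime_one_left
  · refine ⟨(jF L)⁻¹, ?_, ?_⟩
    · rw [map_inv₀, rtk6unrIncl_jF, Place.ord_inv]
      omega
    · rw [map_inv₀, rtk6unrIncl_jF]
      exact IsCoprime.of_isCoprime_of_dvd_left hdL' (hR.inf w hinf)

/-- **D-unr over `ℚ̄`.**  `y ∈ F_H(L)`, `y ^ d = u ∈ F₀(L)`, `gcd (d, 6 L) = 1`: then
`d ∣ ord_P u` at every place `P` of `F₀(L)`. -/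
theorem rtk6unr_bar_t3 (hML : M ∣ L) (d : ℕ) (hd : Tame3 d (L))
    (u : FF L) (y : LaurentSeries Kb) (hy : y ∈ fieldBar L M H)
    (hyu : y ^ d = (u : LaurentSeries Kb)) (P : Place Kb (FF L)) :
    (d : ℤ) ∣ P.ord u := by
  have hFF := rtk6unr_ff1 L
  have hFF' := rtk6unr_ff1' L M H hML
  haveI := es1h_gen_hasPrincipalDivisors hFF'
  have hfin := es1h_gen_finiteAlong (rtk6unrIncl L M H) hFF hFF'
  have hn : finrankAlong Kb (rtk6unrIncl L M H) ≠ 0 := by
    letI := algebraAlong (rtk6unrIncl L M H)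
    haveI : Module.Finite (FF L) (fieldBar L M H) := hfin
    exact (Module.finrank_pos (R := FF L) (M := fieldBar L M H)).ne'
  refine rtk6unr_abs (rtk6unrIncl L M H) (es1h_gen_integral _ hFF hFF')
    (es1h_gen_fundamentalIdentityAlong _ hFF hFF') hn d (rtk6unr_hram_t3 L M H hML d hd) u
    ⟨y, hy⟩ ?_ P ?_
  · apply Subtype.ext
    rw [rtk6unrIncl_coe]
    exact hyu
  · rw [Fermat.Agent.ES.R.place_deg_eq_one P (es1h_gen_residue_bijective hFF P)]
    exact one_ne_zero

end Bar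
section NF
variable (K₀ : IntermediateField ℚ NfQb) (L M : ℕ) (H : Subgroup (ZMod M)ˣ)

/-- **D-unr over an intermediate field `K₀ ⊆ ℚ̄`.**  `y ∈ fieldC K₀ L M H`,
`y ^ d = u ∈ modularFunctionFieldFullC K₀ L`, `gcd (d, 6 L) = 1`: then `d ∣ ord_Q u` at every
place `Q` of the `Γ₀(L)`-field over `K₀`. -/
theorem rtk6unr_nf_t3 (hL : L ≠ 0) (hML : M ∣ L) (d : ℕ) (hd : Tame3 d (L))
    (u : modularFunctionFieldFullC K₀ L) (y : LaurentSeries K₀) (hy : y ∈ fieldC K₀ L M H)
    (hyu : y ^ d = (u : LaurentSeries K₀)) (Q : Place K₀ (modularFunctionFieldFullC K₀ L)) :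
    (d : ℤ) ∣ Q.ord u := by
  haveI : NeZero L := ⟨hL⟩
  obtain ⟨v, hv⟩ := bgRam_hext K₀ L Q
  rw [← hv u]
  refine rtk6unr_bar_t3 L M H hML d hd (nfEmb K₀ L u) (coeffMap (algebraMap K₀ NfQb) y)
    (nfH_coeffMap_mem_bar K₀ L M H hy) ?_ v
  rw [nfEmb_coe, ← hyu, map_pow]

end NF
end Fermat.Agent.RT.K6
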