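/-
K6 at p = 3 (helper4): fork of the declarations of `Fermat.Agent.RT.K6.C4ChiWireS` that depend on `IsTameAt`,
with `Tame3 d L := Nat.Coprime d (2 * L) ∧ 2 ∣ L` in place of `Nat.Coprime d (6 * L)` (suffix `_t3`).
Generated from the landed file; the proofs are the originals.
-/
import Fermat.Agent.RT.K6.C4ChiWireS
import Fermat.Agent.RT.K6T.Base
import Fermat.Agent.RT.K6T.DUnr

set_option autoImplicit false
set_option linter.style.haveILetI false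
set_option linter.unusedSectionVars false
set_option linter.unusedVariables false
set_option linter.style.longLine false
set_option synthInstance.maxHeartbeats 400000
set_option maxHeartbeats 4000000
noncomputable section
namespace Fermat.Agent.RT.K6
open ModularCurve Polynomial IntermediateField Fermat.Agent.INJ Fermat.Agent.AL AlgebraicCurve
open Fermat.Agent.ES Fermat.Agent.ES.G2 Fermat.Agent.STB Fermat.Agent.UNIP Fermat.Agent.S36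
open Fermat.Agent.RIB.MP Fermat.Agent.ES1

/-- `gcd (d, 6 L) = 1`, `q ∣ L` ⇒ `q ∤ d` -/
theorem rtk6c4ws_not_dvd_t3 {q L d : ℕ} (hq : q.Prime) (hqL : q ∣ L) (hd : Tame3 d (L)) :
    ¬ q ∣ d := by
  exact rtk6t_not_dvd hq hqL hd

section Base
variable {A : ValuationSubring Qb} {q M₁ : ℕ} [NeZero q] [NeZero M₁] [NeZero (M₁ * q)]
  {M : ℕ} [NeZero M] {H : Subgroup (ZMod M)ˣ}

/-- **D-unr**: `dS ∣ ord_P u′_ψ` at every place of the `Γ₀`-field -/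
theorem rtk6c4ws_hhor_t3 (ψ : (ZMod M)ˣ →* (↥(beta0Field A))ˣ) (hML : M ∣ M₁ * q) {dS : ℕ}
    (hdS : Tame3 dS ((M₁ * q))) (hψd : ∀ c, ψ c ^ dS = 1)
    (P : Place ↥(beta0Field A) ↥(modularFunctionFieldFullC ↥(beta0Field A) (M₁ * q))) :
    (dS : ℤ) ∣ P.ord (rtk6c4wsU (M₁ := M₁) (H := H) ψ hML hψd) :=
  rtk6unr_nf_t3 (beta0Field A) (M₁ * q) M H (NeZero.ne (M₁ * q)) hML dS hdS _
    (rtk6n0Y ↥(beta0Field A) M H ψ) (rtk6n0Y_mem hML) rfl P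

variable {E₁ : Type} [Field E₁] (f : ↥(beta0Field A) →+* E₁)
  [Algebra ↥(modularFunctionFieldFullC ↥(beta0Field A) (M₁ * q)) ↥(fieldC E₁ (M₁ * q) M H)]
  (halg : ∀ z : ↥(modularFunctionFieldFullC ↥(beta0Field A) (M₁ * q)),
    algebraMap ↥(modularFunctionFieldFullC ↥(beta0Field A) (M₁ * q))
      ↥(fieldC E₁ (M₁ * q) M H) z = rtk6c4fdIota f (M₁ * q) M H z)
variable [IsDiscreteValuationRing ↥(beta0Ring A (beta0Field A))]
  {π : ↥(beta0Ring A (beta0Field A))} (hπ : Irreducible π)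
  (ιC : ↥(beta0Field A) →+* ℂ) (hq : q.Prime) (hqM : ¬ q ∣ M₁)

include halg in
/-- **the concrete étale family**: all the hypotheses of helper74's `rtk6gi_et_family`,
`rtk6gi_cross_pack`, `rtk6gi_sm_pack` for `y i := rtk6n0fY f (M₁ q) M H (ψ′ i) hML`,
`u i := rtk6c4wsU (ψ′ i) hML _`, `m := dS`. -/
theorem rtk6c4ws_family_t3 (hA : A.LiesOverPrime q) (hML : M ∣ M₁ * q) (hqN : q ∣ M)
    (hM3 : 3 ≤ M)
    {w : fieldBar (M₁ * q) M H ≃ₐ[Qb] fieldBar (M₁ * q) M H} (hw : IsWAt (M₁ * q) M H q w)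
    {dS : ℕ} (hdS : Tame3 dS ((M₁ * q)))
    {ι : Type*} (ψ' : ι → ((ZMod M)ˣ →* (↥(beta0Field A))ˣ))
    (hψH : ∀ i, ∀ h ∈ H, ψ' i h = 1) (hψ1 : ∀ i, ψ' i (-1) = 1)
    (hψd : ∀ i, ∀ c, ψ' i c ^ dS = 1)
    (hψr : ∀ i, ∀ c : (ZMod M)ˣ, IsAtR M q c → ψ' i c = 1) :
    ∃ n₀ : ι → ℤ,
      (∀ i, rtk6n0fY f (M₁ * q) M H (ψ' i) hML ^ dS =
        algebraMap ↥(modularFunctionFieldFullC ↥(beta0Field A) (M₁ * q))
          ↥(fieldC E₁ (M₁ * q) M H) (rtk6c4wsU (M₁ := M₁) (H := H) (ψ' i) hML (hψd i))) ∧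
      (∀ i, rtk6c4wsU (M₁ := M₁) (H := H) (ψ' i) hML (hψd i) ≠ 0) ∧
      (∀ i, ∀ P : Place ↥(beta0Field A)
          ↥(modularFunctionFieldFullC ↥(beta0Field A) (M₁ * q)),
        (dS : ℤ) ∣ P.ord (rtk6c4wsU (M₁ := M₁) (H := H) (ψ' i) hML (hψd i))) ∧
      (∀ i, (mgvV hπ ιC hq hqM true).valuation
        (rtk6c4wsU (M₁ := M₁) (H := H) (ψ' i) hML (hψd i)) = 1) ∧
      (∀ i, (mgvV hπ ιC hq hqM false).valuation
          (rtk6c4wsU (M₁ := M₁) (H := H) (ψ' i) hML (hψd i))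
        = (mgvV hπ ιC hq hqM false).valuation
          (algebraMap ↥(beta0Ring A (beta0Field A))
            ↥(modularFunctionFieldFullC ↥(beta0Field A) (M₁ * q)) π) ^ n₀ i) ∧
      (∀ i, (dS : ℤ) ∣ n₀ i) := by
  have hqd : ¬ q ∣ dS := rtk6c4ws_not_dvd_t3 hq (Dvd.intro_left M₁ rfl) hdS
  have key := fun i => rtk6c4ws_et hπ ιC hq hqM hA hML hqN hM3 hw (ψ' i) (hψH i) (hψ1 i) hqd
    (hψd i) (hψr i)
  choose n₀ hdvd hn₀ using key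
  exact ⟨n₀, fun i => rtk6c4ws_hyu f halg (ψ' i) hML (hψd i),
    fun i => rtk6c4ws_hu (ψ' i) hML hM3 (hψH i) (hψ1 i) (hψd i),
    fun i P => rtk6c4ws_hhor_t3 (ψ' i) hML hdS (hψd i) P,
    fun i => rtk6c4ws_hy₁ hπ ιC hq hqM (ψ' i) hML hM3 (hψH i) (hψ1 i) (hψd i), hn₀, hdvd⟩

include hπ ιC hq hqM halg in
/-- **the ramified generator**: the hypotheses `hz0 hhor hz₁ hn₀ hzy` of helper54's
`rtk6gxi_crossE` for `z := rtk6c4wsU ψ_r hML _`, `y := rtk6n0fY f (M₁ q) M H ψ_r hML`, with `n₀`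
prime to `d` (so that `a n₀ − b d = 1` is solvable: `rtk6c4w_bezout`). -/
theorem rtk6c4ws_ram_data_t3 (hA : A.LiesOverPrime q) (hML : M ∣ M₁ * q) (hqN : q ∣ M)
    (hM3 : 3 ≤ M)
    {w : fieldBar (M₁ * q) M H ≃ₐ[Qb] fieldBar (M₁ * q) M H} (hw : IsWAt (M₁ * q) M H q w)
    {d : ℕ} (hd : Tame3 d ((M₁ * q)))
    (ψ : (ZMod M)ˣ →* (↥(beta0Field A))ˣ)
    (hψH : ∀ h ∈ H, ψ h = 1) (hψ1 : ψ (-1) = 1) (hψd : ∀ c, ψ c ^ d = 1)
    {c₀ : (ZMod M)ˣ} (hc₀ : IsAtR M q c₀) (hord : orderOf (ψ c₀) = d) :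
    ∃ n₀ : ℤ, Nat.Coprime n₀.natAbs d ∧
      rtk6c4wsU (M₁ := M₁) (H := H) ψ hML hψd ≠ 0 ∧
      (∀ P : Place ↥(beta0Field A) ↥(modularFunctionFieldFullC ↥(beta0Field A) (M₁ * q)),
        (d : ℤ) ∣ P.ord (rtk6c4wsU (M₁ := M₁) (H := H) ψ hML hψd)) ∧
      (mgvV hπ ιC hq hqM true).valuation (rtk6c4wsU (M₁ := M₁) (H := H) ψ hML hψd) = 1 ∧
      (mgvV hπ ιC hq hqM false).valuation (rtk6c4wsU (M₁ := M₁) (H := H) ψ hML hψd)
        = (mgvV hπ ιC hq hqM false).valuation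
          (algebraMap ↥(beta0Ring A (beta0Field A))
            ↥(modularFunctionFieldFullC ↥(beta0Field A) (M₁ * q)) π) ^ n₀ ∧
      algebraMap ↥(modularFunctionFieldFullC ↥(beta0Field A) (M₁ * q))
        ↥(fieldC E₁ (M₁ * q) M H) (rtk6c4wsU (M₁ := M₁) (H := H) ψ hML hψd)
        = rtk6n0fY f (M₁ * q) M H ψ hML ^ d := by
  have hqd : ¬ q ∣ d := rtk6c4ws_not_dvd_t3 hq (Dvd.intro_left M₁ rfl) hd
  obtain ⟨n₀, hn₀, hcop⟩ := rtk6c4ws_ram hπ ιC hq hqM hA hML hqN hM3 hw ψ hψH hψ1 hqd hψd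
    hc₀ hord
  exact ⟨n₀, hcop, rtk6c4ws_hu ψ hML hM3 hψH hψ1 hψd, fun P => rtk6c4ws_hhor_t3 ψ hML hd hψd P,
    rtk6c4ws_hy₁ hπ ιC hq hqM ψ hML hM3 hψH hψ1 hψd, hn₀,
    (rtk6c4ws_hyu f halg ψ hML hψd).symm⟩

end Base
section Top
variable {A : ValuationSubring Qb} {q M₁ : ℕ} [NeZero q] [NeZero M₁] [NeZero (M₁ * q)]
  [IsDiscreteValuationRing ↥(beta0Ring A (beta0Field A))]
  {π : ↥(beta0Ring A (beta0Field A))} (hπ : Irreducible π)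
  (ιC : ↥(beta0Field A) →+* ℂ) (hq : q.Prime) (hqM : ¬ q ∣ M₁)
  (K₁ : IntermediateField ℚ Qb) [NumberField ↥K₁] [IsGalois ℚ ↥K₁]
  (M : ℕ) [NeZero M] (H : Subgroup (ZMod M)ˣ)
  (f : ↥(beta0Field A) →+* ↥(mgcE A K₁))
  (hf : ∀ a : ↥(beta0Field A), ((f a : ↥(mgcE A K₁)) : Qb) = (a : Qb))
  [Algebra ↥(modularFunctionFieldFullC ↥(beta0Field A) (M₁ * q))
    ↥(rtk6diF A K₁ (M₁ * q) M H)]
  (halg : ∀ z : ↥(modularFunctionFieldFullC ↥(beta0Field A) (M₁ * q)),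
    algebraMap ↥(modularFunctionFieldFullC ↥(beta0Field A) (M₁ * q))
      ↥(rtk6diF A K₁ (M₁ * q) M H) z = rtk6c4fdIota f (M₁ * q) M H z)
  (hA : A.LiesOverPrime q) {d : ℕ} (hd0 : d ≠ 0) {ϖ : ↥(mgcA A K₁)}
  (hϖd : ϖ ^ d =
    beta0RingIncl (A := A) (le_sup_left : beta0Field A ≤ beta0Field A ⊔ K₁) π)
end Top
end Fermat.Agent.RT.K6
end
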