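/-
K6 at p = 3 (helper4): fork of the declarations of `Fermat.Agent.RT.K6.Psi` that depend on `IsTameAt`,
with `Tame3 d L := Nat.Coprime d (2 * L) ∧ 2 ∣ L` in place of `Nat.Coprime d (6 * L)` (suffix `_t3`).
Generated from the landed file; the proofs are the originals.
-/
import Fermat.Agent.RT.K6.Psi
import Fermat.Agent.RT.K6T.Base

set_option autoImplicit false
set_option linter.style.haveILetI false
set_option linter.unusedVariables false
noncomputable section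
namespace Fermat.Agent.RT.K6
open Fermat.Agent.ES1
section Abs
variable {G : Type*} [CommGroup G] [Finite G]
end Abs
section CRT
variable {M r : ℕ}
end CRT
section Product
variable {M r : ℕ} {H : Subgroup (ZMod M)ˣ}

/-- a tame exponent is odd -/
theorem rtk6psi_odd_of_coprime_t3 {L d : ℕ} (h : Tame3 d (L)) : Odd d := by
  exact rtk6t_odd h

/-- a tame exponent is not zero -/
theorem rtk6psi_ne_zero_of_coprime_t3 {L d : ℕ} (h : Tame3 d (L)) : d ≠ 0 := by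
  exact rtk6t_ne_zero h

end Product
section Dr
variable {M r : ℕ} {H : Subgroup (ZMod M)ˣ}

/-- `d_r` is prime to `6 L` in the tame case -/
theorem rtk6psiDr_coprime_t3 [NeZero M] {L : ℕ} (htame : IsTameAt_t3 L M r H) :
    Tame3 (rtk6psiDr M r H) (L) := by
  obtain ⟨d, hcop, hd⟩ := htame
  exact rtk6t_of_dvd (rtk6psiDr_dvd_of_forall hd) hcop

end Dr
section Psi
variable {M r : ℕ} {H : Subgroup (ZMod M)ˣ}

/-- **(P3) + (P4)**, from a tame exponent `d` and a primitive `d`-th root of unity in `K`. -/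
theorem rtk6psi_exists_t3 (K : Type*) [Field K] {L : ℕ} (hr : r.Prime) (hrM : r ∣ M)
    (hr2 : ¬ r ^ 2 ∣ M) (hstar : IsStarStable M r H) {d : ℕ} (hcop : Tame3 d (L))
    (hd : ∀ c : (ZMod M)ˣ, c ^ d ∈ pmH H) (hζ : ∃ ζ : K, IsPrimitiveRoot ζ d) :
    ∃ (ψr : (ZMod M)ˣ →* Kˣ) (k : ℕ) (ψ' : Fin k → ((ZMod M)ˣ →* Kˣ)),
      Rtk6psiIsR K M r H ψr ∧ Rtk6psiIsFam K M r d H ψ' := by
  haveI : NeZero M := ⟨rtk6psi_ne_zero hr2⟩
  have hd0 := rtk6psi_ne_zero_of_coprime_t3 hcop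
  have hodd := rtk6psi_odd_of_coprime_t3 hcop
  have hζr : ∃ ζ : K, IsPrimitiveRoot ζ (rtk6psiDr M r H) := by
    obtain ⟨ζ, hζ⟩ := hζ
    obtain ⟨e, he⟩ := rtk6psiDr_dvd_of_forall (r := r) hd
    refine ⟨ζ ^ e, IsPrimitiveRoot.pow (Nat.pos_of_ne_zero hd0) hζ ?_⟩
    rw [he, mul_comm]
  obtain ⟨ψr, hψr⟩ := rtk6psi_exists_psiR_odd K hr hrM hr2 hstar hodd hd hζr
  obtain ⟨k, ψ', hψ'⟩ := rtk6psi_exists_fam (r := r) K hrM (rtk6psi_ne_zero hr2) hd0 hd hζ
  exact ⟨ψr, k, ψ', hψr, hψ'⟩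

end Psi
end Fermat.Agent.RT.K6
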