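/-
K6 at p = 3 (helper4): fork of the declarations of `Fermat.Agent.RT.K6.C4AsmSm` that depend on `IsTameAt`,
with `Tame3 d L := Nat.Coprime d (2 * L) ∧ 2 ∣ L` in place of `Nat.Coprime d (6 * L)` (suffix `_t3`).
Generated from the landed file; the proofs are the originals.
-/
import Fermat.Agent.RT.K6.C4AsmSm
import Fermat.Agent.RT.K6T.Base
import Fermat.Agent.RT.K6T.DUnr
import Fermat.Agent.RT.K6T.Psi

set_option autoImplicit false
set_option linter.style.haveILetI false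
set_option linter.unusedSectionVars false
set_option linter.unusedVariables false
set_option linter.style.longLine false
set_option synthInstance.maxHeartbeats 400000
set_option maxHeartbeats 4000000
noncomputable section
namespace Fermat.Agent.RT.K6
open ModularCurve Polynomial IntermediateField Fermat.Agent.INJ Fermat.Agent.AL AlgebraicCurve
open Fermat.Agent.ES Fermat.Agent.ES.G2 Fermat.Agent.STB Fermat.Agent.UNIP Fermat.Agent.S36
open Fermat.Agent.RIB.MP Fermat.Agent.ES1 Fermat.Agent.ES1.G2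
section Arith

/-- `q ∤ d` for `d` prime to `6 M₁ q` -/
theorem rtk6c4as_not_dvd_t3 {q M₁ d : ℕ} (hq : q.Prime) (hd : Tame3 d ((M₁ * q))) :
    ¬ q ∣ d := by
  exact rtk6t_not_dvd hq (Dvd.intro_left M₁ rfl) hd

end Arith
section Root
variable {A : ValuationSubring Qb} {q : ℕ}
end Root
section Data
variable {A : ValuationSubring Qb} {q M₁ : ℕ} [NeZero q] [NeZero M₁] [NeZero (M₁ * q)]
  [IsDiscreteValuationRing ↥(beta0Ring A (beta0Field A))]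
  {π : ↥(beta0Ring A (beta0Field A))} (hπ : Irreducible π)
  (ιC : ↥(beta0Field A) →+* ℂ) (hq : q.Prime) (hqM : ¬ q ∣ M₁)
  (M : ℕ) [NeZero M] (H : Subgroup (ZMod M)ˣ)
  [IsDiscreteValuationRing ↥(mgcA A (rtk6ebK q (rtk6psiDr M q H)))]
  (f : ↥(beta0Field A) →+* ↥(mgcE A (rtk6ebK q (rtk6psiDr M q H))))
  (hf : ∀ a : ↥(beta0Field A),
    ((f a : ↥(mgcE A (rtk6ebK q (rtk6psiDr M q H)))) : Qb) = (a : Qb))
  [Algebra ↥(modularFunctionFieldFullC ↥(beta0Field A) (M₁ * q))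
    ↥(rtk6diF A (rtk6ebK q (rtk6psiDr M q H)) (M₁ * q) M H)]
  (halg : ∀ z : ↥(modularFunctionFieldFullC ↥(beta0Field A) (M₁ * q)),
    algebraMap ↥(modularFunctionFieldFullC ↥(beta0Field A) (M₁ * q))
      ↥(rtk6diF A (rtk6ebK q (rtk6psiDr M q H)) (M₁ * q) M H) z
        = rtk6c4fdIota f (M₁ * q) M H z)
  (hA : A.LiesOverPrime q) (hd0 : rtk6psiDr M q H ≠ 0)
  {ϖ : ↥(mgcA A (rtk6ebK q (rtk6psiDr M q H)))}
  (hϖd : ϖ ^ rtk6psiDr M q H =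
    beta0RingIncl (A := A)
      (le_sup_left : beta0Field A ≤ beta0Field A ⊔ rtk6ebK q (rtk6psiDr M q H)) π)

include hπ ιC hqM in
/-- **the discharge of `hsm` on the two charts** at the thin level `K₁ = rtk6ebK q d_q`. -/
theorem rtk6c4as_hsm_both_t3
    (hϖ : ϖ ^ rtk6psiDr M q H = ((q : ℕ) : ↥(mgcA A (rtk6ebK q (rtk6psiDr M q H)))))
    (hML : M ∣ M₁ * q) (hqN : q ∣ M) (h4 : 4 ∣ M₁ * q) (hstar : IsStarStable M q H)
    (htame : IsTameAt_t3 (M₁ * q) M q H) :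
    (∀ 𝔫 : AtPt (F := ↥(rtk6diF A (rtk6ebK q (rtk6psiDr M q H)) (M₁ * q) M H)) ϖ
        (rtk6diT A (rtk6ebK q (rtk6psiDr M q H)) (M₁ * q) M H),
      (∃ s₀ : ↥(zchClosure (A₀ := ↥(beta0Ring A (beta0Field A)))
          ({bgJ ↥(beta0Field A) (M₁ * q)} :
            Set ↥(modularFunctionFieldFullC ↥(beta0Field A) (M₁ * q)))),
        s₀ ∈ (rtk6gxiPt hq (rtk6ebK q (rtk6psiDr M q H)) M H f hf halg hA hd0 hϖd 𝔫).1 ∧
        NodesLocGen (rtk6gxiPt hq (rtk6ebK q (rtk6psiDr M q H)) M H f hf halg hA hd0 hϖd 𝔫).1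
          {algebraMap ↥(beta0Ring A (beta0Field A))
            ↥(zchClosure (A₀ := ↥(beta0Ring A (beta0Field A)))
              ({bgJ ↥(beta0Field A) (M₁ * q)} :
                Set ↥(modularFunctionFieldFullC ↥(beta0Field A) (M₁ * q)))) π, s₀}) →
      ∃ s : ↥(zchClosure (A₀ := ↥(mgcA A (rtk6ebK q (rtk6psiDr M q H))))
          ({rtk6diT A (rtk6ebK q (rtk6psiDr M q H)) (M₁ * q) M H} :
            Set ↥(rtk6diF A (rtk6ebK q (rtk6psiDr M q H)) (M₁ * q) M H))),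
        s ∈ 𝔫.1 ∧ NodesLocGen 𝔫.1
          {algebraMap ↥(mgcA A (rtk6ebK q (rtk6psiDr M q H)))
            ↥(zchClosure (A₀ := ↥(mgcA A (rtk6ebK q (rtk6psiDr M q H))))
              ({rtk6diT A (rtk6ebK q (rtk6psiDr M q H)) (M₁ * q) M H} :
                Set ↥(rtk6diF A (rtk6ebK q (rtk6psiDr M q H)) (M₁ * q) M H))) ϖ, s}) ∧
    (∀ 𝔫 : AtPt (F := ↥(rtk6diF A (rtk6ebK q (rtk6psiDr M q H)) (M₁ * q) M H)) ϖ
        (rtk6diT A (rtk6ebK q (rtk6psiDr M q H)) (M₁ * q) M H)⁻¹,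
      (∃ s₀ : ↥(zchClosure (A₀ := ↥(beta0Ring A (beta0Field A)))
          ({(bgJ ↥(beta0Field A) (M₁ * q))⁻¹} :
            Set ↥(modularFunctionFieldFullC ↥(beta0Field A) (M₁ * q)))),
        s₀ ∈ (rtk6gxiPtInv hq (rtk6ebK q (rtk6psiDr M q H)) M H f hf halg hA hd0 hϖd 𝔫).1 ∧
        NodesLocGen
          (rtk6gxiPtInv hq (rtk6ebK q (rtk6psiDr M q H)) M H f hf halg hA hd0 hϖd 𝔫).1
          {algebraMap ↥(beta0Ring A (beta0Field A))
            ↥(zchClosure (A₀ := ↥(beta0Ring A (beta0Field A)))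
              ({(bgJ ↥(beta0Field A) (M₁ * q))⁻¹} :
                Set ↥(modularFunctionFieldFullC ↥(beta0Field A) (M₁ * q)))) π, s₀}) →
      ∃ s : ↥(zchClosure (A₀ := ↥(mgcA A (rtk6ebK q (rtk6psiDr M q H))))
          ({(rtk6diT A (rtk6ebK q (rtk6psiDr M q H)) (M₁ * q) M H)⁻¹} :
            Set ↥(rtk6diF A (rtk6ebK q (rtk6psiDr M q H)) (M₁ * q) M H))),
        s ∈ 𝔫.1 ∧ NodesLocGen 𝔫.1
          {algebraMap ↥(mgcA A (rtk6ebK q (rtk6psiDr M q H)))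
            ↥(zchClosure (A₀ := ↥(mgcA A (rtk6ebK q (rtk6psiDr M q H))))
              ({(rtk6diT A (rtk6ebK q (rtk6psiDr M q H)) (M₁ * q) M H)⁻¹} :
                Set ↥(rtk6diF A (rtk6ebK q (rtk6psiDr M q H)) (M₁ * q) M H))) ϖ, s}) := by
  classical
  -- arithmetic of the level
  have hL : M₁ * q ≠ 0 := NeZero.ne _
  have hM0 : M ≠ 0 := NeZero.ne M
  have hr2 : ¬ q ^ 2 ∣ M := rtk6c4as_not_sq hq hqM hML
  have hN3 : 3 ≤ M := rtk6c4as_three_le hq hqN hM0 hqM h4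
  have rigid := rtk6c4as_rigid hq hqM h4
  have hcopr : Tame3 (rtk6psiDr M q H) ((M₁ * q)) := rtk6psiDr_coprime_t3 htame
  have hqe : ¬ q ∣ rtk6psiDr M q H := rtk6psiDr_not_dvd hq hqN hr2
  have hodd : Odd (rtk6psiDr M q H) := rtk6psi_odd_of_coprime_t3 hcopr
  -- PSI over `ℚ̄^I`
  obtain ⟨dS, hcop, hdS⟩ := htame
  have hdS0 : dS ≠ 0 := rtk6psi_ne_zero_of_coprime_t3 hcop
  have hqdS : ¬ q ∣ dS := rtk6c4as_not_dvd_t3 hq hcop
  have hdvd : rtk6psiDr M q H ∣ dS := rtk6psiDr_dvd_of_forall hdS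
  obtain ⟨ψr, k, ψ', hψr, hfam⟩ := rtk6psi_exists_t3 (↥(beta0Field A)) hq hqN hr2 hstar hcop hdS
    (rtk6c4as_root hq hA hdS0 hqdS)
  haveI : Algebra.IsAlgebraic ℚ Qb := AlgebraicClosure.isAlgebraic ℚ
  haveI : Algebra.IsAlgebraic ℚ ↥(beta0Field A) :=
    Algebra.IsAlgebraic.of_injective (beta0Field A).val Subtype.val_injective
  -- WIRE: (F1)
  obtain ⟨-, -, -, -, -, -, -, hgenN, -⟩ := rtk6c4w_wireN (L := M₁ * q) hq hA hqN hr2 hodd f hf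
    halg hL hML hN3
    (⊤ : Subalgebra ↥(beta0Ring A (beta0Field A))
      ↥(modularFunctionFieldFullC ↥(beta0Field A) (M₁ * q)))
    hϖ hψr hfam hdS0 hdvd (n₀ := 1) (by simp)
  have hgen : Algebra.adjoin ↥(modularFunctionFieldFullC ↥(beta0Field A) (M₁ * q))
      (({algebraMap ↥(mgcA A (rtk6ebK q (rtk6psiDr M q H)))
          ↥(rtk6diF A (rtk6ebK q (rtk6psiDr M q H)) (M₁ * q) M H) ϖ,
        rtk6n0fY f (M₁ * q) M H ψr hML} :
          Set ↥(rtk6diF A (rtk6ebK q (rtk6psiDr M q H)) (M₁ * q) M H)) ∪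
        Set.range fun i => rtk6n0fY f (M₁ * q) M H (ψ' i) hML) = ⊤ := by
    rw [Set.union_comm]
    exact hgenN
  -- N0 + D-unr for `ψ_q`
  have hmem : rtk6n0Y ↥(beta0Field A) M H ψr ^ rtk6psiDr M q H
      ∈ modularFunctionFieldFullC ↥(beta0Field A) (M₁ * q) :=
    rtk6n0f_mem (M₁ * q) M H ψr hL hML hψr.pow_dr
  obtain ⟨c₀, hc₀, hord⟩ := hψr.exists_orderOf hq hqN hr2
  obtain ⟨n₀, a, b, hn₀, hab⟩ := rtk6n0b_norm_zero_bezout hπ ιC hq hqM ψr hA hML hqN hN3 hstar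
    hψr.map_H hψr.map_neg_one hqe hψr.pow_dr hc₀ hord hmem
  have hz₁ := rtk6n0b_norm_inf hπ ιC hq hqM ψr hN3 hψr.map_H hψr.map_neg_one
    (rtk6psiDr M q H) hmem
  have hz0 : (⟨rtk6n0Y ↥(beta0Field A) M H ψr ^ rtk6psiDr M q H, hmem⟩ :
      ↥(modularFunctionFieldFullC ↥(beta0Field A) (M₁ * q))) ≠ 0 := by
    intro h
    have h1 : rtk6n0Y ↥(beta0Field A) M H ψr ^ rtk6psiDr M q H = 0 :=
      congrArg (fun z : ↥(modularFunctionFieldFullC ↥(beta0Field A) (M₁ * q)) =>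
        (z : LaurentSeries ↥(beta0Field A))) h
    exact rtk6n0Y_ne_zero hN3 hψr.map_H hψr.map_neg_one (eq_zero_of_pow_eq_zero h1)
  have hhor : ∀ P : Place ↥(beta0Field A) ↥(modularFunctionFieldFullC ↥(beta0Field A) (M₁ * q)),
      ((rtk6psiDr M q H : ℕ) : ℤ) ∣ P.ord (⟨rtk6n0Y ↥(beta0Field A) M H ψr ^ rtk6psiDr M q H,
        hmem⟩ : ↥(modularFunctionFieldFullC ↥(beta0Field A) (M₁ * q))) := fun P =>
    rtk6unr_nf_t3 (beta0Field A) (M₁ * q) M H hL hML (rtk6psiDr M q H) hcopr _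
      (rtk6n0Y ↥(beta0Field A) M H ψr) (rtk6n0Y_mem hML) rfl P
  have hzy : algebraMap ↥(modularFunctionFieldFullC ↥(beta0Field A) (M₁ * q))
      ↥(rtk6diF A (rtk6ebK q (rtk6psiDr M q H)) (M₁ * q) M H)
      (⟨rtk6n0Y ↥(beta0Field A) M H ψr ^ rtk6psiDr M q H, hmem⟩ :
        ↥(modularFunctionFieldFullC ↥(beta0Field A) (M₁ * q)))
      = rtk6n0fY f (M₁ * q) M H ψr hML ^ rtk6psiDr M q H := by
    rw [halg]
    exact rtk6n0f_iota_pow f (M₁ * q) M H ψr hML hmem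
  -- N0 + D-unr for the `ψ′_i`
  have hmem' : ∀ i, rtk6n0Y ↥(beta0Field A) M H (ψ' i) ^ dS
      ∈ modularFunctionFieldFullC ↥(beta0Field A) (M₁ * q) := fun i =>
    rtk6n0f_mem (M₁ * q) M H (ψ' i) hL hML (hfam.pow_d i)
  have hzero := fun i => rtk6n0b_norm_zero_dvd hπ ιC hq hqM (ψ' i) hA hML hqN hN3 hstar
    (hfam.map_H i) (hfam.map_neg_one i) hqdS (hfam.pow_d i) (hfam.map_atR i) (hmem' i)
  choose nn hnndvd hnn using hzero
  have hyu : ∀ i, rtk6n0fY f (M₁ * q) M H (ψ' i) hML ^ dS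
      = algebraMap ↥(modularFunctionFieldFullC ↥(beta0Field A) (M₁ * q))
        ↥(rtk6diF A (rtk6ebK q (rtk6psiDr M q H)) (M₁ * q) M H)
        (⟨rtk6n0Y ↥(beta0Field A) M H (ψ' i) ^ dS, hmem' i⟩ :
          ↥(modularFunctionFieldFullC ↥(beta0Field A) (M₁ * q))) := fun i => by
    rw [halg]
    exact (rtk6n0f_iota_pow f (M₁ * q) M H (ψ' i) hML (hmem' i)).symm
  have hu : ∀ i, (⟨rtk6n0Y ↥(beta0Field A) M H (ψ' i) ^ dS, hmem' i⟩ :
      ↥(modularFunctionFieldFullC ↥(beta0Field A) (M₁ * q))) ≠ 0 := fun i h => by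
    have h1 : rtk6n0Y ↥(beta0Field A) M H (ψ' i) ^ dS = 0 :=
      congrArg (fun z : ↥(modularFunctionFieldFullC ↥(beta0Field A) (M₁ * q)) =>
        (z : LaurentSeries ↥(beta0Field A))) h
    exact rtk6n0Y_ne_zero hN3 (hfam.map_H i) (hfam.map_neg_one i) (eq_zero_of_pow_eq_zero h1)
  have hhor' : ∀ i, ∀ P : Place ↥(beta0Field A)
      ↥(modularFunctionFieldFullC ↥(beta0Field A) (M₁ * q)),
      ((dS : ℕ) : ℤ) ∣ P.ord (⟨rtk6n0Y ↥(beta0Field A) M H (ψ' i) ^ dS, hmem' i⟩ :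
        ↥(modularFunctionFieldFullC ↥(beta0Field A) (M₁ * q))) := fun i P =>
    rtk6unr_nf_t3 (beta0Field A) (M₁ * q) M H hL hML dS hcop _
      (rtk6n0Y ↥(beta0Field A) M H (ψ' i)) (rtk6n0Y_mem hML) rfl P
  have hy₁' := fun i => rtk6n0b_norm_inf hπ ιC hq hqM (ψ' i) hN3 (hfam.map_H i)
    (hfam.map_neg_one i) dS (hmem' i)
  -- the charts
  haveI : CharZero ↥(modularFunctionFieldFullC ↥(beta0Field A) (M₁ * q)) :=
    charZero_of_injective_algebraMap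
      (algebraMap ↥(beta0Field A) ↥(modularFunctionFieldFullC ↥(beta0Field A) (M₁ * q))).injective
  refine ⟨fun 𝔫 hsm => ?_, fun 𝔫 hsm => ?_⟩
  · obtain ⟨s₀, hs₀, hgen₀⟩ := hsm
    obtain ⟨S, hS⟩ := rtk6c4smc_sm hπ ιC hq hqM (rtk6ebK q (rtk6psiDr M q H)) M H f hf halg hA
      hd0 hϖd rigid hqe hdS0 hqdS 𝔫 hs₀ hgen₀ hz0 hhor hz₁ hn₀ hzy hab
      (fun i => rtk6n0fY f (M₁ * q) M H (ψ' i) hML)
      (fun i => (⟨rtk6n0Y ↥(beta0Field A) M H (ψ' i) ^ dS, hmem' i⟩ :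
        ↥(modularFunctionFieldFullC ↥(beta0Field A) (M₁ * q)))) nn hyu hu hhor' hy₁' hnn
      hnndvd hgen
    haveI := ribmp_fc_fin (K₀ := beta0Field A) (M₁ * q)
    haveI : IsFractionRing ↥(zchClosure (A₀ := ↥(beta0Ring A (beta0Field A)))
        ({bgJ ↥(beta0Field A) (M₁ * q)} :
          Set ↥(modularFunctionFieldFullC ↥(beta0Field A) (M₁ * q))))
        ↥(modularFunctionFieldFullC ↥(beta0Field A) (M₁ * q)) :=
      mgc_chart_isFractionRing (A₀ := ↥(beta0Ring A (beta0Field A))) (E₀ := ↥(beta0Field A))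
        (bgJ ↥(beta0Field A) (M₁ * q))
    haveI : IsIntegrallyClosed ↥(zchClosure (A₀ := ↥(beta0Ring A (beta0Field A)))
        ({bgJ ↥(beta0Field A) (M₁ * q)} :
          Set ↥(modularFunctionFieldFullC ↥(beta0Field A) (M₁ * q)))) :=
      mgc_chart_isIntegrallyClosed (A₀ := ↥(beta0Ring A (beta0Field A))) (E₀ := ↥(beta0Field A))
        (bgJ ↥(beta0Field A) (M₁ * q))
    exact rtk6c4sm0_smoothAt (K := ↥(modularFunctionFieldFullC ↥(beta0Field A) (M₁ * q))) 𝔫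
      (rtk6gxiJ (rtk6ebK q (rtk6psiDr M q H)) M H f hf halg) _ (fun _ => rfl) hS hπ rfl
  · obtain ⟨s₀, hs₀, hgen₀⟩ := hsm
    obtain ⟨S, hS⟩ := rtk6c4smc_sm_inv hπ ιC hq hqM (rtk6ebK q (rtk6psiDr M q H)) M H f hf halg
      hA hd0 hϖd rigid hqe hdS0 hqdS 𝔫 hs₀ hgen₀ hz0 hhor hz₁ hn₀ hzy hab
      (fun i => rtk6n0fY f (M₁ * q) M H (ψ' i) hML)
      (fun i => (⟨rtk6n0Y ↥(beta0Field A) M H (ψ' i) ^ dS, hmem' i⟩ :
        ↥(modularFunctionFieldFullC ↥(beta0Field A) (M₁ * q)))) nn hyu hu hhor' hy₁' hnn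
      hnndvd hgen
    haveI := ribmp_fc_fin_inv (K₀ := beta0Field A) (M₁ * q)
    haveI : IsFractionRing ↥(zchClosure (A₀ := ↥(beta0Ring A (beta0Field A)))
        ({(bgJ ↥(beta0Field A) (M₁ * q))⁻¹} :
          Set ↥(modularFunctionFieldFullC ↥(beta0Field A) (M₁ * q))))
        ↥(modularFunctionFieldFullC ↥(beta0Field A) (M₁ * q)) :=
      mgc_chart_isFractionRing (A₀ := ↥(beta0Ring A (beta0Field A))) (E₀ := ↥(beta0Field A))
        (bgJ ↥(beta0Field A) (M₁ * q))⁻¹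
    haveI : IsIntegrallyClosed ↥(zchClosure (A₀ := ↥(beta0Ring A (beta0Field A)))
        ({(bgJ ↥(beta0Field A) (M₁ * q))⁻¹} :
          Set ↥(modularFunctionFieldFullC ↥(beta0Field A) (M₁ * q)))) :=
      mgc_chart_isIntegrallyClosed (A₀ := ↥(beta0Ring A (beta0Field A))) (E₀ := ↥(beta0Field A))
        (bgJ ↥(beta0Field A) (M₁ * q))⁻¹
    exact rtk6c4sm0_smoothAt (K := ↥(modularFunctionFieldFullC ↥(beta0Field A) (M₁ * q))) 𝔫
      (rtk6gxiJInv (rtk6ebK q (rtk6psiDr M q H)) M H f hf halg) _ (fun _ => rfl) hS hπ rfl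

include hπ ιC hqM in
/-- **`hsm` of `rtk6c4aj_plusAt`** (chart `j`) at the thin level `K₁ = rtk6ebK q d_q`. -/
theorem rtk6c4as_hsm_t3
    (hϖ : ϖ ^ rtk6psiDr M q H = ((q : ℕ) : ↥(mgcA A (rtk6ebK q (rtk6psiDr M q H)))))
    (hML : M ∣ M₁ * q) (hqN : q ∣ M) (h4 : 4 ∣ M₁ * q) (hstar : IsStarStable M q H)
    (htame : IsTameAt_t3 (M₁ * q) M q H)
    (𝔫 : AtPt (F := ↥(rtk6diF A (rtk6ebK q (rtk6psiDr M q H)) (M₁ * q) M H)) ϖ
        (rtk6diT A (rtk6ebK q (rtk6psiDr M q H)) (M₁ * q) M H))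
    (hsm : ∃ s₀ : ↥(zchClosure (A₀ := ↥(beta0Ring A (beta0Field A)))
          ({bgJ ↥(beta0Field A) (M₁ * q)} :
            Set ↥(modularFunctionFieldFullC ↥(beta0Field A) (M₁ * q)))),
        s₀ ∈ (rtk6gxiPt hq (rtk6ebK q (rtk6psiDr M q H)) M H f hf halg hA hd0 hϖd 𝔫).1 ∧
        NodesLocGen (rtk6gxiPt hq (rtk6ebK q (rtk6psiDr M q H)) M H f hf halg hA hd0 hϖd 𝔫).1
          {algebraMap ↥(beta0Ring A (beta0Field A))
            ↥(zchClosure (A₀ := ↥(beta0Ring A (beta0Field A)))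
              ({bgJ ↥(beta0Field A) (M₁ * q)} :
                Set ↥(modularFunctionFieldFullC ↥(beta0Field A) (M₁ * q)))) π, s₀}) :
    ∃ s : ↥(zchClosure (A₀ := ↥(mgcA A (rtk6ebK q (rtk6psiDr M q H))))
        ({rtk6diT A (rtk6ebK q (rtk6psiDr M q H)) (M₁ * q) M H} :
          Set ↥(rtk6diF A (rtk6ebK q (rtk6psiDr M q H)) (M₁ * q) M H))),
      s ∈ 𝔫.1 ∧ NodesLocGen 𝔫.1
        {algebraMap ↥(mgcA A (rtk6ebK q (rtk6psiDr M q H)))
          ↥(zchClosure (A₀ := ↥(mgcA A (rtk6ebK q (rtk6psiDr M q H))))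
            ({rtk6diT A (rtk6ebK q (rtk6psiDr M q H)) (M₁ * q) M H} :
              Set ↥(rtk6diF A (rtk6ebK q (rtk6psiDr M q H)) (M₁ * q) M H))) ϖ, s} :=
  (rtk6c4as_hsm_both_t3 hπ ιC hq hqM M H f hf halg hA hd0 hϖd hϖ hML hqN h4 hstar htame).1 𝔫 hsm

include hπ ιC hqM in
/-- **`hsm` of the `1 / j` twin of `rtk6c4aj_plusAt`** at the thin level `K₁ = rtk6ebK q d_q`. -/
theorem rtk6c4as_hsm_inv_t3
    (hϖ : ϖ ^ rtk6psiDr M q H = ((q : ℕ) : ↥(mgcA A (rtk6ebK q (rtk6psiDr M q H)))))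
    (hML : M ∣ M₁ * q) (hqN : q ∣ M) (h4 : 4 ∣ M₁ * q) (hstar : IsStarStable M q H)
    (htame : IsTameAt_t3 (M₁ * q) M q H)
    (𝔫 : AtPt (F := ↥(rtk6diF A (rtk6ebK q (rtk6psiDr M q H)) (M₁ * q) M H)) ϖ
        (rtk6diT A (rtk6ebK q (rtk6psiDr M q H)) (M₁ * q) M H)⁻¹)
    (hsm : ∃ s₀ : ↥(zchClosure (A₀ := ↥(beta0Ring A (beta0Field A)))
          ({(bgJ ↥(beta0Field A) (M₁ * q))⁻¹} :
            Set ↥(modularFunctionFieldFullC ↥(beta0Field A) (M₁ * q)))),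
        s₀ ∈ (rtk6gxiPtInv hq (rtk6ebK q (rtk6psiDr M q H)) M H f hf halg hA hd0 hϖd 𝔫).1 ∧
        NodesLocGen
          (rtk6gxiPtInv hq (rtk6ebK q (rtk6psiDr M q H)) M H f hf halg hA hd0 hϖd 𝔫).1
          {algebraMap ↥(beta0Ring A (beta0Field A))
            ↥(zchClosure (A₀ := ↥(beta0Ring A (beta0Field A)))
              ({(bgJ ↥(beta0Field A) (M₁ * q))⁻¹} :
                Set ↥(modularFunctionFieldFullC ↥(beta0Field A) (M₁ * q)))) π, s₀}) :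
    ∃ s : ↥(zchClosure (A₀ := ↥(mgcA A (rtk6ebK q (rtk6psiDr M q H))))
        ({(rtk6diT A (rtk6ebK q (rtk6psiDr M q H)) (M₁ * q) M H)⁻¹} :
          Set ↥(rtk6diF A (rtk6ebK q (rtk6psiDr M q H)) (M₁ * q) M H))),
      s ∈ 𝔫.1 ∧ NodesLocGen 𝔫.1
        {algebraMap ↥(mgcA A (rtk6ebK q (rtk6psiDr M q H)))
          ↥(zchClosure (A₀ := ↥(mgcA A (rtk6ebK q (rtk6psiDr M q H))))
            ({(rtk6diT A (rtk6ebK q (rtk6psiDr M q H)) (M₁ * q) M H)⁻¹} :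
              Set ↥(rtk6diF A (rtk6ebK q (rtk6psiDr M q H)) (M₁ * q) M H))) ϖ, s} :=
  (rtk6c4as_hsm_both_t3 hπ ιC hq hqM M H f hf halg hA hd0 hϖd hϖ hML hqN h4 hstar htame).2 𝔫 hsm

end Data
end Fermat.Agent.RT.K6
end
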