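/-
K6 at p = 3 (helper4): fork of the declarations of `Fermat.Agent.RT.K6.EFinal` that depend on `IsTameAt`,
with `Tame3 d L := Nat.Coprime d (2 * L) ∧ 2 ∣ L` in place of `Nat.Coprime d (6 * L)` (suffix `_t3`).
Generated from the landed file; the proofs are the originals.
-/
import Fermat.Agent.RT.K6.EFinal
import Fermat.Agent.RT.K6T.Base

set_option autoImplicit false
set_option linter.style.haveILetI false
set_option linter.unusedSectionVars false
set_option linter.unusedVariables false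
noncomputable section
namespace Fermat.Agent.RT.K6
open ModularCurve AlgebraicCurve HahnSeries Fermat.Agent.ES Fermat.Agent.ES.G2 Fermat.Agent.INJ
open Fermat.Agent.UNIP Fermat.Agent.ES1 Fermat.Agent.ES1.G2 IntermediateField
section Act
variable (K₀ : IntermediateField ℚ Qb) (L M : ℕ) (H : Subgroup (ZMod M)ˣ)
variable {K₀ L M H}
variable (K₀ L M H)
variable {K₀ L M H}
end Act
section Target
variable (L M : ℕ) (H : Subgroup (ZMod M)ˣ) (r : ℕ)
variable {L M H r}
end Target

/-- **(χ-K) at the tame RIGID levels** (`4 ∣ L`: no elliptic points, all nodes thin). -/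
def StmtChiKummerRig_t3 : Prop :=
  ∀ (L M : ℕ) (H : Subgroup (ZMod M)ˣ) (r : ℕ), L ≠ 0 → M ∣ L → r.Prime → r ∣ M → ¬ r ^ 2 ∣ L →
    IsStarStable M r H → IsTameAt_t3 L M r H → 4 ∣ L → ChiKummerAtE L M H r

/-- **(UNIP_H) at the tame RIGID levels**, for the `H` which contain all diamonds at `r`. -/
def StmtUnipHRig_t3 : Prop :=
  ∀ (L M : ℕ) (H : Subgroup (ZMod M)ˣ) (r : ℕ), L ≠ 0 → M ∣ L → r.Prime → r ∣ M → ¬ r ^ 2 ∣ L →
    (∀ c : (ZMod M)ˣ, IsAtR M r c → c ∈ pmH H) → IsTameAt_t3 L M r H → 4 ∣ L → UnipHAtE L M H r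

end Fermat.Agent.RT.K6
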