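/-
K6 at p = 3 (helper4): fork of the declarations of `Fermat.Agent.RT.K6.EInstRig` that depend on `IsTameAt`,
with `Tame3 d L := Nat.Coprime d (2 * L) ∧ 2 ∣ L` in place of `Nat.Coprime d (6 * L)` (suffix `_t3`).
Generated from the landed file; the proofs are the originals.
-/
import Fermat.Agent.RT.K6.EInstRig
import Fermat.Agent.RT.K6T.Base
import Fermat.Agent.RT.K6T.EFinal

set_option autoImplicit false
set_option linter.style.haveILetI false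
set_option linter.unusedSectionVars false
set_option linter.unusedVariables false
noncomputable section
namespace Fermat.Agent.RT.K6
open ModularCurve AlgebraicCurve Fermat.Agent.ES Fermat.Agent.ES.G2 Fermat.Agent.INJ
open Fermat.Agent.UNIP Fermat.Agent.STB Fermat.Agent.ES1 Fermat.Agent.ES1.G2 IntermediateField

/-- **The open geometric statement of piece E, case (χ)**: (HSTAB), (SS1-inst), (C4 + D-BC +
FAM-res), (FIX-inst) at the tame rigid levels `L = M₁ q`. -/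
def StmtRtk6GeomChi_t3 : Prop :=
  ∀ (q M₁ : ℕ) [NeZero q] [NeZero M₁] [NeZero (M₁ * q)] (M : ℕ) (H : Subgroup (ZMod M)ˣ)
    (hq : q.Prime) (hqM' : q ∣ M) (hM0 : M ≠ 0), ¬ q ∣ M₁ → M ∣ M₁ * q →
    IsStarStable M q H → IsTameAt_t3 (M₁ * q) M q H → 4 ∣ M₁ * q →
    ∀ (w₀ : fieldBar (M₁ * q) M H ≃ₐ[Qb] fieldBar (M₁ * q) M H)
      (hw₀ : IsWAt (M₁ * q) M H q w₀) (A : ValuationSubring Qb), A.LiesOverPrime q →
      ∃ K₀ : IntermediateField ℚ Qb, FiniteDimensional ℚ K₀ ∧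
        ∀ (K₁ : IntermediateField ℚ Qb) [NumberField K₁] [IsGalois ℚ K₁]
          [IsDiscreteValuationRing ↥(mgcA A K₁)], K₀ ≤ K₁ →
          ∀ (hζ : ∀ ζ : Qb, ζ ^ q = 1 → ζ ∈ mgcE A K₁) {π : ↥(mgcA A K₁)}
            (hπ : Irreducible π),
            Rtk6m4Stab hπ M H (rtk6diwW (K₀ := mgcE A K₁) w₀ hw₀ hM0 hq hqM' hζ) ∧
            ∀ σ ∈ A.inertiaSubgroupIn ℚ, ∀ (hσE : ∀ x ∈ mgcE A K₁, σ x ∈ mgcE A K₁)
              (c' : (ZMod M)ˣ), IsAtR M q c' →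
              ∀ δ₀' : ↥(rtk6diF A K₁ (M₁ * q) M H) ≃ₐ[↥(mgcE A K₁)]
                  ↥(rtk6diF A K₁ (M₁ * q) M H),
                IsDiamondC ↥(mgcE A K₁) (M₁ * q) M H c' δ₀' →
                Rtk6eiGeom hπ w₀ hw₀ hM0 hq hqM' hζ (rtk6diGal (M₁ * q) M H σ hσE)
                  (SemilinearAut.ofAlgAut δ₀')

/-- **The open geometric statement of piece E, case (U)** (`±H` contains the diamonds at `q`):
(SS1-inst), (C4-U + D-BC + FAM-res), (FIX-U) at the tame rigid levels `L = M₁ q`. -/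
def StmtRtk6GeomUnip_t3 : Prop :=
  ∀ (q M₁ : ℕ) [NeZero q] [NeZero M₁] [NeZero (M₁ * q)] (M : ℕ) (H : Subgroup (ZMod M)ˣ)
    (hq : q.Prime) (hqM' : q ∣ M) (hM0 : M ≠ 0), ¬ q ∣ M₁ → M ∣ M₁ * q →
    (∀ c : (ZMod M)ˣ, IsAtR M q c → c ∈ pmH H) → IsTameAt_t3 (M₁ * q) M q H → 4 ∣ M₁ * q →
    ∀ (w₀ : fieldBar (M₁ * q) M H ≃ₐ[Qb] fieldBar (M₁ * q) M H)
      (hw₀ : IsWAt (M₁ * q) M H q w₀) (A : ValuationSubring Qb), A.LiesOverPrime q →
      ∃ K₀ : IntermediateField ℚ Qb, FiniteDimensional ℚ K₀ ∧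
        ∀ (K₁ : IntermediateField ℚ Qb) [NumberField K₁] [IsGalois ℚ K₁]
          [IsDiscreteValuationRing ↥(mgcA A K₁)], K₀ ≤ K₁ →
          ∀ (hζ : ∀ ζ : Qb, ζ ^ q = 1 → ζ ∈ mgcE A K₁) {π : ↥(mgcA A K₁)}
            (hπ : Irreducible π),
            ∀ σ ∈ A.inertiaSubgroupIn ℚ, ∀ (hσE : ∀ x ∈ mgcE A K₁, σ x ∈ mgcE A K₁),
              Rtk6eiGeom hπ w₀ hw₀ hM0 hq hqM' hζ (rtk6diGal (M₁ * q) M H σ hσE)
                (rtk6diGal (M₁ * q) M H σ hσE)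

/-- **E-INST, final form (χ-K)**: `StmtChiKummerRig_t3` from the open geometric statement. -/
theorem rtk6ei_stmtChiKummerRig_t3 (h : StmtRtk6GeomChi_t3) : StmtChiKummerRig_t3 := by
  intro L M H r hL hML hr hrM hr2 hstar htame h4
  obtain ⟨M₁, rfl, hqM⟩ := rtk6ei_level hML hrM hr2
  haveI : NeZero r := ⟨hr.ne_zero⟩
  haveI : NeZero (M₁ * r) := ⟨hL⟩
  haveI : NeZero M₁ := ⟨fun h0 => hL (by rw [h0, zero_mul])⟩
  have hM0 : M ≠ 0 := fun h0 => hL (by rw [h0] at hML; exact Nat.eq_zero_of_zero_dvd hML)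
  obtain ⟨w₀, hw₀⟩ := stmtB (M₁ * r) M H r hL hML hr hrM hr2 hstar
  exact chiKummerAt_of_fieldPP hr (rtk6ei_chiFieldPPAt hr hqM hML hrM hM0 w₀ hw₀
    (h r M₁ M H hr hrM hM0 hqM hML hstar htame h4 w₀ hw₀))

/-- **E-INST, final form (UNIP_H)**: `StmtUnipHRig_t3` from the open geometric statement. -/
theorem rtk6ei_stmtUnipHRig_t3 (h : StmtRtk6GeomUnip_t3) : StmtUnipHRig_t3 := by
  intro L M H r hL hML hr hrM hr2 hat htame h4
  obtain ⟨M₁, rfl, hqM⟩ := rtk6ei_level hML hrM hr2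
  haveI : NeZero r := ⟨hr.ne_zero⟩
  haveI : NeZero (M₁ * r) := ⟨hL⟩
  haveI : NeZero M₁ := ⟨fun h0 => hL (by rw [h0, zero_mul])⟩
  have hM0 : M ≠ 0 := fun h0 => hL (by rw [h0] at hML; exact Nat.eq_zero_of_zero_dvd hML)
  obtain ⟨w₀, hw₀⟩ := stmtB (M₁ * r) M H r hL hML hr hrM hr2
    (rtk6ei_starStable_of_hat hM0 hrM hat)
  exact unipHAt_of_fieldPP hr (rtk6ei_unipFieldPPAt hr hqM hML hrM hM0 hat w₀ hw₀
    (h r M₁ M H hr hrM hM0 hqM hML hat htame h4 w₀ hw₀))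

end Fermat.Agent.RT.K6
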