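/-
K6 at p = 3 (helper4): fork of the declarations of `Fermat.Agent.RT.K6.C4ChiInstB` that depend on `IsTameAt`,
with `Tame3 d L := Nat.Coprime d (2 * L) ∧ 2 ∣ L` in place of `Nat.Coprime d (6 * L)` (suffix `_t3`).
Generated from the landed file; the proofs are the originals.
-/
import Fermat.Agent.RT.K6.C4ChiInstB
import Fermat.Agent.RT.K6T.Base
import Fermat.Agent.RT.K6T.EInstGlue
import Fermat.Agent.RT.K6T.EInstU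

set_option autoImplicit false
set_option linter.style.haveILetI false
set_option linter.unusedSectionVars false
set_option linter.unusedVariables false
set_option linter.style.longLine false
noncomputable section
namespace Fermat.Agent.RT.K6
open ModularCurve AlgebraicCurve Fermat.Agent.ES Fermat.Agent.ES.G2 Fermat.Agent.INJ
open Fermat.Agent.UNIP Fermat.Agent.STB Fermat.Agent.ES1 Fermat.Agent.ES1.G2 IntermediateField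
section Node
variable {A : ValuationSubring Qb} {K₁' K₁ : IntermediateField ℚ Qb}
  [NumberField ↥K₁'] [IsGalois ℚ ↥K₁'] [NumberField ↥K₁] [IsGalois ℚ ↥K₁]
  [IsDiscreteValuationRing ↥(mgcA A K₁')] [IsDiscreteValuationRing ↥(mgcA A K₁)]
  {q M₁ : ℕ} [NeZero q] [NeZero M₁] [NeZero (M₁ * q)] {M : ℕ} {H : Subgroup (ZMod M)ˣ}

/-- **`Rtk6emNode` at `K₁`** for the family of the glue (`w = rtk6diwW w₀ …`), from the generic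
(SS1-inst) and the dichotomy on the two charts at a lower level `K₁′ ≤ K₁`. -/
theorem rtk6cxb_node_t3 (hS : StmtRtk6SS1Gen_t3) (hq : q.Prime) (hqM' : q ∣ M) (hM0 : M ≠ 0)
    (hqM : ¬ q ∣ M₁) (hML : M ∣ M₁ * q) (htame : IsTameAt_t3 (M₁ * q) M q H) (h4 : 4 ∣ M₁ * q)
    (w₀ : fieldBar (M₁ * q) M H ≃ₐ[Qb] fieldBar (M₁ * q) M H)
    (hw₀ : IsWAt (M₁ * q) M H q w₀) (hA : A.LiesOverPrime q) (h : K₁' ≤ K₁)
    (hc₁ : RtkCommK (mgcE A K₁') w₀)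
    {ϖ₁ : ↥(mgcA A K₁')} (hϖ₁ : Irreducible ϖ₁)
    (hA₁ : ∀ 𝔫₁ : AtPt (F := ↥(rtk6diF A K₁' (M₁ * q) M H)) ϖ₁ (rtk6diT A K₁' (M₁ * q) M H),
      Rtk6ewmNodeAt (rtk6dfV hϖ₁ M H (rtk6diwEquiv (K₀ := mgcE A K₁') w₀ hc₁)) 𝔫₁
        (RingHom.id _)
        (algebraMap ↥(mgcA A K₁') ↥(zchClosure (A₀ := ↥(mgcA A K₁'))
          ({rtk6diT A K₁' (M₁ * q) M H} : Set ↥(rtk6diF A K₁' (M₁ * q) M H))) ϖ₁))
    (hA₂ : ∀ 𝔫₁ : AtPt (F := ↥(rtk6diF A K₁' (M₁ * q) M H)) ϖ₁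
        (rtk6diT A K₁' (M₁ * q) M H)⁻¹,
      Rtk6ewmNodeAt (rtk6dfV hϖ₁ M H (rtk6diwEquiv (K₀ := mgcE A K₁') w₀ hc₁)) 𝔫₁
        (RingHom.id _)
        (algebraMap ↥(mgcA A K₁') ↥(zchClosure (A₀ := ↥(mgcA A K₁'))
          ({(rtk6diT A K₁' (M₁ * q) M H)⁻¹} : Set ↥(rtk6diF A K₁' (M₁ * q) M H))) ϖ₁))
    (hζ : ∀ ζ : Qb, ζ ^ q = 1 → ζ ∈ mgcE A K₁) {π : ↥(mgcA A K₁)} (hπ : Irreducible π) :
    Rtk6emNode A K₁ (M₁ * q) M H π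
      (rtk6dfV hπ M H (rtk6diwW (K₀ := mgcE A K₁) w₀ hw₀ hM0 hq hqM' hζ)) := by
  have hwI := rtk6w1_wIncl w₀ hw₀ hc₁ hq (mgdIota (mgcE A K₁')) hqM
  have fam := rtk6m1_emFam hϖ₁ (mgdIota (mgcE A K₁')) hq hqM hwI hA hML
  have ss1 := hS q M₁ M H hq hqM hML htame h4 A hA K₁' hϖ₁ (mgdIota (mgcE A K₁')) _ hwI
  have hc₂ : RtkCommK (mgcE A K₁) w₀ :=
    rtk6w1_commK_mono (rtk6eb_mgcE_mono (A := A) h) hc₁
  exact rtk6cxb_node_E hq hA h hML w₀ hc₁ hc₂ hϖ₁ hπ fam ss1 hA₁ hA₂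

end Node
section Ev
variable {q M₁ : ℕ} [NeZero q] [NeZero M₁] [NeZero (M₁ * q)] {M : ℕ} {H : Subgroup (ZMod M)ˣ}

/-- **`Rtk6emNode` at all sufficiently large `K₁`** (`K₀ := K₁′`) from the open input. -/
theorem rtk6cxb_ev_t3 (hS : StmtRtk6SS1Gen_t3) (hq : q.Prime) (hqM' : q ∣ M) (hM0 : M ≠ 0)
    (hqM : ¬ q ∣ M₁) (hML : M ∣ M₁ * q) (htame : IsTameAt_t3 (M₁ * q) M q H) (h4 : 4 ∣ M₁ * q)
    (w₀ : fieldBar (M₁ * q) M H ≃ₐ[Qb] fieldBar (M₁ * q) M H)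
    (hw₀ : IsWAt (M₁ * q) M H q w₀) {A : ValuationSubring Qb} (hA : A.LiesOverPrime q)
    (hT : Rtk6cxbThin A w₀) :
    Rtk6eiEv q A (fun K₁ _ hζ π hπ => Rtk6emNode A K₁ (M₁ * q) M H π
      (rtk6dfV hπ M H (rtk6diwW (K₀ := mgcE A K₁) w₀ hw₀ hM0 hq hqM' hζ))) := by
  obtain ⟨K₁', hNF, hGal, hDVR, ϖ₁, hϖ₁, hc₁, hA₁, hA₂⟩ := hT
  haveI := hNF
  haveI := hGal
  haveI := hDVR
  refine ⟨K₁', inferInstance, fun K₁ _ _ _ hK hζ π hπ => ?_⟩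
  exact rtk6cxb_node_t3 hS hq hqM' hM0 hqM hML htame h4 w₀ hw₀ hA hK hc₁ hϖ₁ hA₁ hA₂ hζ hπ

end Ev

/-- **The provider `hNode` of `rtk6ei_geomChi_of_pieces_t3`** from the generic (SS1-inst) and the
dichotomy at ONE thin level per level datum (C4-χ-ASM). -/
theorem rtk6cxb_hNode_t3 (hS : StmtRtk6SS1Gen_t3)
    (hThin : ∀ (q M₁ : ℕ) [NeZero q] [NeZero M₁] [NeZero (M₁ * q)] (M : ℕ)
      (H : Subgroup (ZMod M)ˣ) (hq : q.Prime) (hqM' : q ∣ M) (hM0 : M ≠ 0), ¬ q ∣ M₁ →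
      M ∣ M₁ * q → IsStarStable M q H → IsTameAt_t3 (M₁ * q) M q H → 4 ∣ M₁ * q →
      ∀ (w₀ : fieldBar (M₁ * q) M H ≃ₐ[Qb] fieldBar (M₁ * q) M H)
        (hw₀ : IsWAt (M₁ * q) M H q w₀) (A : ValuationSubring Qb), A.LiesOverPrime q →
        Rtk6cxbThin A w₀) :
    ∀ (q M₁ : ℕ) [NeZero q] [NeZero M₁] [NeZero (M₁ * q)] (M : ℕ)
      (H : Subgroup (ZMod M)ˣ) (hq : q.Prime) (hqM' : q ∣ M) (hM0 : M ≠ 0), ¬ q ∣ M₁ →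
      M ∣ M₁ * q → IsStarStable M q H → IsTameAt_t3 (M₁ * q) M q H → 4 ∣ M₁ * q →
      ∀ (w₀ : fieldBar (M₁ * q) M H ≃ₐ[Qb] fieldBar (M₁ * q) M H)
        (hw₀ : IsWAt (M₁ * q) M H q w₀) (A : ValuationSubring Qb), A.LiesOverPrime q →
        Rtk6eiEv q A (fun K₁ _ hζ π hπ => Rtk6emNode A K₁ (M₁ * q) M H π
          (rtk6dfV hπ M H (rtk6diwW (K₀ := mgcE A K₁) w₀ hw₀ hM0 hq hqM' hζ))) := by
  intro q M₁ _ _ _ M H hq hqM' hM0 hqM hML hstar htame h4 w₀ hw₀ A hA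
  exact rtk6cxb_ev_t3 hS hq hqM' hM0 hqM hML htame h4 w₀ hw₀ hA
    (hThin q M₁ M H hq hqM' hM0 hqM hML hstar htame h4 w₀ hw₀ A hA)

section Chi
variable {q M₁ : ℕ} [NeZero q] [NeZero M₁] [NeZero (M₁ * q)] {M : ℕ} {H : Subgroup (ZMod M)ˣ}
end Chi
end Fermat.Agent.RT.K6
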