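/-
K6 at p = 3 (helper4): fork of the declarations of `Fermat.Agent.RT.K6.EInstU` that depend on `IsTameAt`,
with `Tame3 d L := Nat.Coprime d (2 * L) ∧ 2 ∣ L` in place of `Nat.Coprime d (6 * L)` (suffix `_t3`).
Generated from the landed file; the proofs are the originals.
-/
import Fermat.Agent.RT.K6.EInstU
import Fermat.Agent.RT.K6T.Base
import Fermat.Agent.RT.K6T.EInstGlue
import Fermat.Agent.RT.K6T.EInstRig

set_option autoImplicit false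
set_option linter.style.haveILetI false
set_option linter.unusedSectionVars false
set_option linter.unusedVariables false
set_option linter.style.longLine false
noncomputable section
namespace Fermat.Agent.RT.K6
open ModularCurve AlgebraicCurve Fermat.Agent.ES Fermat.Agent.ES.G2 Fermat.Agent.INJ
open Fermat.Agent.UNIP Fermat.Agent.STB Fermat.Agent.ES1 Fermat.Agent.ES1.G2 IntermediateField
section HRed
variable {A : ValuationSubring Qb} {K₁ : IntermediateField ℚ Qb}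
  [IsDiscreteValuationRing ↥(mgcA A K₁)] {L M : ℕ} {H : Subgroup (ZMod M)ˣ}
  {π : ↥(mgcA A K₁)} {κ : Type} {V : κ → ValuationSubring ↥(rtk6diF A K₁ L M H)}
end HRed
section Fix
variable {A : ValuationSubring Qb} {K₁' K₁ : IntermediateField ℚ Qb}
  [NumberField ↥K₁'] [IsGalois ℚ ↥K₁'] [NumberField ↥K₁] [IsGalois ℚ ↥K₁]
  [IsDiscreteValuationRing ↥(mgcA A K₁')] [IsDiscreteValuationRing ↥(mgcA A K₁)]
  {L M : ℕ} {H : Subgroup (ZMod M)ˣ} {r : ℕ}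
end Fix

/-- **(SS1-inst), generic in `K₁` and in `w`** (helper79: `rtk6ss_hSS1₁` + tameness). -/
def StmtRtk6SS1Gen_t3 : Prop :=
  ∀ (q M₁ : ℕ) [NeZero q] [NeZero M₁] [NeZero (M₁ * q)] (M : ℕ) (H : Subgroup (ZMod M)ˣ)
    (hq : q.Prime) (hqM : ¬ q ∣ M₁), M ∣ M₁ * q → IsTameAt_t3 (M₁ * q) M q H → 4 ∣ M₁ * q →
    ∀ (A : ValuationSubring Qb), A.LiesOverPrime q →
    ∀ (K₁ : IntermediateField ℚ Qb) [IsDiscreteValuationRing ↥(mgcA A K₁)]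
      {π : ↥(mgcA A K₁)} (hπ : Irreducible π) (ιC : ↥(mgcE A K₁) →+* ℂ)
      (w : ↥(rtk6diF A K₁ (M₁ * q) M H) ≃ₐ[↥(mgcE A K₁)] ↥(rtk6diF A K₁ (M₁ * q) M H)),
      Rtk6dvWIncl ιC hq hqM M H w →
      Rtk6emSS1 A K₁ (M₁ * q) M H π (rtk6dfV hπ M H w)

/-- the provider `hSS1` of `rtk6ei_geomUnip_of_pieces_t3` from the generic (SS1-inst) -/
theorem rtk6eiu_hSS1_t3 (hS : StmtRtk6SS1Gen_t3) :
    ∀ (q M₁ : ℕ) [NeZero q] [NeZero M₁] [NeZero (M₁ * q)] (M : ℕ)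
      (H : Subgroup (ZMod M)ˣ) (hq : q.Prime) (hqM' : q ∣ M) (hM0 : M ≠ 0), ¬ q ∣ M₁ →
      M ∣ M₁ * q → (∀ c : (ZMod M)ˣ, IsAtR M q c → c ∈ pmH H) → IsTameAt_t3 (M₁ * q) M q H →
      4 ∣ M₁ * q →
      ∀ (w₀ : fieldBar (M₁ * q) M H ≃ₐ[Qb] fieldBar (M₁ * q) M H)
        (hw₀ : IsWAt (M₁ * q) M H q w₀) (A : ValuationSubring Qb), A.LiesOverPrime q →
        Rtk6eiEv q A (fun K₁ _ hζ π hπ => Rtk6emSS1 A K₁ (M₁ * q) M H π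
          (rtk6dfV hπ M H (rtk6diwW (K₀ := mgcE A K₁) w₀ hw₀ hM0 hq hqM' hζ))) := by
  intro q M₁ _ _ _ M H hq hqM' hM0 hqM hML _ htame h4 w₀ hw₀ A hA
  refine ⟨⊥, inferInstance, fun K₁ _ _ _ _ hζ π hπ => ?_⟩
  exact hS q M₁ M H hq hqM hML htame h4 A hA K₁ hπ (mgdIota (mgcE A K₁)) _
    (rtk6m1_wIncl (mgdIota (mgcE A K₁)) w₀ hw₀ hM0 hq hqM' hqM hζ)

/-- **the provider `hFix` of `rtk6ei_geomUnip_of_pieces_t3`** from the generic (SS1-inst). -/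
theorem rtk6eiu_hFix_t3 (hS : StmtRtk6SS1Gen_t3) :
    ∀ (q M₁ : ℕ) [NeZero q] [NeZero M₁] [NeZero (M₁ * q)] (M : ℕ)
      (H : Subgroup (ZMod M)ˣ) (hq : q.Prime) (hqM' : q ∣ M) (hM0 : M ≠ 0), ¬ q ∣ M₁ →
      M ∣ M₁ * q → (∀ c : (ZMod M)ˣ, IsAtR M q c → c ∈ pmH H) → IsTameAt_t3 (M₁ * q) M q H →
      4 ∣ M₁ * q →
      ∀ (w₀ : fieldBar (M₁ * q) M H ≃ₐ[Qb] fieldBar (M₁ * q) M H)
        (hw₀ : IsWAt (M₁ * q) M H q w₀) (A : ValuationSubring Qb), A.LiesOverPrime q →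
        Rtk6eiEv q A (fun K₁ _ hζ π hπ =>
          ∀ σ ∈ A.inertiaSubgroupIn ℚ, ∀ (hσE : ∀ x ∈ mgcE A K₁, σ x ∈ mgcE A K₁)
            (u : ↥(rtk6diF A K₁ (M₁ * q) M H)),
            (u = rtk6diT A K₁ (M₁ * q) M H ∨ u = (rtk6diT A K₁ (M₁ * q) M H)⁻¹) →
            Rtk6emFixAt A K₁ (M₁ * q) M H π
              (rtk6dfV hπ M H (rtk6diwW (K₀ := mgcE A K₁) w₀ hw₀ hM0 hq hqM' hζ))
              (rtk6diGal (M₁ * q) M H σ hσE) u ∧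
            Rtk6emCongAt A K₁ (M₁ * q) M H π
              (rtk6dfV hπ M H (rtk6diwW (K₀ := mgcE A K₁) w₀ hw₀ hM0 hq hqM' hζ))
              (rtk6diGal (M₁ * q) M H σ hσE) u) := by
  intro q M₁ _ _ _ M H hq hqM' hM0 hqM hML hat htame h4 w₀ hw₀ A hA
  refine ⟨rtk6ebK q 1, inferInstance, fun K₁ _ _ _ hK hζ π hπ σ hσ hσE u hu => ?_⟩
  haveI : IsDiscreteValuationRing ↥(mgcA A (rtk6ebK q 1)) := rtk6eb_isDVR hq hA
  obtain ⟨ϖ₁, hϖ₁⟩ := IsDiscreteValuationRing.exists_irreducible ↥(mgcA A (rtk6ebK q 1))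
  have hcomm : RtkCommK (mgcE A (rtk6ebK q 1)) w₀ :=
    rtk6w1_commK_of_hat hw₀ hM0 hq hqM' (rtk6eiu_not_sq_dvd hq hqM hML) A hA hat le_sup_left
  have hwI := rtk6w1_wIncl w₀ hw₀ hcomm hq (mgdIota (mgcE A (rtk6ebK q 1))) hqM
  have fam := rtk6m1_emFam hϖ₁ (mgdIota (mgcE A (rtk6ebK q 1))) hq hqM hwI hA hML
  have ss1 := hS q M₁ M H hq hqM hML htame h4 A hA (rtk6ebK q 1) hϖ₁
    (mgdIota (mgcE A (rtk6ebK q 1))) _ hwI
  exact rtk6eiu_fix_cong hq hA hK (rtk6eiu_K_le A q) (NeZero.ne (M₁ * q)) hML hϖ₁ fam ss1 hπ _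
    hσ hσE hu

/-- **FINAL wiring, case (U)**: `StmtRtk6GeomUnip_t3` from the generic (SS1-inst) and the provider
`hNode` ((C4-U-inst), helper37 + helper81). -/
theorem rtk6eiu_geomUnip_t3 (hS : StmtRtk6SS1Gen_t3)
    (hNode : ∀ (q M₁ : ℕ) [NeZero q] [NeZero M₁] [NeZero (M₁ * q)] (M : ℕ)
      (H : Subgroup (ZMod M)ˣ) (hq : q.Prime) (hqM' : q ∣ M) (hM0 : M ≠ 0), ¬ q ∣ M₁ →
      M ∣ M₁ * q → (∀ c : (ZMod M)ˣ, IsAtR M q c → c ∈ pmH H) → IsTameAt_t3 (M₁ * q) M q H →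
      4 ∣ M₁ * q →
      ∀ (w₀ : fieldBar (M₁ * q) M H ≃ₐ[Qb] fieldBar (M₁ * q) M H)
        (hw₀ : IsWAt (M₁ * q) M H q w₀) (A : ValuationSubring Qb), A.LiesOverPrime q →
        Rtk6eiEv q A (fun K₁ _ hζ π hπ => Rtk6emNode A K₁ (M₁ * q) M H π
          (rtk6dfV hπ M H (rtk6diwW (K₀ := mgcE A K₁) w₀ hw₀ hM0 hq hqM' hζ)))) :
    StmtRtk6GeomUnip_t3 :=
  rtk6ei_geomUnip_of_pieces_t3 (rtk6eiu_hSS1_t3 hS) hNode (rtk6eiu_hFix_t3 hS)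

end Fermat.Agent.RT.K6
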