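/-
K6 at p = 3 (helper4): fork of the declarations of `Fermat.Agent.RT.K6.C4ChiInstBThin` that depend on `IsTameAt`,
with `Tame3 d L := Nat.Coprime d (2 * L) ∧ 2 ∣ L` in place of `Nat.Coprime d (6 * L)` (suffix `_t3`).
Generated from the landed file; the proofs are the originals.
-/
import Fermat.Agent.RT.K6.C4ChiInstBThin
import Fermat.Agent.RT.K6T.Base
import Fermat.Agent.RT.K6T.C4ChiInstB
import Fermat.Agent.RT.K6T.EInstGlue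
import Fermat.Agent.RT.K6T.EInstRig
import Fermat.Agent.RT.K6T.EInstU
import Fermat.Agent.RT.K6T.HStabThin

set_option autoImplicit false
set_option linter.style.haveILetI false
set_option linter.unusedSectionVars false
set_option linter.unusedVariables false
set_option linter.style.longLine false
noncomputable section
namespace Fermat.Agent.RT.K6
open ModularCurve AlgebraicCurve Fermat.Agent.ES Fermat.Agent.ES.G2 Fermat.Agent.INJ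
open Fermat.Agent.UNIP Fermat.Agent.STB Fermat.Agent.ES1 Fermat.Agent.ES1.G2 IntermediateField
section Transfer
universe v
variable {A₁ E₁ : Type*} {F₁ : Type v} [CommRing A₁] [IsDomain A₁] [IsDiscreteValuationRing A₁]
  [Field E₁] [Algebra A₁ E₁] [IsFractionRing A₁ E₁] [CharZero E₁]
  [Field F₁] [Algebra E₁ F₁] [Algebra A₁ F₁] [IsScalarTower A₁ E₁ F₁]
  {A' E' F' : Type*} [CommRing A'] [IsDomain A'] [IsDiscreteValuationRing A']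
  [Field E'] [Algebra A' E'] [IsFractionRing A' E'] [CharZero E']
  [Field F'] [Algebra E' F'] [Algebra A' F'] [IsScalarTower A' E' F']
  {ϖ₁ : A₁} {π : A'} {u₁ : F₁} {u : F'}
  {κ₁ : Type*} (V₁ : κ₁ → ValuationSubring F₁)
  (ι : F₁ →+* F')
  (j : ↥(zchClosure (A₀ := A₁) ({u₁} : Set F₁)) →+* ↥(zchClosure (A₀ := A') ({u} : Set F')))
end Transfer
section Diam
variable (A : ValuationSubring Qb) (K₁ : IntermediateField ℚ Qb)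
  (L M : ℕ) (H : Subgroup (ZMod M)ˣ)
variable {A} {K₁' : IntermediateField ℚ Qb} {K₁ L M H}
end Diam
section Thin
variable {A : ValuationSubring Qb} {K₁' K₁ : IntermediateField ℚ Qb}
  [NumberField ↥K₁'] [IsGalois ℚ ↥K₁'] [NumberField ↥K₁] [IsGalois ℚ ↥K₁]
  [IsDiscreteValuationRing ↥(mgcA A K₁')] [IsDiscreteValuationRing ↥(mgcA A K₁)]
  {q M₁ : ℕ} [NeZero q] [NeZero M₁] [NeZero (M₁ * q)] {M : ℕ} {H : Subgroup (ZMod M)ˣ}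
end Thin
section Ev
variable {q M₁ : ℕ} [NeZero q] [NeZero M₁] [NeZero (M₁ * q)] {M : ℕ} {H : Subgroup (ZMod M)ˣ}

/-- **`Rtk6hsThin` at all sufficiently large `K₁`** (`K₀ := K₁′`) from the open input. -/
theorem rtk6cxb_ev_thin_t3 (hS : StmtRtk6SS1Gen_t3) (hq : q.Prime) (hqM : ¬ q ∣ M₁)
    (hML : M ∣ M₁ * q) (htame : IsTameAt_t3 (M₁ * q) M q H) (h4 : 4 ∣ M₁ * q)
    (w₀ : fieldBar (M₁ * q) M H ≃ₐ[Qb] fieldBar (M₁ * q) M H)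
    (hw₀ : IsWAt (M₁ * q) M H q w₀) {A : ValuationSubring Qb} (hA : A.LiesOverPrime q)
    (hT : Rtk6cxbThinPlus A w₀) :
    Rtk6eiEv q A (fun K₁ _ hζ π hπ =>
      Rtk6hsThin A K₁ (M₁ * q) M H π (rtk6hsDiam A K₁ (M₁ * q) M H q)) := by
  obtain ⟨K₁', hNF, hGal, hDVR, ϖ₁, hϖ₁, hc₁, hP₁, hP₂⟩ := hT
  haveI := hNF
  haveI := hGal
  haveI := hDVR
  refine ⟨K₁', inferInstance, fun K₁ _ _ _ hK hζ π hπ => ?_⟩
  have hwI := rtk6w1_wIncl w₀ hw₀ hc₁ hq (mgdIota (mgcE A K₁')) hqM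
  have fam := rtk6m1_emFam hϖ₁ (mgdIota (mgcE A K₁')) hq hqM hwI hA hML
  have ss1 := hS q M₁ M H hq hqM hML htame h4 A hA K₁' hϖ₁ (mgdIota (mgcE A K₁')) _ hwI
  exact rtk6cxb_hsThin_E hq hA hK hML hϖ₁ hπ fam ss1 hP₁ hP₂

end Ev

/-- **The provider `hThin` of `rtk6hs_hStab_of_pieces_t3` / `rtk6hs_geomChi_of_pieces_t3`** from the
generic (SS1-inst) and the dichotomy with C4+ at ONE thin level per level datum (C4-χ-ASM);
the Atkin–Lehner automorphism `w₀` is the one of piece B (`stmtB`). -/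
theorem rtk6cxb_hThin_t3 (hS : StmtRtk6SS1Gen_t3)
    (hPlus : ∀ (q M₁ : ℕ) [NeZero q] [NeZero M₁] [NeZero (M₁ * q)] (M : ℕ)
      (H : Subgroup (ZMod M)ˣ) (hq : q.Prime) (hqM' : q ∣ M) (hM0 : M ≠ 0), ¬ q ∣ M₁ →
      M ∣ M₁ * q → IsStarStable M q H → IsTameAt_t3 (M₁ * q) M q H → 4 ∣ M₁ * q →
      ∀ (w₀ : fieldBar (M₁ * q) M H ≃ₐ[Qb] fieldBar (M₁ * q) M H)
        (hw₀ : IsWAt (M₁ * q) M H q w₀) (A : ValuationSubring Qb), A.LiesOverPrime q →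
        Rtk6cxbThinPlus A w₀) :
    ∀ (q M₁ : ℕ) [NeZero q] [NeZero M₁] [NeZero (M₁ * q)] (M : ℕ)
      (H : Subgroup (ZMod M)ˣ) (hq : q.Prime) (hqM' : q ∣ M) (hM0 : M ≠ 0), ¬ q ∣ M₁ →
      M ∣ M₁ * q → IsStarStable M q H → IsTameAt_t3 (M₁ * q) M q H → 4 ∣ M₁ * q →
      ∀ (A : ValuationSubring Qb), A.LiesOverPrime q →
        Rtk6eiEv q A (fun K₁ _ hζ π hπ =>
          Rtk6hsThin A K₁ (M₁ * q) M H π (rtk6hsDiam A K₁ (M₁ * q) M H q)) := by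
  intro q M₁ _ _ _ M H hq hqM' hM0 hqM hML hstar htame h4 A hA
  have hsq : ¬ q ^ 2 ∣ M₁ * q := by
    intro h
    rw [pow_two] at h
    exact hqM (Nat.dvd_of_mul_dvd_mul_right hq.pos h)
  obtain ⟨w₀, hw₀⟩ := stmtB (M₁ * q) M H q (NeZero.ne (M₁ * q)) hML hq hqM' hsq hstar
  exact rtk6cxb_ev_thin_t3 hS hq hqM hML htame h4 w₀ hw₀ hA
    (hPlus q M₁ M H hq hqM' hM0 hqM hML hstar htame h4 w₀ hw₀ A hA)

/-- **The provider `hNode` of `rtk6ei_geomChi_of_pieces_t3`** from the same input. -/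
theorem rtk6cxb_hNode_plus_t3 (hS : StmtRtk6SS1Gen_t3)
    (hPlus : ∀ (q M₁ : ℕ) [NeZero q] [NeZero M₁] [NeZero (M₁ * q)] (M : ℕ)
      (H : Subgroup (ZMod M)ˣ) (hq : q.Prime) (hqM' : q ∣ M) (hM0 : M ≠ 0), ¬ q ∣ M₁ →
      M ∣ M₁ * q → IsStarStable M q H → IsTameAt_t3 (M₁ * q) M q H → 4 ∣ M₁ * q →
      ∀ (w₀ : fieldBar (M₁ * q) M H ≃ₐ[Qb] fieldBar (M₁ * q) M H)
        (hw₀ : IsWAt (M₁ * q) M H q w₀) (A : ValuationSubring Qb), A.LiesOverPrime q →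
        Rtk6cxbThinPlus A w₀) :
    ∀ (q M₁ : ℕ) [NeZero q] [NeZero M₁] [NeZero (M₁ * q)] (M : ℕ)
      (H : Subgroup (ZMod M)ˣ) (hq : q.Prime) (hqM' : q ∣ M) (hM0 : M ≠ 0), ¬ q ∣ M₁ →
      M ∣ M₁ * q → IsStarStable M q H → IsTameAt_t3 (M₁ * q) M q H → 4 ∣ M₁ * q →
      ∀ (w₀ : fieldBar (M₁ * q) M H ≃ₐ[Qb] fieldBar (M₁ * q) M H)
        (hw₀ : IsWAt (M₁ * q) M H q w₀) (A : ValuationSubring Qb), A.LiesOverPrime q →
        Rtk6eiEv q A (fun K₁ _ hζ π hπ => Rtk6emNode A K₁ (M₁ * q) M H π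
          (rtk6dfV hπ M H (rtk6diwW (K₀ := mgcE A K₁) w₀ hw₀ hM0 hq hqM' hζ))) :=
  rtk6cxb_hNode_t3 hS fun q M₁ _ _ _ M H hq hqM' hM0 hqM hML hstar htame h4 w₀ hw₀ A hA =>
    (hPlus q M₁ M H hq hqM' hM0 hqM hML hstar htame h4 w₀ hw₀ A hA).thin

/-- the provider `hSS1` of `rtk6ei_geomChi_of_pieces_t3` from the generic (SS1-inst) -/
theorem rtk6cxb_hSS1_t3 (hS : StmtRtk6SS1Gen_t3) :
    ∀ (q M₁ : ℕ) [NeZero q] [NeZero M₁] [NeZero (M₁ * q)] (M : ℕ)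
      (H : Subgroup (ZMod M)ˣ) (hq : q.Prime) (hqM' : q ∣ M) (hM0 : M ≠ 0), ¬ q ∣ M₁ →
      M ∣ M₁ * q → IsStarStable M q H → IsTameAt_t3 (M₁ * q) M q H → 4 ∣ M₁ * q →
      ∀ (w₀ : fieldBar (M₁ * q) M H ≃ₐ[Qb] fieldBar (M₁ * q) M H)
        (hw₀ : IsWAt (M₁ * q) M H q w₀) (A : ValuationSubring Qb), A.LiesOverPrime q →
        Rtk6eiEv q A (fun K₁ _ hζ π hπ => Rtk6emSS1 A K₁ (M₁ * q) M H π
          (rtk6dfV hπ M H (rtk6diwW (K₀ := mgcE A K₁) w₀ hw₀ hM0 hq hqM' hζ))) := by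
  intro q M₁ _ _ _ M H hq hqM' hM0 hqM hML _ htame h4 w₀ hw₀ A hA
  refine ⟨⊥, inferInstance, fun K₁ _ _ _ _ hζ π hπ => ?_⟩
  exact hS q M₁ M H hq hqM hML htame h4 A hA K₁ hπ (mgdIota (mgcE A K₁)) _
    (rtk6m1_wIncl (mgdIota (mgcE A K₁)) w₀ hw₀ hM0 hq hqM' hqM hζ)

/-- **FINAL wiring, case (χ)**: `StmtRtk6GeomChi_t3` from the generic (SS1-inst), the dichotomy with
C4+ for the diamonds at `q` at ONE thin level per level datum (C4-χ-ASM), and the provider `hFix`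
((FIX-X)). -/
theorem rtk6cxb_geomChi_t3 (hS : StmtRtk6SS1Gen_t3)
    (hPlus : ∀ (q M₁ : ℕ) [NeZero q] [NeZero M₁] [NeZero (M₁ * q)] (M : ℕ)
      (H : Subgroup (ZMod M)ˣ) (hq : q.Prime) (hqM' : q ∣ M) (hM0 : M ≠ 0), ¬ q ∣ M₁ →
      M ∣ M₁ * q → IsStarStable M q H → IsTameAt_t3 (M₁ * q) M q H → 4 ∣ M₁ * q →
      ∀ (w₀ : fieldBar (M₁ * q) M H ≃ₐ[Qb] fieldBar (M₁ * q) M H)
        (hw₀ : IsWAt (M₁ * q) M H q w₀) (A : ValuationSubring Qb), A.LiesOverPrime q →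
        Rtk6cxbThinPlus A w₀)
    (hFix : ∀ (q M₁ : ℕ) [NeZero q] [NeZero M₁] [NeZero (M₁ * q)] (M : ℕ)
      (H : Subgroup (ZMod M)ˣ) (hq : q.Prime) (hqM' : q ∣ M) (hM0 : M ≠ 0), ¬ q ∣ M₁ →
      M ∣ M₁ * q → IsStarStable M q H → IsTameAt_t3 (M₁ * q) M q H → 4 ∣ M₁ * q →
      ∀ (w₀ : fieldBar (M₁ * q) M H ≃ₐ[Qb] fieldBar (M₁ * q) M H)
        (hw₀ : IsWAt (M₁ * q) M H q w₀) (A : ValuationSubring Qb), A.LiesOverPrime q →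
        Rtk6eiEv q A (fun K₁ _ hζ π hπ =>
          ∀ σ ∈ A.inertiaSubgroupIn ℚ, ∀ (hσE : ∀ x ∈ mgcE A K₁, σ x ∈ mgcE A K₁)
            (c' : (ZMod M)ˣ), IsAtR M q c' →
            ∀ δ₀' : ↥(rtk6diF A K₁ (M₁ * q) M H) ≃ₐ[↥(mgcE A K₁)]
                ↥(rtk6diF A K₁ (M₁ * q) M H),
              IsDiamondC ↥(mgcE A K₁) (M₁ * q) M H c' δ₀' →
              ∀ u : ↥(rtk6diF A K₁ (M₁ * q) M H),
                (u = rtk6diT A K₁ (M₁ * q) M H ∨ u = (rtk6diT A K₁ (M₁ * q) M H)⁻¹) →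
                Rtk6emFixAt A K₁ (M₁ * q) M H π
                  (rtk6dfV hπ M H (rtk6diwW (K₀ := mgcE A K₁) w₀ hw₀ hM0 hq hqM' hζ))
                  (rtk6diGal (M₁ * q) M H σ hσE) u ∧
                Rtk6emCongAt A K₁ (M₁ * q) M H π
                  (rtk6dfV hπ M H (rtk6diwW (K₀ := mgcE A K₁) w₀ hw₀ hM0 hq hqM' hζ))
                  (SemilinearAut.ofAlgAut δ₀') u)) :
    StmtRtk6GeomChi_t3 :=
  rtk6hs_geomChi_of_pieces_t3 (rtk6cxb_hThin_t3 hS hPlus) (rtk6cxb_hSS1_t3 hS)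
    (rtk6cxb_hNode_plus_t3 hS hPlus) hFix

end Fermat.Agent.RT.K6
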