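/-
K6 at p = 3 (helper4): fork of the declarations of `Fermat.Agent.RT.K6.FixXInst` that depend on `IsTameAt`,
with `Tame3 d L := Nat.Coprime d (2 * L) ∧ 2 ∣ L` in place of `Nat.Coprime d (6 * L)` (suffix `_t3`).
Generated from the landed file; the proofs are the originals.
-/
import Fermat.Agent.RT.K6.FixXInst
import Fermat.Agent.RT.K6T.Base
import Fermat.Agent.RT.K6T.C4ChiInstBThin
import Fermat.Agent.RT.K6T.EInstGlue
import Fermat.Agent.RT.K6T.EInstRig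
import Fermat.Agent.RT.K6T.EInstU

set_option autoImplicit false
set_option linter.style.haveILetI false
set_option linter.unusedSectionVars false
set_option linter.unusedVariables false
set_option linter.style.longLine false
noncomputable section
namespace Fermat.Agent.RT.K6
open ModularCurve AlgebraicCurve Fermat.Agent.ES Fermat.Agent.ES.G2 Fermat.Agent.INJ
open Fermat.Agent.UNIP Fermat.Agent.STB Fermat.Agent.ES1 Fermat.Agent.ES1.G2 IntermediateField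
section G
variable (A : ValuationSubring Qb) (K₁ : IntermediateField ℚ Qb)
  (L M : ℕ) (H : Subgroup (ZMod M)ˣ)
variable {A K₁ L M H}
end G
section Level
variable {A : ValuationSubring Qb} {K₁' K₁ : IntermediateField ℚ Qb}
  [NumberField ↥K₁'] [IsGalois ℚ ↥K₁'] [NumberField ↥K₁] [IsGalois ℚ ↥K₁]
  [IsDiscreteValuationRing ↥(mgcA A K₁')] [IsDiscreteValuationRing ↥(mgcA A K₁)]
  {q M₁ : ℕ} [NeZero q] [NeZero M₁] [NeZero (M₁ * q)] {M : ℕ} {H : Subgroup (ZMod M)ˣ}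
end Level
section Ev
variable {q M₁ : ℕ} [NeZero q] [NeZero M₁] [NeZero (M₁ * q)] {M : ℕ} {H : Subgroup (ZMod M)ˣ}

/-- **FIX-X at all sufficiently large `K₁`** (`K₀ := K₁′`) from the open input. -/
theorem rtk6fxx_ev_t3 (hS : StmtRtk6SS1Gen_t3) (hq : q.Prime) (hqM' : q ∣ M) (hM0 : M ≠ 0)
    (hqM : ¬ q ∣ M₁) (hML : M ∣ M₁ * q) (htame : IsTameAt_t3 (M₁ * q) M q H) (h4 : 4 ∣ M₁ * q)
    (w₀ : fieldBar (M₁ * q) M H ≃ₐ[Qb] fieldBar (M₁ * q) M H)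
    (hw₀ : IsWAt (M₁ * q) M H q w₀) {A : ValuationSubring Qb} (hA : A.LiesOverPrime q)
    (hT : Rtk6fxxThinPlus A w₀) :
    Rtk6eiEv q A (fun K₁ _ hζ π hπ =>
      ∀ σ ∈ A.inertiaSubgroupIn ℚ, ∀ (hσE : ∀ x ∈ mgcE A K₁, σ x ∈ mgcE A K₁)
        (c' : (ZMod M)ˣ), IsAtR M q c' →
        ∀ δ₀' : ↥(rtk6diF A K₁ (M₁ * q) M H) ≃ₐ[↥(mgcE A K₁)]
            ↥(rtk6diF A K₁ (M₁ * q) M H),
          IsDiamondC ↥(mgcE A K₁) (M₁ * q) M H c' δ₀' →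
          ∀ u : ↥(rtk6diF A K₁ (M₁ * q) M H),
            (u = rtk6diT A K₁ (M₁ * q) M H ∨ u = (rtk6diT A K₁ (M₁ * q) M H)⁻¹) →
            Rtk6emFixAt A K₁ (M₁ * q) M H π
              (rtk6dfV hπ M H (rtk6diwW (K₀ := mgcE A K₁) w₀ hw₀ hM0 hq hqM' hζ))
              (rtk6diGal (M₁ * q) M H σ hσE) u ∧
            Rtk6emCongAt A K₁ (M₁ * q) M H π
              (rtk6dfV hπ M H (rtk6diwW (K₀ := mgcE A K₁) w₀ hw₀ hM0 hq hqM' hζ))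
              (SemilinearAut.ofAlgAut δ₀') u) := by
  obtain ⟨K₁', hNF, hGal, hDVR, ϖ₁, hϖ₁, hc₁, hP₁, hP₂⟩ := hT
  haveI := hNF
  haveI := hGal
  haveI := hDVR
  refine ⟨K₁', inferInstance, fun K₁ _ _ _ hK hζ π hπ σ hσI hσE c' hc' δ₀' hδ₀' u hu => ?_⟩
  have hwI := rtk6w1_wIncl w₀ hw₀ hc₁ hq (mgdIota (mgcE A K₁')) hqM
  have fam₁ := rtk6m1_emFam hϖ₁ (mgdIota (mgcE A K₁')) hq hqM hwI hA hML
  have ss1₁ := hS q M₁ M H hq hqM hML htame h4 A hA K₁' hϖ₁ (mgdIota (mgcE A K₁')) _ hwI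
  have fam := rtk6m1_emFam_W hπ (mgdIota (mgcE A K₁)) w₀ hw₀ hM0 hq hqM' hqM hζ hA hML
  exact rtk6fxx_fixCong_E hq hA hK hML hϖ₁ hπ fam₁ ss1₁ fam hP₁ hP₂ hσI hσE hc' hδ₀' hu

end Ev

/-- **The provider `hFix` of `rtk6ei_geomChi_of_pieces_t3` / `rtk6cxb_geomChi_t3`**, VERBATIM, from
the generic (SS1-inst) and the dichotomy with C4+ for `rtk6fxxG` at ONE thin level per level
datum. -/
theorem rtk6fxx_hFix_t3 (hS : StmtRtk6SS1Gen_t3)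
    (hPlus : ∀ (q M₁ : ℕ) [NeZero q] [NeZero M₁] [NeZero (M₁ * q)] (M : ℕ)
      (H : Subgroup (ZMod M)ˣ) (hq : q.Prime) (hqM' : q ∣ M) (hM0 : M ≠ 0), ¬ q ∣ M₁ →
      M ∣ M₁ * q → IsStarStable M q H → IsTameAt_t3 (M₁ * q) M q H → 4 ∣ M₁ * q →
      ∀ (w₀ : fieldBar (M₁ * q) M H ≃ₐ[Qb] fieldBar (M₁ * q) M H)
        (hw₀ : IsWAt (M₁ * q) M H q w₀) (A : ValuationSubring Qb), A.LiesOverPrime q →
        Rtk6fxxThinPlus A w₀) :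
    ∀ (q M₁ : ℕ) [NeZero q] [NeZero M₁] [NeZero (M₁ * q)] (M : ℕ)
      (H : Subgroup (ZMod M)ˣ) (hq : q.Prime) (hqM' : q ∣ M) (hM0 : M ≠ 0), ¬ q ∣ M₁ →
      M ∣ M₁ * q → IsStarStable M q H → IsTameAt_t3 (M₁ * q) M q H → 4 ∣ M₁ * q →
      ∀ (w₀ : fieldBar (M₁ * q) M H ≃ₐ[Qb] fieldBar (M₁ * q) M H)
        (hw₀ : IsWAt (M₁ * q) M H q w₀) (A : ValuationSubring Qb), A.LiesOverPrime q →
        Rtk6eiEv q A (fun K₁ _ hζ π hπ =>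
          ∀ σ ∈ A.inertiaSubgroupIn ℚ, ∀ (hσE : ∀ x ∈ mgcE A K₁, σ x ∈ mgcE A K₁)
            (c' : (ZMod M)ˣ), IsAtR M q c' →
            ∀ δ₀' : ↥(rtk6diF A K₁ (M₁ * q) M H) ≃ₐ[↥(mgcE A K₁)]
                ↥(rtk6diF A K₁ (M₁ * q) M H),
              IsDiamondC ↥(mgcE A K₁) (M₁ * q) M H c' δ₀' →
              ∀ u : ↥(rtk6diF A K₁ (M₁ * q) M H),
                (u = rtk6diT A K₁ (M₁ * q) M H ∨ u = (rtk6diT A K₁ (M₁ * q) M H)⁻¹) →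
                Rtk6emFixAt A K₁ (M₁ * q) M H π
                  (rtk6dfV hπ M H (rtk6diwW (K₀ := mgcE A K₁) w₀ hw₀ hM0 hq hqM' hζ))
                  (rtk6diGal (M₁ * q) M H σ hσE) u ∧
                Rtk6emCongAt A K₁ (M₁ * q) M H π
                  (rtk6dfV hπ M H (rtk6diwW (K₀ := mgcE A K₁) w₀ hw₀ hM0 hq hqM' hζ))
                  (SemilinearAut.ofAlgAut δ₀') u) := by
  intro q M₁ _ _ _ M H hq hqM' hM0 hqM hML hstar htame h4 w₀ hw₀ A hA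
  exact rtk6fxx_ev_t3 hS hq hqM' hM0 hqM hML htame h4 w₀ hw₀ hA
    (hPlus q M₁ M H hq hqM' hM0 hqM hML hstar htame h4 w₀ hw₀ A hA)

/-- **FINAL wiring, case (χ), ONE open input**: `StmtRtk6GeomChi_t3` from the generic (SS1-inst) and
the dichotomy with C4+ for the inertia group and the diamonds at `q` at ONE thin level per level
datum (C4-χ-ASM). -/
theorem rtk6fxx_geomChi_t3 (hS : StmtRtk6SS1Gen_t3)
    (hPlus : ∀ (q M₁ : ℕ) [NeZero q] [NeZero M₁] [NeZero (M₁ * q)] (M : ℕ)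
      (H : Subgroup (ZMod M)ˣ) (hq : q.Prime) (hqM' : q ∣ M) (hM0 : M ≠ 0), ¬ q ∣ M₁ →
      M ∣ M₁ * q → IsStarStable M q H → IsTameAt_t3 (M₁ * q) M q H → 4 ∣ M₁ * q →
      ∀ (w₀ : fieldBar (M₁ * q) M H ≃ₐ[Qb] fieldBar (M₁ * q) M H)
        (hw₀ : IsWAt (M₁ * q) M H q w₀) (A : ValuationSubring Qb), A.LiesOverPrime q →
        Rtk6fxxThinPlus A w₀) :
    StmtRtk6GeomChi_t3 :=
  rtk6cxb_geomChi_t3 hS
    (fun q M₁ _ _ _ M H hq hqM' hM0 hqM hML hstar htame h4 w₀ hw₀ A hA =>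
      (hPlus q M₁ M H hq hqM' hM0 hqM hML hstar htame h4 w₀ hw₀ A hA).cxb)
    (rtk6fxx_hFix_t3 hS hPlus)

end Fermat.Agent.RT.K6
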