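/-
K6 at p = 3 (helper4): fork of the declarations of `Fermat.Agent.RT.K6.C4AsmThinInv` that depend on `IsTameAt`,
with `Tame3 d L := Nat.Coprime d (2 * L) ∧ 2 ∣ L` in place of `Nat.Coprime d (6 * L)` (suffix `_t3`).
Generated from the landed file; the proofs are the originals.
-/
import Fermat.Agent.RT.K6.C4AsmThinInv
import Fermat.Agent.RT.K6T.Base
import Fermat.Agent.RT.K6T.C4AsmCr
import Fermat.Agent.RT.K6T.C4AsmSm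
import Fermat.Agent.RT.K6T.C4AsmThin
import Fermat.Agent.RT.K6T.C4ChiPlusG
import Fermat.Agent.RT.K6T.C4ChiWireS
import Fermat.Agent.RT.K6T.EInstRig
import Fermat.Agent.RT.K6T.Psi

set_option autoImplicit false
set_option linter.style.haveILetI false
set_option linter.unusedSectionVars false
set_option linter.unusedVariables false
set_option linter.style.longLine false
set_option synthInstance.maxHeartbeats 400000
set_option maxHeartbeats 4000000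
noncomputable section
namespace Fermat.Agent.RT.K6
open ModularCurve Polynomial IntermediateField Fermat.Agent.INJ Fermat.Agent.AL AlgebraicCurve
open Fermat.Agent.ES Fermat.Agent.ES.G2 Fermat.Agent.STB Fermat.Agent.UNIP Fermat.Agent.S36
open Fermat.Agent.RIB.MP Fermat.Agent.ES1 Fermat.Agent.ES1.G2
section CrInv
variable {A : ValuationSubring Qb} {q M₁ : ℕ} [NeZero q] [NeZero M₁] [NeZero (M₁ * q)]
  [IsDiscreteValuationRing ↥(beta0Ring A (beta0Field A))]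
  {π : ↥(beta0Ring A (beta0Field A))} (hπ : Irreducible π)
  (ιC : ↥(beta0Field A) →+* ℂ) (hq : q.Prime) (hqM : ¬ q ∣ M₁)
  (M : ℕ) [NeZero M] (H : Subgroup (ZMod M)ˣ)
  [IsDiscreteValuationRing ↥(mgcA A (rtk6ebK q (rtk6psiDr M q H)))]
  (f : ↥(beta0Field A) →+* ↥(mgcE A (rtk6ebK q (rtk6psiDr M q H))))
  (hf : ∀ a : ↥(beta0Field A),
    ((f a : ↥(mgcE A (rtk6ebK q (rtk6psiDr M q H)))) : Qb) = (a : Qb))
  [Algebra ↥(modularFunctionFieldFullC ↥(beta0Field A) (M₁ * q))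
    ↥(rtk6diF A (rtk6ebK q (rtk6psiDr M q H)) (M₁ * q) M H)]
  (halg : ∀ z : ↥(modularFunctionFieldFullC ↥(beta0Field A) (M₁ * q)),
    algebraMap ↥(modularFunctionFieldFullC ↥(beta0Field A) (M₁ * q))
      ↥(rtk6diF A (rtk6ebK q (rtk6psiDr M q H)) (M₁ * q) M H) z
        = rtk6c4fdIota f (M₁ * q) M H z)
  (hA : A.LiesOverPrime q) (hd0 : rtk6psiDr M q H ≠ 0)
  {ϖ : ↥(mgcA A (rtk6ebK q (rtk6psiDr M q H)))}
  (hϖd : ϖ ^ rtk6psiDr M q H =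
    beta0RingIncl (A := A)
      (le_sup_left : beta0Field A ≤ beta0Field A ⊔ rtk6ebK q (rtk6psiDr M q H)) π)

include hπ ιC hqM in
/-- **the discharge of `hcr`, chart `1 / j`, for given characters `ψ_r`, `ψ′_i`.** -/
theorem rtk6c4ati_hcr_of_t3 (rigid : (q ≠ 2 → 4 ∣ M₁) ∧ (q = 2 → 9 ∣ M₁))
    (hϖq : ϖ ^ rtk6psiDr M q H = ((q : ℕ) : ↥(mgcA A (rtk6ebK q (rtk6psiDr M q H)))))
    (hqN : q ∣ M) (hML : M ∣ M₁ * q) (hM3 : 3 ≤ M) (hstar : IsStarStable M q H)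
    {dS : ℕ} (hdS : Tame3 dS ((M₁ * q))) (hdS0 : dS ≠ 0)
    (hdr : rtk6psiDr M q H ∣ dS)
    {ψr : (ZMod M)ˣ →* (↥(beta0Field A))ˣ} (hψr : Rtk6psiIsR ↥(beta0Field A) M q H ψr)
    {k : ℕ} {ψ' : Fin k → ((ZMod M)ˣ →* (↥(beta0Field A))ˣ)}
    (hfam : Rtk6psiIsFam ↥(beta0Field A) M q dS H ψ')
    (𝒢 : Set (SemilinearAut ↥(mgcE A (rtk6ebK q (rtk6psiDr M q H)))
      ↥(rtk6diF A (rtk6ebK q (rtk6psiDr M q H)) (M₁ * q) M H)))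
    (hT2 : ∀ g ∈ 𝒢, Rtk6c4aAut
      ↥(zchClosure (A₀ := ↥(beta0Ring A (beta0Field A)))
        ({(bgJ ↥(beta0Field A) (M₁ * q))⁻¹} :
          Set ↥(modularFunctionFieldFullC ↥(beta0Field A) (M₁ * q))))
      ↥(modularFunctionFieldFullC ↥(beta0Field A) (M₁ * q)) ϖ
      ((rtk6diT A (rtk6ebK q (rtk6psiDr M q H)) (M₁ * q) M H)⁻¹)
      (Set.range fun i => rtk6c4fdY f (M₁ * q) M H (ψ' i) hML)
      (rtk6c4fdY f (M₁ * q) M H ψr hML) g)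
    (𝔫 : AtPt (F := ↥(rtk6diF A (rtk6ebK q (rtk6psiDr M q H)) (M₁ * q) M H)) ϖ
      ((rtk6diT A (rtk6ebK q (rtk6psiDr M q H)) (M₁ * q) M H)⁻¹))
    (h₁ : atThrough (rtk6gxiPtInv hq (rtk6ebK q (rtk6psiDr M q H)) M H f hf halg hA hd0 hϖd 𝔫)
      (mgvV hπ ιC hq hqM true))
    (h₂ : atThrough (rtk6gxiPtInv hq (rtk6ebK q (rtk6psiDr M q H)) M H f hf halg hA hd0 hϖd 𝔫)
      (mgvV hπ ιC hq hqM false)) :
    ∃ (d' dS : ℕ) (ζ X Y w e₁ e₂ : ↥(zchClosure (A₀ := ↥(beta0Ring A (beta0Field A)))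
        ({(bgJ ↥(beta0Field A) (M₁ * q))⁻¹} :
          Set ↥(modularFunctionFieldFullC ↥(beta0Field A) (M₁ * q)))))
      (S : Set ↥(rtk6diF A (rtk6ebK q (rtk6psiDr M q H)) (M₁ * q) M H))
      (y : ↥(rtk6diF A (rtk6ebK q (rtk6psiDr M q H)) (M₁ * q) M H))
      (γ : ↥(modularFunctionFieldFullC ↥(beta0Field A) (M₁ * q))) (n₀ a b : ℤ)
      (σ δ : ↥(rtk6diF A (rtk6ebK q (rtk6psiDr M q H)) (M₁ * q) M H)
        ≃ₐ[↥(modularFunctionFieldFullC ↥(beta0Field A) (M₁ * q))]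
        ↥(rtk6diF A (rtk6ebK q (rtk6psiDr M q H)) (M₁ * q) M H)),
      Rtk6c4CrossE (rtk6gxiJInv (rtk6ebK q (rtk6psiDr M q H)) M H f hf halg)
        (algebraMap ↥(zchClosure (A₀ := ↥(mgcA A (rtk6ebK q (rtk6psiDr M q H))))
          ({(rtk6diT A (rtk6ebK q (rtk6psiDr M q H)) (M₁ * q) M H)⁻¹} :
            Set ↥(rtk6diF A (rtk6ebK q (rtk6psiDr M q H)) (M₁ * q) M H)))
          ↥(rtk6diF A (rtk6ebK q (rtk6psiDr M q H)) (M₁ * q) M H)) 𝔫.1 d' dS ζ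
        (algebraMap ↥(beta0Ring A (beta0Field A))
          ↥(zchClosure (A₀ := ↥(beta0Ring A (beta0Field A)))
            ({(bgJ ↥(beta0Field A) (M₁ * q))⁻¹} :
              Set ↥(modularFunctionFieldFullC ↥(beta0Field A) (M₁ * q)))) π) X Y w S
        (algebraMap ↥(mgcA A (rtk6ebK q (rtk6psiDr M q H)))
          ↥(rtk6diF A (rtk6ebK q (rtk6psiDr M q H)) (M₁ * q) M H) ϖ) y γ e₁ e₂ n₀ a b σ δ ∧
      (X : ↥(modularFunctionFieldFullC ↥(beta0Field A) (M₁ * q))) ∈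
        (mgvV hπ ιC hq hqM true).nonunits ∧
      (Y : ↥(modularFunctionFieldFullC ↥(beta0Field A) (M₁ * q))) ∉
        (mgvV hπ ιC hq hqM true).nonunits ∧
      (Y : ↥(modularFunctionFieldFullC ↥(beta0Field A) (M₁ * q))) ∈
        (mgvV hπ ιC hq hqM false).nonunits ∧
      (X : ↥(modularFunctionFieldFullC ↥(beta0Field A) (M₁ * q))) ∉
        (mgvV hπ ιC hq hqM false).nonunits ∧
      ∀ g ∈ 𝒢, Rtk6c4aAut
        ↥(zchClosure (A₀ := ↥(beta0Ring A (beta0Field A)))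
          ({(bgJ ↥(beta0Field A) (M₁ * q))⁻¹} :
            Set ↥(modularFunctionFieldFullC ↥(beta0Field A) (M₁ * q))))
        ↥(modularFunctionFieldFullC ↥(beta0Field A) (M₁ * q)) ϖ
        ((rtk6diT A (rtk6ebK q (rtk6psiDr M q H)) (M₁ * q) M H)⁻¹) S y g := by
  have hL : M₁ * q ≠ 0 := NeZero.ne (M₁ * q)
  have hqL : q ∣ M₁ * q := Dvd.intro_left M₁ rfl
  have hq2 : ¬ q ^ 2 ∣ M := by
    intro h
    have h1 : q ^ 2 ∣ M₁ * q := h.trans hML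
    rw [pow_two] at h1
    exact hqM (Nat.dvd_of_mul_dvd_mul_right hq.pos h1)
  have hqdS : ¬ q ∣ dS := rtk6c4ws_not_dvd_t3 hq hqL hdS
  have hcopr : Tame3 (rtk6psiDr M q H) ((M₁ * q)) :=
    rtk6t_of_dvd hdr hdS
  have hqd : ¬ q ∣ rtk6psiDr M q H := rtk6c4ws_not_dvd_t3 hq hqL hcopr
  have hodd : Odd (rtk6psiDr M q H) := rtk6psi_odd_of_coprime_t3 hcopr
  obtain ⟨w, hw⟩ := rtk6n0b_exists_w (H := H) hq hqM hML hqN hstar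
  obtain ⟨c₀, hc₀, hord⟩ := hψr.exists_orderOf hq hqN hq2
  -- the ramified generator
  obtain ⟨n₀, hcop, hz0, hhor, hz₁, hn₀, hzy⟩ :=
    rtk6c4ws_ram_data_t3 f halg hπ ιC hq hqM hA hML hqN hM3 hw hcopr ψr hψr.map_H
      hψr.map_neg_one hψr.pow_dr hc₀ hord
  -- the étale family
  obtain ⟨nn, hyu, hu, hhor', hy₁', hn₀', hdvd⟩ :=
    rtk6c4ws_family_t3 f halg hπ ιC hq hqM hA hML hqN hM3 hw hdS ψ' hfam.map_H
      hfam.map_neg_one hfam.pow_d hfam.map_atR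
  -- WIRE
  obtain ⟨ζ, a, b, σ, δ, hζ, hab, hF1, hσN, hσY, hσϖ, hδN, hδY, hδϖ, hδy, hδy', -, -⟩ :=
    rtk6c4w_wireN hq hA hqN hq2 hodd f hf halg hL hML hM3
      (zchClosure (A₀ := ↥(beta0Ring A (beta0Field A)))
        ({(bgJ ↥(beta0Field A) (M₁ * q))⁻¹} :
          Set ↥(modularFunctionFieldFullC ↥(beta0Field A) (M₁ * q))))
      hϖq hψr hfam hdS0 hdr hcop
  -- the pack
  obtain ⟨S, hS, hSet, hgen, hfix, hSy, hyS⟩ :=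
    rtk6gii_cross_pack hπ ιC hq hqM hA rigid dS
      (fun i => rtk6n0fY f (M₁ * q) M H (ψ' i) hML)
      (fun i => rtk6c4wsU (M₁ := M₁) (H := H) (ψ' i) hML (hfam.pow_d i)) nn hyu hu hhor'
      hy₁' hn₀' hdvd
      ({algebraMap ↥(mgcA A (rtk6ebK q (rtk6psiDr M q H)))
          ↥(rtk6diF A (rtk6ebK q (rtk6psiDr M q H)) (M₁ * q) M H) ϖ,
        rtk6n0fY f (M₁ * q) M H ψr hML} :
        Set ↥(rtk6diF A (rtk6ebK q (rtk6psiDr M q H)) (M₁ * q) M H))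
      ((Set.range fun i => rtk6n0fY f (M₁ * q) M H (ψ' i) hML) ∪
        {algebraMap ↥(mgcA A (rtk6ebK q (rtk6psiDr M q H)))
            ↥(rtk6diF A (rtk6ebK q (rtk6psiDr M q H)) (M₁ * q) M H) ϖ,
          rtk6n0fY f (M₁ * q) M H ψr hML})
      (by
        rintro z (⟨i, rfl⟩ | hz)
        · exact Or.inr ⟨i, rfl⟩
        · exact Or.inl hz)
      hF1 (rtk6gxiPtInv hq (rtk6ebK q (rtk6psiDr M q H)) M H f hf halg hA hd0 hϖd 𝔫)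
  -- (G-cross)
  obtain ⟨X, Y, w', e₁, e₂, γ, hC, hX₁, hY₁, hY₂, hX₂⟩ :=
    rtk6gxi_crossE_inv hπ ιC hq hqM (rtk6ebK q (rtk6psiDr M q H)) M H f hf halg hA hd0 hϖd
      hqdS rigid hqd 𝔫 h₁ h₂ hζ hz0 hhor hz₁ hn₀ hzy hab hS
      (fun t ht => by
        obtain ⟨a', b', ha', hb', hpow⟩ := hSet t ht
        exact ⟨a', b', ha', hb', hpow⟩)
      hgen (hfix σ (fun i => hσN (ψ' i))) hσϖ (hσN ψr)
      (hfix δ (fun i => hδN (ψ' i) (hfam.map_atR i))) hδϖ hδy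
  refine ⟨rtk6psiDr M q H, dS, ζ, X, Y, w', e₁, e₂, S, rtk6n0fY f (M₁ * q) M H ψr hML, γ, n₀,
    a, b, σ, δ, hC, hX₁, hY₁, hY₂, hX₂, fun g hg => ?_⟩
  refine (hT2 g hg).rescale
    (algebraMap ↥(beta0Field A) ↥(modularFunctionFieldFullC ↥(beta0Field A) (M₁ * q))
      (((rtk6d0N M H ⊤ : ℕ) : ↥(beta0Field A))⁻¹))
    (rtk6n0fY_eq_K halg hML) (fun t ht => ?_)
  obtain ⟨i, c, hc, rfl⟩ := hSy t ht
  refine ⟨algebraMap ↥(beta0Field A) ↥(modularFunctionFieldFullC ↥(beta0Field A) (M₁ * q))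
      (((rtk6d0N M H ⊤ : ℕ) : ↥(beta0Field A))⁻¹) * c⁻¹,
    rtk6c4fdY f (M₁ * q) M H (ψ' i) hML, ⟨i, rfl⟩, ?_⟩
  rw [rtk6n0fY_eq_K halg hML, map_mul, map_inv₀ _ c, div_eq_mul_inv]
  exact mul_right_comm _ _ _

include hπ ιC hqM in
/-- **the discharge of `hcr`, chart `1 / j`**: the crossing alternative of `rtk6c4aj_plusAt_inv` at the
thin level, from `IsStarStable`, `IsTameAt_t3` and (T2) for the unnormalised generators of ALL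
characters `ψ_r`, `ψ′_i` of PSI. -/
theorem rtk6c4ati_hcr_t3 (rigid : (q ≠ 2 → 4 ∣ M₁) ∧ (q = 2 → 9 ∣ M₁))
    (hϖq : ϖ ^ rtk6psiDr M q H = ((q : ℕ) : ↥(mgcA A (rtk6ebK q (rtk6psiDr M q H)))))
    (hqN : q ∣ M) (hML : M ∣ M₁ * q) (hM3 : 3 ≤ M) (hstar : IsStarStable M q H)
    (htame : IsTameAt_t3 (M₁ * q) M q H)
    (𝒢 : Set (SemilinearAut ↥(mgcE A (rtk6ebK q (rtk6psiDr M q H)))
      ↥(rtk6diF A (rtk6ebK q (rtk6psiDr M q H)) (M₁ * q) M H)))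
    (hT2 : ∀ (dS : ℕ) (ψr : (ZMod M)ˣ →* (↥(beta0Field A))ˣ) (k : ℕ)
      (ψ' : Fin k → ((ZMod M)ˣ →* (↥(beta0Field A))ˣ)),
      Rtk6psiIsR ↥(beta0Field A) M q H ψr → Rtk6psiIsFam ↥(beta0Field A) M q dS H ψ' →
      ∀ g ∈ 𝒢, Rtk6c4aAut
        ↥(zchClosure (A₀ := ↥(beta0Ring A (beta0Field A)))
          ({(bgJ ↥(beta0Field A) (M₁ * q))⁻¹} :
            Set ↥(modularFunctionFieldFullC ↥(beta0Field A) (M₁ * q))))
        ↥(modularFunctionFieldFullC ↥(beta0Field A) (M₁ * q)) ϖ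
        ((rtk6diT A (rtk6ebK q (rtk6psiDr M q H)) (M₁ * q) M H)⁻¹)
        (Set.range fun i => rtk6c4fdY f (M₁ * q) M H (ψ' i) hML)
        (rtk6c4fdY f (M₁ * q) M H ψr hML) g)
    (𝔫 : AtPt (F := ↥(rtk6diF A (rtk6ebK q (rtk6psiDr M q H)) (M₁ * q) M H)) ϖ
      ((rtk6diT A (rtk6ebK q (rtk6psiDr M q H)) (M₁ * q) M H)⁻¹))
    (h₁ : atThrough (rtk6gxiPtInv hq (rtk6ebK q (rtk6psiDr M q H)) M H f hf halg hA hd0 hϖd 𝔫)
      (mgvV hπ ιC hq hqM true))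
    (h₂ : atThrough (rtk6gxiPtInv hq (rtk6ebK q (rtk6psiDr M q H)) M H f hf halg hA hd0 hϖd 𝔫)
      (mgvV hπ ιC hq hqM false)) :
    ∃ (d' dS : ℕ) (ζ X Y w e₁ e₂ : ↥(zchClosure (A₀ := ↥(beta0Ring A (beta0Field A)))
        ({(bgJ ↥(beta0Field A) (M₁ * q))⁻¹} :
          Set ↥(modularFunctionFieldFullC ↥(beta0Field A) (M₁ * q)))))
      (S : Set ↥(rtk6diF A (rtk6ebK q (rtk6psiDr M q H)) (M₁ * q) M H))
      (y : ↥(rtk6diF A (rtk6ebK q (rtk6psiDr M q H)) (M₁ * q) M H))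
      (γ : ↥(modularFunctionFieldFullC ↥(beta0Field A) (M₁ * q))) (n₀ a b : ℤ)
      (σ δ : ↥(rtk6diF A (rtk6ebK q (rtk6psiDr M q H)) (M₁ * q) M H)
        ≃ₐ[↥(modularFunctionFieldFullC ↥(beta0Field A) (M₁ * q))]
        ↥(rtk6diF A (rtk6ebK q (rtk6psiDr M q H)) (M₁ * q) M H)),
      Rtk6c4CrossE (rtk6gxiJInv (rtk6ebK q (rtk6psiDr M q H)) M H f hf halg)
        (algebraMap ↥(zchClosure (A₀ := ↥(mgcA A (rtk6ebK q (rtk6psiDr M q H))))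
          ({(rtk6diT A (rtk6ebK q (rtk6psiDr M q H)) (M₁ * q) M H)⁻¹} :
            Set ↥(rtk6diF A (rtk6ebK q (rtk6psiDr M q H)) (M₁ * q) M H)))
          ↥(rtk6diF A (rtk6ebK q (rtk6psiDr M q H)) (M₁ * q) M H)) 𝔫.1 d' dS ζ
        (algebraMap ↥(beta0Ring A (beta0Field A))
          ↥(zchClosure (A₀ := ↥(beta0Ring A (beta0Field A)))
            ({(bgJ ↥(beta0Field A) (M₁ * q))⁻¹} :
              Set ↥(modularFunctionFieldFullC ↥(beta0Field A) (M₁ * q)))) π) X Y w S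
        (algebraMap ↥(mgcA A (rtk6ebK q (rtk6psiDr M q H)))
          ↥(rtk6diF A (rtk6ebK q (rtk6psiDr M q H)) (M₁ * q) M H) ϖ) y γ e₁ e₂ n₀ a b σ δ ∧
      (X : ↥(modularFunctionFieldFullC ↥(beta0Field A) (M₁ * q))) ∈
        (mgvV hπ ιC hq hqM true).nonunits ∧
      (Y : ↥(modularFunctionFieldFullC ↥(beta0Field A) (M₁ * q))) ∉
        (mgvV hπ ιC hq hqM true).nonunits ∧
      (Y : ↥(modularFunctionFieldFullC ↥(beta0Field A) (M₁ * q))) ∈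
        (mgvV hπ ιC hq hqM false).nonunits ∧
      (X : ↥(modularFunctionFieldFullC ↥(beta0Field A) (M₁ * q))) ∉
        (mgvV hπ ιC hq hqM false).nonunits ∧
      ∀ g ∈ 𝒢, Rtk6c4aAut
        ↥(zchClosure (A₀ := ↥(beta0Ring A (beta0Field A)))
          ({(bgJ ↥(beta0Field A) (M₁ * q))⁻¹} :
            Set ↥(modularFunctionFieldFullC ↥(beta0Field A) (M₁ * q))))
        ↥(modularFunctionFieldFullC ↥(beta0Field A) (M₁ * q)) ϖ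
        ((rtk6diT A (rtk6ebK q (rtk6psiDr M q H)) (M₁ * q) M H)⁻¹) S y g := by
  have hq2 : ¬ q ^ 2 ∣ M := by
    intro h
    have h1 : q ^ 2 ∣ M₁ * q := h.trans hML
    rw [pow_two] at h1
    exact hqM (Nat.dvd_of_mul_dvd_mul_right hq.pos h1)
  obtain ⟨dS, hdS, hdS0, hdr, ψr, k, ψ', hψr, hfam⟩ :=
    rtk6c4ac_psi_t3 (A := A) hq hA (Dvd.intro_left M₁ rfl) hqN hq2 hstar htame
  exact rtk6c4ati_hcr_of_t3 hπ ιC hq hqM M H f hf halg hA hd0 hϖd rigid hϖq hqN hML hM3 hstar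
    hdS hdS0 hdr hψr hfam 𝒢 (hT2 dS ψr k ψ' hψr hfam) 𝔫 h₁ h₂

end CrInv
section ThinInv
variable {q M₁ : ℕ} [NeZero q] [NeZero M₁] [NeZero (M₁ * q)] {M : ℕ} {H : Subgroup (ZMod M)ˣ}

/-- **C4-χ-ASM at the thin level, chart `1 / j`** (one level datum, one point). -/
theorem rtk6c4at_plusJinv_t3 (hq : q.Prime) (hqM' : q ∣ M) (hM0 : M ≠ 0) (hqM : ¬ q ∣ M₁)
    (hML : M ∣ M₁ * q) (hstar : IsStarStable M q H) (htame : IsTameAt_t3 (M₁ * q) M q H)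
    (h4 : 4 ∣ M₁ * q) (w₀ : fieldBar (M₁ * q) M H ≃ₐ[Qb] fieldBar (M₁ * q) M H)
    (hw₀ : IsWAt (M₁ * q) M H q w₀) (A : ValuationSubring Qb) (hA : A.LiesOverPrime q)
    [IsDiscreteValuationRing ↥(mgcA A (rtk6ebK q (rtk6cxpD M q H)))]
    (ϖ₁ : ↥(mgcA A (rtk6ebK q (rtk6cxpD M q H)))) (hϖ₁ : Irreducible ϖ₁)
    (hϖq : ϖ₁ ^ rtk6cxpD M q H = ((q : ℕ) : ↥(mgcA A (rtk6ebK q (rtk6cxpD M q H)))))
    (hc₁ : RtkCommK (mgcE A (rtk6ebK q (rtk6cxpD M q H))) w₀)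
    (𝔫₁ : AtPt (F := ↥(rtk6diF A (rtk6ebK q (rtk6cxpD M q H)) (M₁ * q) M H)) ϖ₁
      (rtk6diT A (rtk6ebK q (rtk6cxpD M q H)) (M₁ * q) M H)⁻¹) :
    Rtk6c4aPlusAt
      (rtk6dfV hϖ₁ M H (rtk6diwEquiv (K₀ := mgcE A (rtk6ebK q (rtk6cxpD M q H))) w₀ hc₁))
      (rtk6fxbG A (rtk6ebK q (rtk6cxpD M q H)) (M₁ * q) M H q) 𝔫₁ := by
  haveI : NeZero M := ⟨hM0⟩
  haveI : IsDiscreteValuationRing ↥(beta0Ring A (beta0Field A)) := beta0Ring_isDVR_base hq hA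
  have hπ : Irreducible ((q : ℕ) : ↥(beta0Ring A (beta0Field A))) :=
    beta0Ring_irreducible_q (A := A) hq hA
  have hd0 : rtk6psiDr M q H ≠ 0 := rtk6cxpD_ne_zero hM0
  have hq2 : ¬ q ^ 2 ∣ M := rtk6cxp_not_sq_dvd hq hqM hML
  have rigid : (q ≠ 2 → 4 ∣ M₁) ∧ (q = 2 → 9 ∣ M₁) := rtk6cxp_rigid hq hqM h4
  have hM3 : 3 ≤ M := rtk6c4ac_three_le hq hqM h4 hqM' hM0
  letI : Algebra ↥(modularFunctionFieldFullC ↥(beta0Field A) (M₁ * q))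
      ↥(rtk6diF A (rtk6ebK q (rtk6cxpD M q H)) (M₁ * q) M H) :=
    (rtk6c4fdIota (rtk6c4atF A (rtk6ebK q (rtk6cxpD M q H))) (M₁ * q) M H).toAlgebra
  have halg : ∀ z : ↥(modularFunctionFieldFullC ↥(beta0Field A) (M₁ * q)),
      algebraMap ↥(modularFunctionFieldFullC ↥(beta0Field A) (M₁ * q))
        ↥(rtk6diF A (rtk6ebK q (rtk6cxpD M q H)) (M₁ * q) M H) z =
      rtk6c4fdIota (rtk6c4atF A (rtk6ebK q (rtk6cxpD M q H))) (M₁ * q) M H z := fun _ => rfl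
  have hϖd := rtk6cxp_varpi_pow (A := A) (K₁' := rtk6ebK q (rtk6cxpD M q H)) hϖq
  have hwI := rtk6w1_wIncl w₀ hw₀ hc₁ hq (mgdIota (mgcE A (rtk6ebK q (rtk6cxpD M q H)))) hqM
  exact rtk6c4aj_plusAt_inv hπ (mgdIota (beta0Field A)) hq hqM (rtk6ebK q (rtk6cxpD M q H)) M H
    (rtk6c4atF A (rtk6ebK q (rtk6cxpD M q H))) (rtk6c4atF_coe A _) halg hA hd0 hϖd rigid
    (rtk6dfV hϖ₁ M H (rtk6diwEquiv (K₀ := mgcE A (rtk6ebK q (rtk6cxpD M q H))) w₀ hc₁))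
    (fun c z hz => rtk6df_hBV₂ hϖ₁ (mgdIota (mgcE A (rtk6ebK q (rtk6cxpD M q H)))) hq hqM M H
      _ hwI c z hz)
    (rtk6fxbG A (rtk6ebK q (rtk6cxpD M q H)) (M₁ * q) M H q) 𝔫₁
    (rtk6c4as_hsm_inv_t3 hπ (mgdIota (beta0Field A)) hq hqM M H
      (rtk6c4atF A (rtk6ebK q (rtk6cxpD M q H))) (rtk6c4atF_coe A _) halg hA hd0 hϖd hϖq hML
      hqM' h4 hstar htame 𝔫₁)
    (rtk6c4ati_hcr_t3 hπ (mgdIota (beta0Field A)) hq hqM M H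
      (rtk6c4atF A (rtk6ebK q (rtk6cxpD M q H))) (rtk6c4atF_coe A _) halg hA hd0 hϖd rigid hϖq
      hqM' hML hM3 hstar htame _
      (rtk6fxb_hT2_chart (rtk6ebK q (rtk6cxpD M q H)) (rtk6c4atF A (rtk6ebK q (rtk6cxpD M q H)))
        (rtk6c4atF_coe A _) halg hML _ hq hqM' hq2 hϖq (Or.inr rfl)) 𝔫₁)
    (rtk6thrx_hthrInv hπ (mgdIota (beta0Field A)) hq hqM (rtk6ebK q (rtk6cxpD M q H)) M H
      (rtk6c4atF A (rtk6ebK q (rtk6cxpD M q H))) (rtk6c4atF_coe A _) halg hA hd0 hϖd hϖ₁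
      (mgdIota (mgcE A (rtk6ebK q (rtk6cxpD M q H)))) _ hwI hML rigid 𝔫₁)

end ThinInv

/-- **The hypothesis `hJinv` of `rtk6cxp_geomChiG_t3`** (chart `1 / j`), closed. -/
theorem rtk6c4at_hJinv_t3 :
    ∀ (q M₁ : ℕ) [NeZero q] [NeZero M₁] [NeZero (M₁ * q)] (M : ℕ)
      (H : Subgroup (ZMod M)ˣ) (hq : q.Prime) (hqM' : q ∣ M) (hM0 : M ≠ 0), ¬ q ∣ M₁ →
      M ∣ M₁ * q → IsStarStable M q H → IsTameAt_t3 (M₁ * q) M q H → 4 ∣ M₁ * q →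
      ∀ (w₀ : fieldBar (M₁ * q) M H ≃ₐ[Qb] fieldBar (M₁ * q) M H)
        (hw₀ : IsWAt (M₁ * q) M H q w₀) (A : ValuationSubring Qb), A.LiesOverPrime q →
      ∀ [IsDiscreteValuationRing ↥(mgcA A (rtk6ebK q (rtk6cxpD M q H)))]
        (ϖ₁ : ↥(mgcA A (rtk6ebK q (rtk6cxpD M q H)))) (hϖ₁ : Irreducible ϖ₁)
        (_ : ϖ₁ ^ rtk6cxpD M q H = ((q : ℕ) : ↥(mgcA A (rtk6ebK q (rtk6cxpD M q H)))))
        (hc₁ : RtkCommK (mgcE A (rtk6ebK q (rtk6cxpD M q H))) w₀)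
        (𝔫₁ : AtPt (F := ↥(rtk6diF A (rtk6ebK q (rtk6cxpD M q H)) (M₁ * q) M H)) ϖ₁
          (rtk6diT A (rtk6ebK q (rtk6cxpD M q H)) (M₁ * q) M H)⁻¹),
        Rtk6c4aPlusAt
          (rtk6dfV hϖ₁ M H (rtk6diwEquiv (K₀ := mgcE A (rtk6ebK q (rtk6cxpD M q H))) w₀ hc₁))
          (rtk6fxbG A (rtk6ebK q (rtk6cxpD M q H)) (M₁ * q) M H q) 𝔫₁ := by
  intro q M₁ _ _ _ M H hq hqM' hM0 hqM hML hstar htame h4 w₀ hw₀ A hA _ ϖ₁ hϖ₁ hϖq hc₁ 𝔫₁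
  exact rtk6c4at_plusJinv_t3 hq hqM' hM0 hqM hML hstar htame h4 w₀ hw₀ A hA ϖ₁ hϖ₁ hϖq hc₁ 𝔫₁

/-- **The case (χ), CLOSED**: `StmtRtk6GeomChi_t3`. -/
theorem rtk6c4at_geomChi_t3 : StmtRtk6GeomChi_t3 :=
  rtk6cxp_geomChiG_t3 rtk6c4at_hJ_t3 rtk6c4at_hJinv_t3

end Fermat.Agent.RT.K6
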