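/-
K6 at p = 3 (helper4): fork of the declarations of `Fermat.Agent.RT.K6.C4InstBU` that depend on `IsTameAt`,
with `Tame3 d L := Nat.Coprime d (2 * L) ∧ 2 ∣ L` in place of `Nat.Coprime d (6 * L)` (suffix `_t3`).
Generated from the landed file; the proofs are the originals.
-/
import Fermat.Agent.RT.K6.C4InstBU
import Fermat.Agent.RT.K6T.Base
import Fermat.Agent.RT.K6T.EInstGlue
import Fermat.Agent.RT.K6T.EInstRig
import Fermat.Agent.RT.K6T.EInstUS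

set_option autoImplicit false
set_option linter.style.haveILetI false
set_option linter.unusedSectionVars false
set_option linter.unusedVariables false
set_option linter.style.longLine false
noncomputable section
namespace Fermat.Agent.RT.K6
open ModularCurve AlgebraicCurve Fermat.Agent.ES Fermat.Agent.ES.G2 Fermat.Agent.INJ
open Fermat.Agent.UNIP Fermat.Agent.STB Fermat.Agent.ES1 Fermat.Agent.ES1.G2 IntermediateField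

/-- **The provider `hNode` of `rtk6ei_geomUnip_of_pieces_t3`** (literal shape) from (A). -/
theorem rtk6c4b_hNode_unip_t3
    (hAsm : ∀ (q M₁ : ℕ) [NeZero q] [NeZero M₁] [NeZero (M₁ * q)] (M : ℕ)
      (H : Subgroup (ZMod M)ˣ) (hq : q.Prime) (hqM' : q ∣ M) (hM0 : M ≠ 0), ¬ q ∣ M₁ →
      M ∣ M₁ * q → (∀ c : (ZMod M)ˣ, IsAtR M q c → c ∈ pmH H) → IsTameAt_t3 (M₁ * q) M q H →
      4 ∣ M₁ * q →
      ∀ (w₀ : fieldBar (M₁ * q) M H ≃ₐ[Qb] fieldBar (M₁ * q) M H)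
        (hw₀ : IsWAt (M₁ * q) M H q w₀) (A : ValuationSubring Qb), A.LiesOverPrime q →
      ∀ [IsDiscreteValuationRing ↥(mgcA A (rtk6ebK q 1))]
        (hcomm : RtkCommK (mgcE A (rtk6ebK q 1)) w₀), Rtk6c4bAsm q M₁ M H w₀ A hcomm) :
    ∀ (q M₁ : ℕ) [NeZero q] [NeZero M₁] [NeZero (M₁ * q)] (M : ℕ)
      (H : Subgroup (ZMod M)ˣ) (hq : q.Prime) (hqM' : q ∣ M) (hM0 : M ≠ 0), ¬ q ∣ M₁ →
      M ∣ M₁ * q → (∀ c : (ZMod M)ˣ, IsAtR M q c → c ∈ pmH H) → IsTameAt_t3 (M₁ * q) M q H →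
      4 ∣ M₁ * q →
      ∀ (w₀ : fieldBar (M₁ * q) M H ≃ₐ[Qb] fieldBar (M₁ * q) M H)
        (hw₀ : IsWAt (M₁ * q) M H q w₀) (A : ValuationSubring Qb), A.LiesOverPrime q →
        Rtk6eiEv q A (fun K₁ _ hζ π hπ => Rtk6emNode A K₁ (M₁ * q) M H π
          (rtk6dfV hπ M H (rtk6diwW (K₀ := mgcE A K₁) w₀ hw₀ hM0 hq hqM' hζ))) := by
  intro q M₁ _ _ _ M H hq hqM' hM0 hqM hML hat htame h4 w₀ hw₀ A hA
  haveI : IsDiscreteValuationRing ↥(mgcA A (rtk6ebK q 1)) := rtk6eb_isDVR hq hA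
  have hcomm : RtkCommK (mgcE A (rtk6ebK q 1)) w₀ :=
    rtk6w1_commK_of_hat hw₀ hM0 hq hqM' (rtk6eiu_not_sq_dvd hq hqM hML) A hA hat le_sup_left
  obtain ⟨ϖ₁, hϖ₁, hA₁, hA₂⟩ :=
    hAsm q M₁ M H hq hqM' hM0 hqM hML hat htame h4 w₀ hw₀ A hA hcomm
  have hwI := rtk6w1_wIncl w₀ hw₀ hcomm hq (mgdIota (mgcE A (rtk6ebK q 1))) hqM
  have fam := rtk6m1_emFam hϖ₁ (mgdIota (mgcE A (rtk6ebK q 1))) hq hqM hwI hA hML
  have ss1 := rtk6eiu_stmtSS1Gen_t3 q M₁ M H hq hqM hML htame h4 A hA (rtk6ebK q 1) hϖ₁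
    (mgdIota (mgcE A (rtk6ebK q 1))) _ hwI
  exact rtk6c4b_ev (rtk6ebK q 1) hϖ₁ (rtk6diwEquiv (K₀ := mgcE A (rtk6ebK q 1)) w₀ hcomm)
    hq hqM' hM0 hML w₀ hw₀ hA
    (rtk6dbc_hred_zch (A₀ := ↥(mgcA A (rtk6ebK q 1)))
      (rtk6diT A (rtk6ebK q 1) (M₁ * q) M H) _ fam.hBV₁ fam.hπV ss1)
    (rtk6dbc_hred_zch (A₀ := ↥(mgcA A (rtk6ebK q 1)))
      (rtk6diT A (rtk6ebK q 1) (M₁ * q) M H)⁻¹ _ fam.hBV₂ fam.hπV
      (rtk6hr_ss1_inv hϖ₁ (NeZero.ne (M₁ * q)) hML fam ss1))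
    (fun K₁ _ _ _ h hζ π hπ =>
      rtk6frf_hR2_E hϖ₁ hπ w₀
        (IntermediateField.inclusion (rtk6eb_mgcE_mono (A := A) h)).toRingHom
        (fun _ => rfl) hcomm (hw₀.commK hM0 hq hqM' hζ) hML)
    hA₁ hA₂

/-- **Case (U): `StmtRtk6GeomUnip_t3` from (A) alone.** -/
theorem rtk6c4b_geomUnip_t3
    (hAsm : ∀ (q M₁ : ℕ) [NeZero q] [NeZero M₁] [NeZero (M₁ * q)] (M : ℕ)
      (H : Subgroup (ZMod M)ˣ) (hq : q.Prime) (hqM' : q ∣ M) (hM0 : M ≠ 0), ¬ q ∣ M₁ →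
      M ∣ M₁ * q → (∀ c : (ZMod M)ˣ, IsAtR M q c → c ∈ pmH H) → IsTameAt_t3 (M₁ * q) M q H →
      4 ∣ M₁ * q →
      ∀ (w₀ : fieldBar (M₁ * q) M H ≃ₐ[Qb] fieldBar (M₁ * q) M H)
        (hw₀ : IsWAt (M₁ * q) M H q w₀) (A : ValuationSubring Qb), A.LiesOverPrime q →
      ∀ [IsDiscreteValuationRing ↥(mgcA A (rtk6ebK q 1))]
        (hcomm : RtkCommK (mgcE A (rtk6ebK q 1)) w₀), Rtk6c4bAsm q M₁ M H w₀ A hcomm) :
    StmtRtk6GeomUnip_t3 :=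
  rtk6eiu_geomUnip_of_node_t3 (rtk6c4b_hNode_unip_t3 hAsm)

end Fermat.Agent.RT.K6
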