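/-
K6 at p = 3 (helper4): fork of the declarations of `Fermat.Agent.RT.K6.C4UGet` that depend on `IsTameAt`,
with `Tame3 d L := Nat.Coprime d (2 * L) ∧ 2 ∣ L` in place of `Nat.Coprime d (6 * L)` (suffix `_t3`).
Generated from the landed file; the proofs are the originals.
-/
import Fermat.Agent.RT.K6.C4UGet
import Fermat.Agent.RT.K6T.Base
import Fermat.Agent.RT.K6T.DUnr

set_option autoImplicit false
set_option linter.style.haveILetI false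
set_option linter.unusedSectionVars false
set_option linter.unusedVariables false
set_option linter.style.longLine false
set_option synthInstance.maxHeartbeats 400000
set_option maxHeartbeats 1000000
noncomputable section
namespace Fermat.Agent.RT.K6
open ModularCurve AlgebraicCurve Fermat.Agent.ES Fermat.Agent.ES.G2 Fermat.Agent.INJ
open Fermat.Agent.UNIP Fermat.Agent.STB Fermat.Agent.ES1 Fermat.Agent.ES1.G2 Fermat.Agent.AL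
  IntermediateField
section Concrete
variable {A : ValuationSubring Qb} {K₁ : IntermediateField ℚ Qb}
  [IsDiscreteValuationRing ↥(mgcA A K₁)] {π : ↥(mgcA A K₁)} (hπ : Irreducible π)
  (ιC : ↥(mgcE A K₁) →+* ℂ) {q M₁ : ℕ} [NeZero q] [NeZero M₁] [NeZero (M₁ * q)]
  (hq : q.Prime) (hqM : ¬ q ∣ M₁) (M : ℕ) (H : Subgroup (ZMod M)ˣ)

/-- **The Kummer data of the case (U)** from a finite family of characters `ψ_i` of `(ℤ/M)ˣ`,
trivial on `±H ⊇` the diamonds at `q`, of exponent `d` prime to `6 M₁ q`, whose normalised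
resolvents `y_i = rtk6n0Y (ψ_i)` generate `F` over `F₀`. -/
theorem rtk6c4u_kummer_of_psi_t3 [NeZero M] (hA : A.LiesOverPrime q)
    (hqπ : Associated ((q : ℕ) : ↥(mgcA A K₁)) π)
    (hML : M ∣ M₁ * q) (hqN : q ∣ M) (hN3 : 3 ≤ M)
    {w₀ : fieldBar (M₁ * q) M H ≃ₐ[Qb] fieldBar (M₁ * q) M H} (hw₀ : IsWAt (M₁ * q) M H q w₀)
    (hat : ∀ c : (ZMod M)ˣ, IsAtR M q c → c ∈ pmH H)
    {d : ℕ} (hd : Tame3 d ((M₁ * q)))
    {k : ℕ} (ψ : Fin k → ((ZMod M)ˣ →* (↥(mgcE A K₁))ˣ))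
    (hψH : ∀ i, ∀ h ∈ H, ψ i h = 1) (hψ1 : ∀ i, ψ i (-1) = 1) (hψd : ∀ i c, ψ i c ^ d = 1)
    (hgen : Subring.closure (Set.range (rtk6diIncl (K := ↥(mgcE A K₁)) (M₁ * q) M H) ∪
      Set.range fun i => (⟨rtk6n0Y ↥(mgcE A K₁) M H (ψ i), rtk6n0Y_mem hML⟩ :
        ↥(rtk6diF A K₁ (M₁ * q) M H))) = ⊤) :
    Rtk6c4uKummer hπ ιC hq hqM M H := by
  have hL : M₁ * q ≠ 0 := NeZero.ne _
  have hqd : ¬ q ∣ d := rtk6t_not_dvd hq (Dvd.intro_left M₁ rfl) hd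
  have hmem : ∀ i, rtk6n0Y ↥(mgcE A K₁) M H (ψ i) ^ d
      ∈ modularFunctionFieldFullC ↥(mgcE A K₁) (M₁ * q) := fun i =>
    rtk6n0Y_pow_mem _ (rtk6unr_Y_mem (mgcE A K₁) (M₁ * q) M H hL hML (ψ i) d (hψd i))
  have hzero := fun i => rtk6n0_norm_zero_dvd hπ ιC hq hqM (ψ i) hA hqπ hML hqN hN3 hw₀
    (hψH i) (hψ1 i) hqd (hψd i)
    (fun c hc => rtk6c4u_psi_pmH (ψ i) (hψH i) (hψ1 i) (hat c hc)) (hmem i)
  choose n₀ hdvd hn₀ using hzero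
  refine ⟨d, k, fun i => ⟨rtk6n0Y ↥(mgcE A K₁) M H (ψ i), rtk6n0Y_mem hML⟩,
    fun i => ⟨rtk6n0Y ↥(mgcE A K₁) M H (ψ i) ^ d, hmem i⟩, n₀, hqd, fun i => ?_, fun i => ?_,
    fun i P => ?_, fun i => ?_, hn₀, hdvd, hgen⟩
  · exact Subtype.ext rfl
  · intro h
    have h1 : rtk6n0Y ↥(mgcE A K₁) M H (ψ i) ^ d = 0 :=
      congrArg (fun z : ↥(modularFunctionFieldFullC ↥(mgcE A K₁) (M₁ * q)) =>
        (z : LaurentSeries ↥(mgcE A K₁))) h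
    exact rtk6n0Y_ne_zero hN3 (hψH i) (hψ1 i) (eq_zero_of_pow_eq_zero h1)
  · exact rtk6unr_nf_t3 (mgcE A K₁) (M₁ * q) M H hL hML d hd _
      (rtk6n0Y ↥(mgcE A K₁) M H (ψ i)) (rtk6n0Y_mem hML) rfl P
  · exact rtk6n0_norm_inf hπ ιC hq hqM (ψ i) hN3 (hψH i) (hψ1 i) d (hmem i)

/-- the same with the generation in `Algebra.adjoin` form -/
theorem rtk6c4u_kummer_of_psi_adjoin_t3 [NeZero M] (hA : A.LiesOverPrime q)
    (hqπ : Associated ((q : ℕ) : ↥(mgcA A K₁)) π)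
    (hML : M ∣ M₁ * q) (hqN : q ∣ M) (hN3 : 3 ≤ M)
    {w₀ : fieldBar (M₁ * q) M H ≃ₐ[Qb] fieldBar (M₁ * q) M H} (hw₀ : IsWAt (M₁ * q) M H q w₀)
    (hat : ∀ c : (ZMod M)ˣ, IsAtR M q c → c ∈ pmH H)
    {d : ℕ} (hd : Tame3 d ((M₁ * q)))
    {k : ℕ} (ψ : Fin k → ((ZMod M)ˣ →* (↥(mgcE A K₁))ˣ))
    (hψH : ∀ i, ∀ h ∈ H, ψ i h = 1) (hψ1 : ∀ i, ψ i (-1) = 1) (hψd : ∀ i c, ψ i c ^ d = 1)
    (hgen : letI := rtk6c4uAlg (mgcE A K₁) (M₁ * q) M H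
      Algebra.adjoin ↥(modularFunctionFieldFullC ↥(mgcE A K₁) (M₁ * q))
        (Set.range fun i => (⟨rtk6n0Y ↥(mgcE A K₁) M H (ψ i), rtk6n0Y_mem hML⟩ :
          ↥(fieldC ↥(mgcE A K₁) (M₁ * q) M H))) = ⊤) :
    Rtk6c4uKummer hπ ιC hq hqM M H := by
  letI := rtk6c4uAlg (mgcE A K₁) (M₁ * q) M H
  exact rtk6c4u_kummer_of_psi_t3 hπ ιC hq hqM M H hA hqπ hML hqN hN3 hw₀ hat hd ψ hψH hψ1 hψd
    (rtk6gi_closure_of_adjoin _ hgen)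

end Concrete
end Fermat.Agent.RT.K6
end
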