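/-
K6 at p = 3 (helper4): fork of the declarations of `Fermat.Agent.RT.K6.C4UGetFinal` that depend on `IsTameAt`,
with `Tame3 d L := Nat.Coprime d (2 * L) ∧ 2 ∣ L` in place of `Nat.Coprime d (6 * L)` (suffix `_t3`).
Generated from the landed file; the proofs are the originals.
-/
import Fermat.Agent.RT.K6.C4UGetFinal
import Fermat.Agent.RT.K6T.Base
import Fermat.Agent.RT.K6T.C4UGet

set_option autoImplicit false
set_option linter.style.haveILetI false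
set_option linter.unusedSectionVars false
set_option linter.unusedVariables false
set_option linter.style.longLine false
set_option synthInstance.maxHeartbeats 400000
set_option maxHeartbeats 1000000
noncomputable section
namespace Fermat.Agent.RT.K6
open ModularCurve AlgebraicCurve Fermat.Agent.ES Fermat.Agent.ES.G2 Fermat.Agent.INJ
open Fermat.Agent.UNIP Fermat.Agent.STB Fermat.Agent.ES1 Fermat.Agent.ES1.G2 Fermat.Agent.AL
  IntermediateField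
section Concrete
variable {A : ValuationSubring Qb} {K₁ : IntermediateField ℚ Qb}
  [IsDiscreteValuationRing ↥(mgcA A K₁)] {π : ↥(mgcA A K₁)} (hπ : Irreducible π)
  (ιC : ↥(mgcE A K₁) →+* ℂ) {q M₁ : ℕ} [NeZero q] [NeZero M₁] [NeZero (M₁ * q)]
  (hq : q.Prime) (hqM : ¬ q ∣ M₁) (M : ℕ) (H : Subgroup (ZMod M)ˣ)

/-- **The Kummer data of the case (U)** from (K1) the characters and (K2) the generation. -/
theorem rtk6c4u_kummer_of_K_t3 [NeZero M] (hA : A.LiesOverPrime q)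
    (hqπ : Associated ((q : ℕ) : ↥(mgcA A K₁)) π)
    (hML : M ∣ M₁ * q) (hqN : q ∣ M) (h4 : 4 ∣ M₁ * q)
    (hat : ∀ c : (ZMod M)ˣ, IsAtR M q c → c ∈ pmH H)
    (htame : IsTameAt_t3 (M₁ * q) M q H)
    (hK1 : ∀ d : ℕ, Tame3 d ((M₁ * q)) → (∀ c : (ZMod M)ˣ, c ^ d ∈ pmH H) →
      ∃ (k : ℕ) (ψ : Fin k → ((ZMod M)ˣ →* (↥(mgcE A K₁))ˣ)),
        (∀ i, ∀ h ∈ H, ψ i h = 1) ∧ (∀ i, ψ i (-1) = 1) ∧ (∀ i c, ψ i c ^ d = 1) ∧
        (∀ c, (∀ i, ψ i c = 1) → c ∈ pmH H))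
    (hK2 : ∀ (d k : ℕ) (ψ : Fin k → ((ZMod M)ˣ →* (↥(mgcE A K₁))ˣ)), d ≠ 0 →
      (∀ i, ∀ h ∈ H, ψ i h = 1) → (∀ i, ψ i (-1) = 1) → (∀ i c, ψ i c ^ d = 1) →
      (∀ c, (∀ i, ψ i c = 1) → c ∈ pmH H) →
      letI := rtk6c4uAlg (mgcE A K₁) (M₁ * q) M H
      Algebra.adjoin ↥(modularFunctionFieldFullC ↥(mgcE A K₁) (M₁ * q))
        (Set.range fun i => (⟨rtk6n0Y ↥(mgcE A K₁) M H (ψ i), rtk6n0Y_mem hML⟩ :
          ↥(fieldC ↥(mgcE A K₁) (M₁ * q) M H))) = ⊤) :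
    Rtk6c4uKummer hπ ιC hq hqM M H := by
  have hM0 : M ≠ 0 := NeZero.ne M
  have hN3 := rtk6c4u_three_le hq hqN hM0 hqM h4
  obtain ⟨w₀, hw₀⟩ := rtk6n0b_exists_w (H := H) hq hqM hML hqN
    (rtk6ei_starStable_of_hat hM0 hqN hat)
  obtain ⟨d, hd, hdH⟩ := htame
  obtain ⟨k, ψ, hψH, hψ1, hψd, hfaith⟩ := hK1 d hd hdH
  have hd0 : d ≠ 0 := rtk6t_ne_zero hd
  exact rtk6c4u_kummer_of_psi_adjoin_t3 hπ ιC hq hqM M H hA hqπ hML hqN hN3 hw₀ hat hd ψ hψH hψ1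
    hψd (hK2 d k ψ hd0 hψH hψ1 hψd hfaith)

end Concrete
end Fermat.Agent.RT.K6
end
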