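/-
K6 at p = 3 (helper4): fork of the declarations of `Fermat.Agent.RT.K6.C4UKumChar` that depend on `IsTameAt`,
with `Tame3 d L := Nat.Coprime d (2 * L) ∧ 2 ∣ L` in place of `Nat.Coprime d (6 * L)` (suffix `_t3`).
Generated from the landed file; the proofs are the originals.
-/
import Fermat.Agent.RT.K6.C4UKumChar
import Fermat.Agent.RT.K6T.Base
import Fermat.Agent.RT.K6T.Psi

set_option autoImplicit false
set_option linter.style.haveILetI false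
set_option linter.unusedSectionVars false
set_option linter.unusedVariables false
noncomputable section
namespace Fermat.Agent.RT.K6
open Fermat.Agent.ES1 Fermat.Agent.UNIP Fermat.Agent.STB IntermediateField
open Fermat.Agent.ES Fermat.Agent.ES.G2
section Char
variable {A : ValuationSubring Qb} {K₀ : IntermediateField ℚ Qb} {q : ℕ}

/-- `d` prime to `6 L`, `q ∣ L` ⇒ `q ∤ d` -/
theorem rtk6c4uc_not_dvd_t3 (hq : q.Prime) {L d : ℕ} (hdc : Tame3 d (L)) (hqL : q ∣ L) :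
    ¬ q ∣ d := by
  exact rtk6t_not_dvd hq hqL hdc

/-- **(K1), with the triviality on `±H`.** -/
theorem rtk6c4uc_characters_pm_t3 (hq : q.Prime) (hA : A.LiesOverPrime q)
    (hE : beta0Field A ≤ K₀) {L M : ℕ} (H : Subgroup (ZMod M)ˣ) (hM0 : M ≠ 0) {d : ℕ}
    (hdc : Tame3 d (L)) (hqL : q ∣ L) (hdH : ∀ c : (ZMod M)ˣ, c ^ d ∈ pmH H) :
    ∃ (k : ℕ) (ψ : Fin k → ((ZMod M)ˣ →* (↥K₀)ˣ)),
      (∀ i, ∀ h ∈ pmH H, ψ i h = 1) ∧ (∀ i, ∀ h ∈ H, ψ i h = 1) ∧ (∀ i, ψ i (-1) = 1) ∧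
      (∀ i c, ψ i c ^ d = 1) ∧ (∀ c, (∀ i, ψ i c = 1) → c ∈ pmH H) := by
  haveI : NeZero M := ⟨hM0⟩
  have hd0 : d ≠ 0 := rtk6psi_ne_zero_of_coprime_t3 hdc
  obtain ⟨k, ψ, h1, h2, h3⟩ := rtk6psi_abs_family (G := (ZMod M)ˣ) ↥K₀ (pmH H) hd0 hdH
    (rtk6c4uc_exists_primitiveRoot hq hA hE hd0 (rtk6c4uc_not_dvd_t3 hq hdc hqL))
  exact ⟨k, ψ, h1, fun i h hh => h1 i h (le_pmH H hh), fun i => h1 i _ (neg_one_mem_pmH H),
    h2, h3⟩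

/-- **(K1) CHARACTERS**: the characters `ψ_i : (ℤ/M)ˣ → K₀ˣ`, trivial on `H` and on `−1`, of
exponent `d`, jointly faithful modulo `±H`. -/
theorem rtk6c4uc_characters_t3 (hq : q.Prime) (hA : A.LiesOverPrime q)
    (hE : beta0Field A ≤ K₀) {L M : ℕ} (H : Subgroup (ZMod M)ˣ) (hM0 : M ≠ 0) {d : ℕ}
    (hdc : Tame3 d (L)) (hqL : q ∣ L) (hdH : ∀ c : (ZMod M)ˣ, c ^ d ∈ pmH H) :
    ∃ (k : ℕ) (ψ : Fin k → ((ZMod M)ˣ →* (↥K₀)ˣ)),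
      (∀ i, ∀ h ∈ H, ψ i h = 1) ∧ (∀ i, ψ i (-1) = 1) ∧ (∀ i c, ψ i c ^ d = 1) ∧
      (∀ c, (∀ i, ψ i c = 1) → c ∈ pmH H) := by
  obtain ⟨k, ψ, -, h1, h2, h3, h4⟩ := rtk6c4uc_characters_pm_t3 hq hA hE H hM0 hdc hqL hdH
  exact ⟨k, ψ, h1, h2, h3, h4⟩

end Char
end Fermat.Agent.RT.K6
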