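/-
K6 at p = 3 (helper4): fork of the declarations of `Fermat.Agent.RT.K6.UnipFinal` that depend on `IsTameAt`,
with `Tame3 d L := Nat.Coprime d (2 * L) ∧ 2 ∣ L` in place of `Nat.Coprime d (6 * L)` (suffix `_t3`).
Generated from the landed file; the proofs are the originals.
-/
import Fermat.Agent.RT.K6.UnipFinal
import Fermat.Agent.RT.K6T.Base
import Fermat.Agent.RT.K6T.C4InstBU
import Fermat.Agent.RT.K6T.C4UGetFinal
import Fermat.Agent.RT.K6T.C4UKumChar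
import Fermat.Agent.RT.K6T.EInstRig

set_option autoImplicit false
set_option linter.style.haveILetI false
set_option linter.unusedSectionVars false
set_option linter.unusedVariables false
set_option linter.style.longLine false
set_option synthInstance.maxHeartbeats 400000
set_option maxHeartbeats 1000000
noncomputable section
namespace Fermat.Agent.RT.K6
open ModularCurve AlgebraicCurve Fermat.Agent.ES Fermat.Agent.ES.G2 Fermat.Agent.INJ
open Fermat.Agent.UNIP Fermat.Agent.STB Fermat.Agent.ES1 Fermat.Agent.ES1.G2 Fermat.Agent.AL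
  IntermediateField
section Concrete
variable {A : ValuationSubring Qb} {K₁ : IntermediateField ℚ Qb}
  [IsDiscreteValuationRing ↥(mgcA A K₁)] {π : ↥(mgcA A K₁)} (hπ : Irreducible π)
  (ιC : ↥(mgcE A K₁) →+* ℂ) {q M₁ : ℕ} [NeZero q] [NeZero M₁] [NeZero (M₁ * q)]
  (hq : q.Prime) (hqM : ¬ q ∣ M₁) (M : ℕ) (H : Subgroup (ZMod M)ˣ)

/-- **The Kummer data of the case (U)**, unconditionally (level `K₁` unramified). -/
theorem rtk6uf_kummer_t3 [NeZero M] (hA : A.LiesOverPrime q)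
    (hqπ : Associated ((q : ℕ) : ↥(mgcA A K₁)) π)
    (hML : M ∣ M₁ * q) (hqN : q ∣ M) (h4 : 4 ∣ M₁ * q)
    (hat : ∀ c : (ZMod M)ˣ, IsAtR M q c → c ∈ pmH H)
    (htame : IsTameAt_t3 (M₁ * q) M q H) :
    Rtk6c4uKummer hπ ιC hq hqM M H :=
  rtk6c4u_kummer_of_K_t3 hπ ιC hq hqM M H hA hqπ hML hqN h4 hat htame
    (fun d hdc hdH => rtk6c4uc_characters_t3 hq hA le_sup_left H (NeZero.ne M) hdc
      (Dvd.intro_left M₁ rfl) hdH)
    (fun d k ψ hd0 hψH hψ1 hψd hfaith =>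
      rtk6c4uk_gen_alg (mgcE A K₁) H ψ (NeZero.ne (M₁ * q)) hML
        (rtk6c4u_three_le hq hqN (NeZero.ne M) hqM h4) hψH hψ1 hd0 hψd hfaith)

include hπ ιC hq hqM in
/-- **(G-et) on both charts, case (U)**, unconditionally. -/
theorem rtk6uf_get_t3 [NeZero M] [Normal ℚ K₁] (hA : A.LiesOverPrime q)
    (hqπ : Associated ((q : ℕ) : ↥(mgcA A K₁)) π)
    (hML : M ∣ M₁ * q) (hqN : q ∣ M) (h4 : 4 ∣ M₁ * q)
    (hat : ∀ c : (ZMod M)ˣ, IsAtR M q c → c ∈ pmH H)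
    (htame : IsTameAt_t3 (M₁ * q) M q H) :
    Rtk6c4uGet π M H (bgJ ↥(mgcE A K₁) (M₁ * q)) ∧
      Rtk6c4uGet π M H (bgJ ↥(mgcE A K₁) (M₁ * q))⁻¹ := by
  have hk := rtk6uf_kummer_t3 hπ ιC hq hqM M H hA hqπ hML hqN h4 hat htame
  have rigid := rtk6c4b_rigid hq hqM h4
  exact ⟨rtk6c4u_get_J hπ ιC hq hqM M H hA hqπ rigid hk,
    rtk6uf_get_Jinv hπ ιC hq hqM M H hA hqπ rigid hk⟩

end Concrete

/-- **CASE (U), CLOSED: `StmtRtk6GeomUnip_t3`.** -/
theorem rtk6uf_geomUnip_t3 : StmtRtk6GeomUnip_t3 :=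
  rtk6c4b_geomUnip_t3
    (fun q M₁ _ _ _ M H hq hqM' hM0 hqM hML hat htame h4 w₀ hw₀ A hA _ hcomm => by
      haveI : NeZero M := ⟨hM0⟩
      exact rtk6c4b_asm_of_get hq hqM' hM0 hqM hML h4 w₀ hw₀ hA hcomm
        (fun {ϖ₁} hϖ₁ hass => (rtk6uf_get_t3 hϖ₁ (mgdIota (mgcE A (rtk6ebK q 1))) hq hqM M H hA
          hass hML hqM' h4 hat htame).1)
        (fun {ϖ₁} hϖ₁ hass => (rtk6uf_get_t3 hϖ₁ (mgdIota (mgcE A (rtk6ebK q 1))) hq hqM M H hA
          hass hML hqM' h4 hat htame).2))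

end Fermat.Agent.RT.K6
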