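/-
K6 at p = 3 (helper4): **`rtk6t_stmtChiJDiv3 : StmtChiJDiv3`** — (χ-J) on the divisible classes at the
tame levels with `L` EVEN, for every ODD exponent `m` prime to `r` (so `m = 3 ^ n` is allowed) and
every exponent `d` of the diamond group prime to `2 L` (so `d = 3 ^ k`, `3 ∤ L`, is allowed).

Twin of `RT/K6/FAuxRig.lean` + `Master.lean` + `ChiJDiv5.lean`.  The norm descent to the rigid level
is ONE step `L → 2 L` (`rtk6fa_step` at `ℓ₀ = 2 ∣ L`: index `2`), instead of `L → 36 L`.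
-/
import Fermat.Agent.RT.K6.FAuxRig
import Fermat.Agent.RT.K6T.EInstRig
import Fermat.Agent.RT.K6T.C4AsmThinInv
import Fermat.Agent.RT.K6T.UnipFinal

set_option autoImplicit false
set_option linter.unusedSectionVars false
set_option linter.style.haveILetI false

noncomputable section

namespace Fermat.Agent.RT.K6

open ModularCurve AlgebraicCurve Fermat.Agent.ES Fermat.Agent.ES1 Fermat.Agent.ES1.G2

/-- **(χ-J) on the divisible classes**, tame levels at `p = 3`: `L` even (inside `IsTameAt_t3`),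
`r` odd, exponents `m` odd. -/
def StmtChiJDiv3 : Prop :=
  ∀ (L M : ℕ) (H : Subgroup (ZMod M)ˣ) (r : ℕ), L ≠ 0 → M ∣ L → r.Prime → r ∣ M → ¬ r ^ 2 ∣ L →
    IsStarStable M r H → IsTameAt_t3 L M r H → r ≠ 2 →
    ∀ A : ValuationSubring QbH, A.LiesOverPrime r →
      ∀ m : ℕ, ¬ r ∣ m → Nat.Coprime m 2 →
        ∀ σ ∈ A.inertiaSubgroupIn ℚ, ∀ c : (ZMod M)ˣ, IsCycAt M r σ c →
        ∀ δ : fieldBar L M H ≃ₐ[QbH] fieldBar L M H, IsDiamondH L M H c δ →
          ∀ x : JH L M H, m • x = 0 → IsDivJ x →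
            σ • diamondJ δ (σ • x) - σ • x - diamondJ δ (σ • x) + x = 0

/-- **K6 / F + AUX at `p = 3`** from the outputs of piece E at the tame rigid levels. -/
theorem stmtChiJDiv3_of_rig (hK : StmtChiKummerRig_t3) (hU : StmtUnipHRig_t3) : StmtChiJDiv3 := by
  intro L M H r hL hML hr hrM hr2 hstar htame hrne A hA m hrm hm2 σ hσ c hc δ hδ x hx hdiv
  have hM0 : M ≠ 0 := fun h => hL (by rw [h] at hML; exact Nat.eq_zero_of_zero_dvd hML)
  haveI : NeZero M := ⟨hM0⟩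
  have h2L : 2 ∣ L := by
    obtain ⟨d, hd, _⟩ := htame
    exact rtk6t_even hd
  have hL2 : L * 2 ≠ 0 := Nat.mul_ne_zero hL (by norm_num)
  have hML2 : M ∣ L * 2 := Dvd.dvd.mul_right hML _
  have hcop : Nat.Coprime (r ^ 2) 2 :=
    Nat.Coprime.pow_left 2 ((Nat.coprime_primes hr Nat.prime_two).mpr hrne)
  have hr22 : ¬ r ^ 2 ∣ L * 2 := fun h => hr2 (hcop.dvd_of_dvd_mul_right h)
  have h4 : 4 ∣ L * 2 := by
    obtain ⟨k, hk⟩ := h2L
    exact ⟨k, by rw [hk]; ring⟩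
  have htame2 : IsTameAt_t3 (L * 2) M r H := rtk6t_isTameAt_mul_two htame
  have hmain : ChiJDivAt (L * 2) M H r :=
    rtk6f_main hL2 hML2 hr hrM hr22
      (hK _ M H r hL2 hML2 hr hrM hr22 hstar htame2 h4)
      (hU _ M (H ⊔ rtk6fAtR M r hrM) r hL2 hML2 hr hrM hr22
        (fun c' hc' => rtk6f_atR_le H hrM ((mem_rtk6fAtR hrM).mpr hc'))
        (rtk6t_isTameAt_mono (rtk6f_pm_le H hrM) htame2) h4)
  have key : ChiJDivAtM (L * 2) M H r m :=
    fun A' hA' σ' hσ' c' hc' δ' hδ' y hy hyd =>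
      hmain A' hA' m hrm σ' hσ' c' hc' δ' hδ' y hy hyd
  have hstep : ChiJDivAtM L M H r m :=
    rtk6fa_step L M H r m 2 hL hML Nat.prime_two (by rw [if_pos h2L]; exact hm2) key
  exact hstep A hA σ hσ c hc δ hδ x hx hdiv

/-- **K6 at `p = 3`, closed**: `StmtChiJDiv3`. -/
theorem rtk6t_stmtChiJDiv3 : StmtChiJDiv3 :=
  stmtChiJDiv3_of_rig (rtk6ei_stmtChiKummerRig_t3 rtk6c4at_geomChi_t3)
    (rtk6ei_stmtUnipHRig_t3 rtk6uf_geomUnip_t3)

end Fermat.Agent.RT.K6
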