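/-
K6 at p = 3 (helper4): the consumers' entry points, twins of `ES1/Inf/TwChi5.lean`.

* `es1inftw_chiAt_of3 : StmtChiJDiv3 → … → IsTameAt_t3 L M r H → Es1inftwChiAt L M H r p`
  (`p`, `r` odd; `L` even is inside `IsTameAt_t3`);
* `es1inftw_chi_rel3`, `es1inftw_chi_approx3` : (TW4) from `StmtChiJDiv3`;
* `es1inftw_chi_rel3'`, `es1inftw_chi_approx3'` : the same with `rtk6t_stmtChiJDiv3` plugged in.
-/
import Fermat.Agent.ES1.Inf.TwChi5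
import Fermat.Agent.RT.K6T.Final

set_option autoImplicit false
set_option linter.unusedSectionVars false
set_option linter.style.haveILetI false

noncomputable section

namespace Fermat.Agent.ES1

open ModularCurve AlgebraicCurve
open Fermat.Agent.ES Fermat.Agent.S48 Fermat.Agent.RT.K6 Fermat.Agent.ES1.G2

/-- from the form which K6 delivers at `p = 3`: `r ≠ 2`, `p ≠ 2`, `L` even -/
theorem es1inftw_chiAt_of3 (hChi : StmtChiJDiv3) {L M : ℕ} {H : Subgroup (ZMod M)ˣ} {r p : ℕ}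
    (hL : L ≠ 0) (hML : M ∣ L) (hp : p.Prime) (hp2 : p ≠ 2) (hr : r.Prime) (hrne : r ≠ 2)
    (hrM : r ∣ M) (hr2 : ¬ r ^ 2 ∣ L) (hrp : r ≠ p) (hstar : IsStarStable M r H)
    (htame : IsTameAt_t3 L M r H) :
    Es1inftwChiAt L M H r p := by
  intro A hA a σ hσ c hc δ hδ x hx hdiv
  have hra : ¬ r ∣ p ^ a := fun h =>
    hrp ((Nat.prime_dvd_prime_iff_eq hr hp).mp (hr.dvd_of_dvd_pow h))
  have hp2' : Nat.Coprime p 2 := (Nat.coprime_primes hp Nat.prime_two).mpr hp2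
  have hm2 : Nat.Coprime (p ^ a) 2 := Nat.Coprime.pow_left a hp2'
  exact hChi L M H r hL hML hr hrM hr2 hstar htame hrne A hA (p ^ a) hra hm2 σ hσ c hc δ hδ x hx
    hdiv

variable {L M : ℕ} [NeZero L] [NeZero M] {H : Subgroup (ZMod M)ˣ} {p : ℕ}
  [hML : Fact (M ∣ L)] [hp : Fact p.Prime]

/-- **(TW4)** from `StmtChiJDiv3` (`p`, `r` odd, `L` even). -/
theorem es1inftw_chi_rel3 (hChi : StmtChiJDiv3) (hp2 : p ≠ 2) (e : ℕ) (he : 1 ≤ e)
    (hE : ∀ c : (ZMod M)ˣ, c ^ (2 * e - 1) ∈ pmH H) (χ : GalQ →* (ZMod M)ˣ)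
    {r : ℕ} (hr : r.Prime) (hrne : r ≠ 2) (hrM : r ∣ M) (hr2 : ¬ r ^ 2 ∣ L) (hrp : r ≠ p)
    (hstar : IsStarStable M r H) (htame : IsTameAt_t3 L M r H)
    (A : ValuationSubring (AlgebraicClosure ℚ)) (hA : A.LiesOverPrime r) (σ : GalQ)
    (hσ : σ ∈ A.inertiaSubgroupIn ℚ) (hχσ : χ σ = Fermat.Agent.S42.cycloChar M σ ^ e)
    (x : es1inftwJ L M H p χ) :
    σ • σ • x - es1inftwChiPoly M e (Fermat.Agent.S42.cycloChar M σ) • (σ • x) + x = 0 :=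
  es1inftw_chi_rel_at
    (es1inftw_chiAt_of3 hChi (NeZero.ne L) hML.out hp.out hp2 hr hrne hrM hr2 hrp hstar htame)
    e he hE χ hr hrM hr2 A hA σ hσ hχσ x

/-- **(TW4), `Approx` form**, from `StmtChiJDiv3` (`p`, `r` odd, `L` even). -/
theorem es1inftw_chi_approx3 (hChi : StmtChiJDiv3) (hp2 : p ≠ 2) (e : ℕ) (he : 1 ≤ e)
    (hE : ∀ c : (ZMod M)ˣ, c ^ (2 * e - 1) ∈ pmH H) (χ : GalQ →* (ZMod M)ˣ)
    {r : ℕ} (hr : r.Prime) (hrne : r ≠ 2) (hrM : r ∣ M) (hr2 : ¬ r ^ 2 ∣ L) (hrp : r ≠ p)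
    (hstar : IsStarStable M r H) (htame : IsTameAt_t3 L M r H)
    (A : ValuationSubring (AlgebraicClosure ℚ)) (hA : A.LiesOverPrime r) (σ : GalQ)
    (hσ : σ ∈ A.inertiaSubgroupIn ℚ) (hχσ : χ σ = Fermat.Agent.S42.cycloChar M σ ^ e)
    (n : ℕ) :
    Fermat.Agent.RT.Rtk7bApprox p (es1inftwJ L M H p χ)
      (fun n g => ((Fermat.Agent.S30.cycE p n g : ℕ) : HDAlg M)) n σ
      (es1inftwChiPoly M e (Fermat.Agent.S42.cycloChar M σ)) :=
  es1inftw_chi_approx_at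
    (es1inftw_chiAt_of3 hChi (NeZero.ne L) hML.out hp.out hp2 hr hrne hrM hr2 hrp hstar htame)
    e he hE χ hr hrM hr2 hrp A hA σ hσ hχσ n

end Fermat.Agent.ES1
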