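/-
K6 for EVERY odd prime `p` (helper34): the uniform entry point of the consumers.

`RT/K6/ChiJDiv5.lean` closes (χ-J) for exponents prime to `6` (`p ≥ 5`), `RT/K6T/Final.lean`
(helper4's fork) closes it for odd exponents at EVEN levels (`p = 3`).  The consumers (the
K-machine for a general curve, `p ∈ {3, 5}`) want ONE statement under the standing hypothesis of
K7-FLAT, `5 ≤ p ∨ (5 - p) ∣ L` (`RT/K7F/Plan.lean`, `K7FLevel.h5`):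

* `rtk6t_even_of_h5`  : `p` an odd prime, `¬ 5 ≤ p`, `(5 - p) ∣ L` ⇒ `2 ∣ L`;
* `es1inftw_chiAt_odd` : `Es1inftwChiAt L M H r p` for every odd prime `p ∤ L` with
  `5 ≤ p ∨ (5 - p) ∣ L`, every prime `r ≥ 5`, as soon as `p ^ n` kills `(ℤ/M)ˣ / ±H`;
* `es1inftw_chi_rel_odd`, `es1inftw_chi_approx_odd` : (TW4) in the forms of `ES1/Inf/TwChi5.lean`.
-/
import Fermat.Agent.RT.K6.ChiJDiv5
import Fermat.Agent.RT.K6T.TwChi3
import Fermat.Agent.RT.K6T.Grp3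

set_option autoImplicit false
set_option linter.unusedSectionVars false
set_option linter.style.haveILetI false

noncomputable section

namespace Fermat.Agent.ES1

open ModularCurve AlgebraicCurve
open Fermat.Agent.ES Fermat.Agent.S48 Fermat.Agent.RT.K6 Fermat.Agent.ES1.G2

/-- an odd prime `p < 5` is `3`, so `(5 - p) ∣ L` says that `L` is even -/
theorem rtk6t_even_of_h5 {p L : ℕ} (hp : p.Prime) (hp2 : p ≠ 2) (h5 : ¬ 5 ≤ p)
    (h : (5 - p) ∣ L) : 2 ∣ L := by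
  have h2 := hp.two_le
  have hp3 : p = 3 := by
    have hlt : p < 5 := not_le.mp h5
    interval_cases p
    · exact absurd rfl hp2
    · rfl
    · exact absurd hp (by norm_num)
  subst hp3
  exact h

/-- a power of a prime `p ≥ 5`, `p ∤ L`, is prime to `6 L` -/
theorem rtk6t_coprime_six_pow {p L : ℕ} (hp : p.Prime) (hp5 : 5 ≤ p) (hpL : ¬ p ∣ L) (n : ℕ) :
    Nat.Coprime (p ^ n) (6 * L) := by
  refine Nat.Coprime.pow_left n ?_
  rw [Nat.Prime.coprime_iff_not_dvd hp]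
  intro h
  rcases (Nat.Prime.dvd_mul hp).mp h with h6 | hL
  · have h6' : p ∣ 2 * 3 := by
      have e : (6 : ℕ) = 2 * 3 := by norm_num
      rwa [e] at h6
    rcases (Nat.Prime.dvd_mul hp).mp h6' with h2 | h3
    · have := (Nat.prime_dvd_prime_iff_eq hp Nat.prime_two).mp h2
      omega
    · have := (Nat.prime_dvd_prime_iff_eq hp Nat.prime_three).mp h3
      omega
  · exact hpL hL

/-- **K6 for every odd prime**: what `es1inftw_chiJ` uses of K6, under the level hypothesis of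
K7-FLAT (`5 ≤ p`, or `p = 3` and `L` even). -/
theorem es1inftw_chiAt_odd {L M : ℕ} {H : Subgroup (ZMod M)ˣ} {r p : ℕ}
    (hL : L ≠ 0) (hML : M ∣ L) (hp : p.Prime) (hp2 : p ≠ 2) (hpL : ¬ p ∣ L)
    (h5 : 5 ≤ p ∨ (5 - p) ∣ L) (hr : r.Prime) (hr5 : 5 ≤ r)
    (hrM : r ∣ M) (hr2 : ¬ r ^ 2 ∣ L) (hrp : r ≠ p) (hstar : IsStarStable M r H)
    (n : ℕ) (hexp : ∀ c : (ZMod M)ˣ, c ^ p ^ n ∈ pmH H) :
    Es1inftwChiAt L M H r p := by
  by_cases hp5 : 5 ≤ p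
  · exact es1inftw_chiAt_of5 rtk6c4at_stmtChiJDiv5 hL hML hp hp5 hr hr5 hrM hr2 hrp hstar
      ⟨p ^ n, rtk6t_coprime_six_pow hp hp5 hpL n, hexp⟩
  · have h2L : 2 ∣ L := by
      rcases h5 with h | h
      · exact absurd h hp5
      · exact rtk6t_even_of_h5 hp hp2 hp5 h
    exact es1inftw_chiAt_of3 rtk6t_stmtChiJDiv3 hL hML hp hp2 hr (by omega) hrM hr2 hrp hstar
      ⟨p ^ n, Fermat.Agent.RT.rtk6t_tame3_pow hp hp2 hpL h2L n, hexp⟩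

variable {L M : ℕ} [NeZero L] [NeZero M] {H : Subgroup (ZMod M)ˣ} {p : ℕ}
  [hML : Fact (M ∣ L)] [hp : Fact p.Prime]

/-- **(TW4)** for every odd prime `p ∤ L` with `5 ≤ p ∨ (5 - p) ∣ L`. -/
theorem es1inftw_chi_rel_odd (hp2 : p ≠ 2) (hpL : ¬ p ∣ L) (h5 : 5 ≤ p ∨ (5 - p) ∣ L)
    (e : ℕ) (he : 1 ≤ e)
    (hE : ∀ c : (ZMod M)ˣ, c ^ (2 * e - 1) ∈ pmH H) (χ : GalQ →* (ZMod M)ˣ)
    {r : ℕ} (hr : r.Prime) (hr5 : 5 ≤ r) (hrM : r ∣ M) (hr2 : ¬ r ^ 2 ∣ L) (hrp : r ≠ p)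
    (hstar : IsStarStable M r H) (m : ℕ) (hexp : ∀ c : (ZMod M)ˣ, c ^ p ^ m ∈ pmH H)
    (A : ValuationSubring (AlgebraicClosure ℚ)) (hA : A.LiesOverPrime r) (σ : GalQ)
    (hσ : σ ∈ A.inertiaSubgroupIn ℚ) (hχσ : χ σ = Fermat.Agent.S42.cycloChar M σ ^ e)
    (x : es1inftwJ L M H p χ) :
    σ • σ • x - es1inftwChiPoly M e (Fermat.Agent.S42.cycloChar M σ) • (σ • x) + x = 0 :=
  es1inftw_chi_rel_at
    (es1inftw_chiAt_odd (NeZero.ne L) hML.out hp.out hp2 hpL h5 hr hr5 hrM hr2 hrp hstar m hexp)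
    e he hE χ hr hrM hr2 A hA σ hσ hχσ x

/-- **(TW4), `Approx` form**, for every odd prime `p ∤ L` with `5 ≤ p ∨ (5 - p) ∣ L`. -/
theorem es1inftw_chi_approx_odd (hp2 : p ≠ 2) (hpL : ¬ p ∣ L) (h5 : 5 ≤ p ∨ (5 - p) ∣ L)
    (e : ℕ) (he : 1 ≤ e)
    (hE : ∀ c : (ZMod M)ˣ, c ^ (2 * e - 1) ∈ pmH H) (χ : GalQ →* (ZMod M)ˣ)
    {r : ℕ} (hr : r.Prime) (hr5 : 5 ≤ r) (hrM : r ∣ M) (hr2 : ¬ r ^ 2 ∣ L) (hrp : r ≠ p)
    (hstar : IsStarStable M r H) (m : ℕ) (hexp : ∀ c : (ZMod M)ˣ, c ^ p ^ m ∈ pmH H)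
    (A : ValuationSubring (AlgebraicClosure ℚ)) (hA : A.LiesOverPrime r) (σ : GalQ)
    (hσ : σ ∈ A.inertiaSubgroupIn ℚ) (hχσ : χ σ = Fermat.Agent.S42.cycloChar M σ ^ e)
    (n : ℕ) :
    Fermat.Agent.RT.Rtk7bApprox p (es1inftwJ L M H p χ)
      (fun n g => ((Fermat.Agent.S30.cycE p n g : ℕ) : HDAlg M)) n σ
      (es1inftwChiPoly M e (Fermat.Agent.S42.cycloChar M σ)) :=
  es1inftw_chi_approx_at
    (es1inftw_chiAt_odd (NeZero.ne L) hML.out hp.out hp2 hpL h5 hr hr5 hrM hr2 hrp hstar m hexp)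
    e he hE χ hr hrM hr2 hrp A hA σ hσ hχσ n

end Fermat.Agent.ES1
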