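/-
K6 at p = 3 (helper4): fork of the declarations of `Fermat.Agent.RT.K6.EInstUS` that depend on `IsTameAt`,
with `Tame3 d L := Nat.Coprime d (2 * L) ∧ 2 ∣ L` in place of `Nat.Coprime d (6 * L)` (suffix `_t3`).
Generated from the landed file; the proofs are the originals.
-/
import Fermat.Agent.RT.K6.EInstUS
import Fermat.Agent.RT.K6T.Base
import Fermat.Agent.RT.K6T.EInstRig
import Fermat.Agent.RT.K6T.EInstU

set_option autoImplicit false
set_option linter.style.haveILetI false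
set_option linter.unusedSectionVars false
set_option linter.unusedVariables false
set_option linter.style.longLine false
noncomputable section
namespace Fermat.Agent.RT.K6
open ModularCurve AlgebraicCurve Fermat.Agent.ES Fermat.Agent.ES.G2 Fermat.Agent.INJ
open Fermat.Agent.UNIP Fermat.Agent.STB Fermat.Agent.ES1 Fermat.Agent.ES1.G2 IntermediateField

/-- **(SS1-inst), generic in `(K₁, w)`**, at the tame rigid levels. -/
theorem rtk6eiu_stmtSS1Gen_t3 : StmtRtk6SS1Gen_t3 := by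
  intro q M₁ _ _ _ M H hq hqM hML htame h4 A hA K₁ _ π hπ ιC w hw
  obtain ⟨d, hdc, hd⟩ := htame
  have hL : M₁ * q ≠ 0 := NeZero.ne (M₁ * q)
  have hq2 : q ≠ 2 := by
    rintro rfl
    apply hqM
    have h5 : 2 ∣ M₁ := by omega
    exact h5
  have hd0 : d ≠ 0 := rtk6t_ne_zero hdc
  have hqd : ¬ q ∣ d := rtk6t_not_dvd hq (Dvd.intro_left M₁ rfl) hdc
  have h3 : q = 3 → 2 ∣ M₁ := by
    rintro rfl
    have h5 : 4 ∣ M₁ :=
      (Nat.Coprime.dvd_mul_right (by norm_num : Nat.Coprime 4 3)).mp h4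
    exact dvd_trans (by norm_num : 2 ∣ 4) h5
  exact rtk6sj_emSS1 hπ ιC hq hqM hw hA hML (fun h => absurd h hq2) h3 hd0 hqd hd

/-- **Case (U): `StmtRtk6GeomUnip_t3` from the provider `hNode` ALONE.** -/
theorem rtk6eiu_geomUnip_of_node_t3
    (hNode : ∀ (q M₁ : ℕ) [NeZero q] [NeZero M₁] [NeZero (M₁ * q)] (M : ℕ)
      (H : Subgroup (ZMod M)ˣ) (hq : q.Prime) (hqM' : q ∣ M) (hM0 : M ≠ 0), ¬ q ∣ M₁ →
      M ∣ M₁ * q → (∀ c : (ZMod M)ˣ, IsAtR M q c → c ∈ pmH H) → IsTameAt_t3 (M₁ * q) M q H →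
      4 ∣ M₁ * q →
      ∀ (w₀ : fieldBar (M₁ * q) M H ≃ₐ[Qb] fieldBar (M₁ * q) M H)
        (hw₀ : IsWAt (M₁ * q) M H q w₀) (A : ValuationSubring Qb), A.LiesOverPrime q →
        Rtk6eiEv q A (fun K₁ _ hζ π hπ => Rtk6emNode A K₁ (M₁ * q) M H π
          (rtk6dfV hπ M H (rtk6diwW (K₀ := mgcE A K₁) w₀ hw₀ hM0 hq hqM' hζ)))) :
    StmtRtk6GeomUnip_t3 :=
  rtk6eiu_geomUnip_t3 rtk6eiu_stmtSS1Gen_t3 hNode

end Fermat.Agent.RT.K6
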