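/-
K6 at p = 3 (helper4): the tameness providers, twins of `rthkg_isTameAt` (`RT/Hecke/GrpLevel.lean`),
`rthkgH_isTameAt` (`GrpCanon.lean`), `rthkgb_isTameAt` (`GrpBridge.lean`), `rthkh_isTameAt`
(`ConcH.lean`): `p` odd, `p ∤ L`, `L` even  ⇒  `IsTameAt_t3`.
-/
import Fermat.Agent.RT.Hecke.GrpBridge
import Fermat.Agent.RT.Hecke.ConcH
import Fermat.Agent.RT.K6T.Base

set_option autoImplicit false
set_option linter.unusedSectionVars false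
set_option linter.style.haveILetI false

noncomputable section

namespace Fermat.Agent.RT

open Fermat.Agent.ES1 Fermat.Agent.RT.K5 Fermat.Agent.RT.K6 Fermat.Agent.RT.K7F

/-- a power of an odd prime `p ∤ L` is a tame exponent at the even level `L` -/
theorem rtk6t_tame3_pow {p : ℕ} (hp : p.Prime) (hp2 : p ≠ 2) {L : ℕ} (hpL : ¬ p ∣ L)
    (h2L : 2 ∣ L) (n : ℕ) : Tame3 (p ^ n) L := by
  refine ⟨Nat.Coprime.pow_left n ?_, h2L⟩
  rw [Nat.Prime.coprime_iff_not_dvd hp]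
  intro h
  rcases (Nat.Prime.dvd_mul hp).mp h with h2 | hL
  · exact hp2 ((Nat.prime_dvd_prime_iff_eq hp Nat.prime_two).mp h2)
  · exact hpL hL

variable {κ : Type} [Fintype κ] {p : ℕ} {v k : κ → ℕ} {M : ℕ}

/-- **`H' = ker π` is tame at `p = 3`** (`p` odd, `p ∤ L`, `L` even). -/
theorem rthkg_isTameAt_t3 (hp : p.Prime) (hp2 : p ≠ 2) {L : ℕ} (hpL : ¬ p ∣ L) (h2L : 2 ∣ L)
    (π : (ZMod M)ˣ →* (∀ x : κ, Multiplicative (ZMod (p ^ k x)))) (r : ℕ) :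
    IsTameAt_t3 L M r π.ker :=
  ⟨p ^ ∑ x, k x, rtk6t_tame3_pow hp hp2 hpL h2L _,
    fun c => rthkg_pow_mem_pmH (rthkg_le_sum k) π c dvd_rfl⟩

/-- **the canonical `H'` is tame at `p = 3`** (`p` odd, `p ∤ L`, `L` even). -/
theorem rthkgH_isTameAt_t3 (hp : p.Prime) (hp2 : p ≠ 2) {L : ℕ} (hpL : ¬ p ∣ L) (h2L : 2 ∣ L)
    (hM : ∀ x, v x ∣ M) (r : ℕ) : IsTameAt_t3 L M r (rthkgH p k hM) :=
  ⟨p ^ ∑ x, k x, rtk6t_tame3_pow hp hp2 hpL h2L _,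
    fun c => le_pmH _ (rthkgH_pow_mem hM (rthkg_le_sum k) c dvd_rfl)⟩

/-- **helper9's `H'` is tame at `p = 3`** (`p` odd, `p ∤ L`, `L` even). -/
theorem rthkgb_isTameAt_t3 (hp : p.Prime) (hp2 : p ≠ 2) {L : ℕ} (hpL : ¬ p ∣ L) (h2L : 2 ∣ L)
    (hM : ∀ x, v x ∣ M) (r : ℕ) : IsTameAt_t3 L M r (rthkdH p v k M hM) :=
  rthkgH_isTameAt_t3 hp hp2 hpL h2L hM r

/-- **`H'` of `ConcH.lean` is tame at `p = 3`** (`p` odd, `p ∤ L`, `L` even): twin of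
`rthkh_isTameAt`. -/
theorem rthkh_isTameAt_t3 (hp : p.Prime) (hp2 : p ≠ 2) {L : ℕ} (hpL : ¬ p ∣ L) (h2L : 2 ∣ L)
    (hM : ∀ x, v x ∣ M) (r : ℕ) : IsTameAt_t3 L M r (rthkdH p v k M hM) :=
  rthkgH_isTameAt_t3 hp hp2 hpL h2L hM r

/-- the same under the standing hypothesis of K7-FLAT, `5 ≤ p ∨ (5 - p) ∣ L`, when `p < 5` -/
theorem rthkh_isTameAt_t3_of_h5 (hp : p.Prime) (hp2 : p ≠ 2) {L : ℕ} (hpL : ¬ p ∣ L)
    (h5 : ¬ 5 ≤ p) (h : (5 - p) ∣ L) (hM : ∀ x, v x ∣ M) (r : ℕ) :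
    IsTameAt_t3 L M r (rthkdH p v k M hM) := by
  have h2L : 2 ∣ L := by
    have h2 := hp.two_le
    have hp3 : p = 3 := by
      have hlt : p < 5 := not_le.mp h5
      interval_cases p
      · exact absurd rfl hp2
      · rfl
      · exact absurd hp (by norm_num)
    subst hp3
    exact h
  exact rthkh_isTameAt_t3 hp hp2 hpL h2L hM r

end Fermat.Agent.RT
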